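/-
S41 / C4 [CSP] (helper11): basic API for the elementary proof of the congruence subgroup property
of `SL₂(ℤ[1/q])` for `𝔽_p`-valued characters.

* `CZ q M x`  (= `Ihara95.IsCongZero`): `x ∈ M ℤ[1/q]`; `Prin q M g` (= `Ihara95.IsPrincipal`);
* `Gam q M`           : the principal congruence subgroup `Γ(M) ⊆ SL₂(ℤ[1/q]) ⊆ SL(2,ℚ)`;
* `GA q`              : `SL₂(ℤ[1/q])`;
* `lQ, wQ, hQ`        : lower unipotent, Weyl element, torus;
* `ParHom q M Ψ`      : `Ψ : SL(2,ℚ) → V` is additive on `Γ(M)` and kills the unipotents of `Γ(M)`.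
-/
import Fermat.Agent.S41.Ihara95.Core

set_option autoImplicit false
set_option linter.unusedSectionVars false

namespace Fermat.Agent.S41.CSP11

open Matrix Fermat.Agent.S41.Amalgam95 Fermat.Agent.S41.Ihara95

/-! ### `CZ` API -/

/-- `x ∈ M ℤ[1/q]`; definitionally `Ihara95.IsCongZero` (own copy so that dot notation finds the
API of this file) -/
def CZ (q M : ℕ) (x : ℚ) : Prop := ∃ r : ℚ, IsAway q r ∧ x = (M : ℚ) * r

lemma CZ_iff_isCongZero (q M : ℕ) (x : ℚ) : CZ q M x ↔ IsCongZero q M x := Iff.rfl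

/-- `g ≡ 1 mod M ℤ[1/q]`; definitionally `Ihara95.IsPrincipal` -/
def Prin (q M : ℕ) (g : SLQ) : Prop :=
  CZ q M (g 0 0 - 1) ∧ CZ q M (g 0 1) ∧ CZ q M (g 1 0) ∧ CZ q M (g 1 1 - 1)

lemma Prin_iff_isPrincipal (q M : ℕ) (g : SLQ) : Prin q M g ↔ IsPrincipal q M g := Iff.rfl

section CongZero

variable {q M : ℕ} {x y : ℚ}

lemma CZ.isAway (h : CZ q M x) : IsAway q x := by
  obtain ⟨r, hr, rfl⟩ := h
  exact (IsAway.of_int (q := q) (M : ℤ)).mul hr |> fun h => by simpa using h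

lemma CZ.zero : CZ q M 0 := ⟨0, IsAway.zero, by ring⟩

lemma CZ.add (hx : CZ q M x) (hy : CZ q M y) : CZ q M (x + y) := by
  obtain ⟨r, hr, rfl⟩ := hx
  obtain ⟨s, hs, rfl⟩ := hy
  exact ⟨r + s, hr.add hs, by ring⟩

lemma CZ.neg (hx : CZ q M x) : CZ q M (-x) := by
  obtain ⟨r, hr, rfl⟩ := hx
  exact ⟨-r, hr.neg, by ring⟩

lemma CZ.sub (hx : CZ q M x) (hy : CZ q M y) : CZ q M (x - y) := by
  rw [sub_eq_add_neg]; exact hx.add hy.neg

lemma CZ.mul_away (hx : CZ q M x) (hy : IsAway q y) : CZ q M (x * y) := by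
  obtain ⟨r, hr, rfl⟩ := hx
  exact ⟨r * y, hr.mul hy, by ring⟩

lemma CZ.away_mul (hy : IsAway q y) (hx : CZ q M x) : CZ q M (y * x) := by
  rw [mul_comm]; exact hx.mul_away hy

lemma CZ.of_dvd {M' : ℕ} (h : M ∣ M') (hx : CZ q M' x) : CZ q M x := by
  obtain ⟨k, rfl⟩ := h
  obtain ⟨r, hr, rfl⟩ := hx
  refine ⟨(k : ℚ) * r, ?_, by push_cast; ring⟩
  have := (IsAway.of_int (q := q) (k : ℤ)).mul hr
  simpa using this

lemma isCongZero_natCast_mul (hy : IsAway q y) : CZ q M ((M : ℚ) * y) := ⟨y, hy, rfl⟩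

lemma isCongZero_one_iff : CZ q 1 x ↔ IsAway q x := by
  constructor
  · intro h; exact h.isAway
  · intro h; exact ⟨x, h, by simp⟩

end CongZero

/-! ### The groups -/

/-- `x ∈ ℤ[1/q]` entrywise -/
def IsAwayM (q : ℕ) (g : SLQ) : Prop :=
  IsAway q (g 0 0) ∧ IsAway q (g 0 1) ∧ IsAway q (g 1 0) ∧ IsAway q (g 1 1)

/-- `SL₂(ℤ[1/q])` -/
def GA (q : ℕ) : Subgroup SLQ where
  carrier := {g | IsAwayM q g}
  one_mem' := by
    refine ⟨?_, ?_, ?_, ?_⟩
    · rw [one_00]; exact IsAway.one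
    · rw [one_01]; exact IsAway.zero
    · rw [one_10]; exact IsAway.zero
    · rw [one_11]; exact IsAway.one
  mul_mem' := by
    rintro g h ⟨g00, g01, g10, g11⟩ ⟨h00, h01, h10, h11⟩
    refine ⟨?_, ?_, ?_, ?_⟩
    · rw [mul_00]; exact (g00.mul h00).add (g01.mul h10)
    · rw [mul_01]; exact (g00.mul h01).add (g01.mul h11)
    · rw [mul_10]; exact (g10.mul h00).add (g11.mul h10)
    · rw [mul_11]; exact (g10.mul h01).add (g11.mul h11)
  inv_mem' := by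
    rintro g ⟨g00, g01, g10, g11⟩
    refine ⟨?_, ?_, ?_, ?_⟩
    · rw [inv_00]; exact g11
    · rw [inv_01]; exact g01.neg
    · rw [inv_10]; exact g10.neg
    · rw [inv_11]; exact g00

lemma mem_GA_iff (q : ℕ) (g : SLQ) : g ∈ GA q ↔ IsAwayM q g := Iff.rfl

lemma Prin.c00 {q M : ℕ} {g : SLQ} (h : Prin q M g) :
    CZ q M (g 0 0 - 1) := h.1
lemma Prin.c01 {q M : ℕ} {g : SLQ} (h : Prin q M g) :
    CZ q M (g 0 1) := h.2.1
lemma Prin.c10 {q M : ℕ} {g : SLQ} (h : Prin q M g) :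
    CZ q M (g 1 0) := h.2.2.1
lemma Prin.c11 {q M : ℕ} {g : SLQ} (h : Prin q M g) :
    CZ q M (g 1 1 - 1) := h.2.2.2

lemma Prin.isAwayM {q M : ℕ} {g : SLQ} (h : Prin q M g) : IsAwayM q g := by
  refine ⟨?_, h.c01.isAway, h.c10.isAway, ?_⟩
  · have := h.c00.isAway.add (IsAway.one (q := q)); simpa using this
  · have := h.c11.isAway.add (IsAway.one (q := q)); simpa using this

lemma Prin.one (q M : ℕ) : Prin q M (1 : SLQ) := by
  refine ⟨?_, ?_, ?_, ?_⟩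
  · rw [one_00, sub_self]; exact CZ.zero
  · rw [one_01]; exact CZ.zero
  · rw [one_10]; exact CZ.zero
  · rw [one_11, sub_self]; exact CZ.zero

lemma Prin.mul {q M : ℕ} {g h : SLQ} (hg : Prin q M g) (hh : Prin q M h) :
    Prin q M (g * h) := by
  obtain ⟨a00, a01, a10, a11⟩ := hh.isAwayM
  refine ⟨?_, ?_, ?_, ?_⟩
  · rw [mul_00]
    have := ((hg.c00.mul_away a00).add hh.c00).add (hg.c01.mul_away a10)
    convert this using 1; ring
  · rw [mul_01]
    have := ((hg.c00.mul_away a01).add hh.c01).add (hg.c01.mul_away a11)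
    convert this using 1; ring
  · rw [mul_10]
    have := ((hg.c10.mul_away a00)).add ((hg.c11.mul_away a10).add hh.c10)
    convert this using 1; ring
  · rw [mul_11]
    have := ((hg.c10.mul_away a01)).add ((hg.c11.mul_away a11).add hh.c11)
    convert this using 1; ring

lemma Prin.inv {q M : ℕ} {g : SLQ} (hg : Prin q M g) : Prin q M g⁻¹ := by
  refine ⟨?_, ?_, ?_, ?_⟩
  · rw [inv_00]; exact hg.c11
  · rw [inv_01]; exact hg.c01.neg
  · rw [inv_10]; exact hg.c10.neg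
  · rw [inv_11]; exact hg.c00

/-- the principal congruence subgroup `Γ(M)` of `SL₂(ℤ[1/q])` -/
def Gam (q M : ℕ) : Subgroup SLQ where
  carrier := {g | Prin q M g}
  one_mem' := Prin.one q M
  mul_mem' := fun hg hh => Prin.mul hg hh
  inv_mem' := fun hg => Prin.inv hg

lemma mem_Gam_iff (q M : ℕ) (g : SLQ) : g ∈ Gam q M ↔ Prin q M g := Iff.rfl

lemma Gam_le_GA (q M : ℕ) : Gam q M ≤ GA q := fun g hg =>
  Prin.isAwayM ((mem_Gam_iff q M g).1 hg)

lemma Gam_mono (q : ℕ) {M M' : ℕ} (h : M ∣ M') : Gam q M' ≤ Gam q M := by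
  intro g hg
  have hg' := (mem_Gam_iff q M' g).1 hg
  exact (mem_Gam_iff q M g).2 ⟨hg'.c00.of_dvd h, hg'.c01.of_dvd h, hg'.c10.of_dvd h,
    hg'.c11.of_dvd h⟩

/-- `Γ(M)` is normalised by `SL₂(ℤ[1/q])` -/
lemma Gam_conj_mem {q M : ℕ} {x g : SLQ} (hx : x ∈ GA q) (hg : g ∈ Gam q M) :
    x * g * x⁻¹ ∈ Gam q M := by
  obtain ⟨x00, x01, x10, x11⟩ := (mem_GA_iff q x).1 hx
  have hg' := (mem_Gam_iff q M g).1 hg
  have g00 := hg'.c00
  have g01 := hg'.c01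
  have g10 := hg'.c10
  have g11 := hg'.c11
  have hdet := det_eq x
  rw [mem_Gam_iff]
  refine ⟨?_, ?_, ?_, ?_⟩
  · rw [mul_00, mul_00, mul_01, inv_00, inv_10]
    have := (((g00.mul_away x00).mul_away x11).sub ((g01.mul_away x00).mul_away x10)).add
      (((g10.mul_away x01).mul_away x11).sub ((g11.mul_away x01).mul_away x10))
    convert this using 1
    linear_combination hdet
  · rw [mul_01, mul_00, mul_01, inv_01, inv_11]
    have := (((g01.mul_away x00).mul_away x00).sub ((g00.mul_away x00).mul_away x01)).add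
      (((g11.mul_away x01).mul_away x00).sub ((g10.mul_away x01).mul_away x01))
    convert this using 1
    ring
  · rw [mul_10, mul_10, mul_11, inv_00, inv_10]
    have := (((g00.mul_away x10).mul_away x11).sub ((g01.mul_away x10).mul_away x10)).add
      (((g10.mul_away x11).mul_away x11).sub ((g11.mul_away x11).mul_away x10))
    convert this using 1
    ring
  · rw [mul_11, mul_10, mul_11, inv_01, inv_11]
    have := (((g01.mul_away x10).mul_away x00).sub ((g00.mul_away x10).mul_away x01)).add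
      (((g11.mul_away x11).mul_away x00).sub ((g10.mul_away x11).mul_away x01))
    convert this using 1
    linear_combination hdet

/-! ### Elementary matrices -/

/-- `l(x) = [[1,0],[x,1]]` -/
def lQ (x : ℚ) : SLQ := mkQ 1 0 x 1 (by ring)

/-- `w = [[0,1],[-1,0]]` -/
def wQ : SLQ := mkQ 0 1 (-1) 0 (by ring)

/-- `h(e) = diag(e, 1/e)` (junk value `1` at `e = 0`) -/
noncomputable def hQ (e : ℚ) : SLQ :=
  if he : e = 0 then 1 else mkQ e 0 0 e⁻¹ (by rw [mul_zero, sub_zero, mul_inv_cancel₀ he])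

@[simp] lemma uQ_00 (x : ℚ) : (uQ x) 0 0 = 1 := rfl
@[simp] lemma uQ_01 (x : ℚ) : (uQ x) 0 1 = x := rfl
@[simp] lemma uQ_10 (x : ℚ) : (uQ x) 1 0 = 0 := rfl
@[simp] lemma uQ_11 (x : ℚ) : (uQ x) 1 1 = 1 := rfl
@[simp] lemma lQ_00 (x : ℚ) : (lQ x) 0 0 = 1 := rfl
@[simp] lemma lQ_01 (x : ℚ) : (lQ x) 0 1 = 0 := rfl
@[simp] lemma lQ_10 (x : ℚ) : (lQ x) 1 0 = x := rfl
@[simp] lemma lQ_11 (x : ℚ) : (lQ x) 1 1 = 1 := rfl
@[simp] lemma wQ_00 : wQ 0 0 = 0 := rfl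
@[simp] lemma wQ_01 : wQ 0 1 = 1 := rfl
@[simp] lemma wQ_10 : wQ 1 0 = -1 := rfl
@[simp] lemma wQ_11 : wQ 1 1 = 0 := rfl
lemma hQ_00 {e : ℚ} (he : e ≠ 0) : (hQ e) 0 0 = e := by simp [hQ, he]
lemma hQ_01 {e : ℚ} (he : e ≠ 0) : (hQ e) 0 1 = 0 := by simp [hQ, he]
lemma hQ_10 {e : ℚ} (he : e ≠ 0) : (hQ e) 1 0 = 0 := by simp [hQ, he]
lemma hQ_11 {e : ℚ} (he : e ≠ 0) : (hQ e) 1 1 = e⁻¹ := by simp [hQ, he]

lemma uQ_add (x y : ℚ) : uQ x * uQ y = uQ (x + y) := by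
  apply ext_entries <;> simp [mul_00, mul_01, mul_10, mul_11] <;> ring

lemma uQ_zero : uQ 0 = 1 := by
  apply ext_entries <;> simp

lemma uQ_inv (x : ℚ) : (uQ x)⁻¹ = uQ (-x) := by
  rw [inv_eq_iff_mul_eq_one, uQ_add, add_neg_cancel, uQ_zero]

lemma lQ_add (x y : ℚ) : lQ x * lQ y = lQ (x + y) := by
  apply ext_entries <;> simp [mul_00, mul_01, mul_10, mul_11] <;> ring

lemma lQ_zero : lQ 0 = 1 := by
  apply ext_entries <;> simp

lemma lQ_inv (x : ℚ) : (lQ x)⁻¹ = lQ (-x) := by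
  rw [inv_eq_iff_mul_eq_one, lQ_add, add_neg_cancel, lQ_zero]

lemma wQ_inv : wQ⁻¹ = mkQ 0 (-1) 1 0 (by ring) := by
  apply ext_entries <;> simp [inv_00, inv_01, inv_10, inv_11]

/-- `w u(t) w⁻¹ = l(-t)` -/
lemma wQ_uQ_wQ_inv (t : ℚ) : wQ * uQ t * wQ⁻¹ = lQ (-t) := by
  apply ext_entries <;>
    simp [mul_00, mul_01, mul_10, mul_11, inv_00, inv_01, inv_10, inv_11]

/-- `w = u(1) l(-1) u(1)` -/
lemma wQ_eq : wQ = uQ 1 * lQ (-1) * uQ 1 := by
  apply ext_entries <;> simp [mul_00, mul_01, mul_10, mul_11] <;> norm_num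

lemma uQ_mul_00 (t : ℚ) (g : SLQ) : (uQ t * g) 0 0 = g 0 0 + t * g 1 0 := by
  rw [mul_00]; simp
lemma uQ_mul_10 (t : ℚ) (g : SLQ) : (uQ t * g) 1 0 = g 1 0 := by
  rw [mul_10]; simp
lemma lQ_mul_00 (t : ℚ) (g : SLQ) : (lQ t * g) 0 0 = g 0 0 := by
  rw [mul_00]; simp
lemma lQ_mul_10 (t : ℚ) (g : SLQ) : (lQ t * g) 1 0 = g 1 0 + t * g 0 0 := by
  rw [mul_10]; simp; ring
lemma mul_uQ_00 (t : ℚ) (g : SLQ) : (g * uQ t) 0 0 = g 0 0 := by
  rw [mul_00]; simp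
lemma mul_uQ_10 (t : ℚ) (g : SLQ) : (g * uQ t) 1 0 = g 1 0 := by
  rw [mul_10]; simp
lemma uQ_conj_00 (t : ℚ) (g : SLQ) : (uQ t * g * (uQ t)⁻¹) 0 0 = g 0 0 + t * g 1 0 := by
  rw [uQ_inv, mul_uQ_00, uQ_mul_00]
lemma uQ_conj_10 (t : ℚ) (g : SLQ) : (uQ t * g * (uQ t)⁻¹) 1 0 = g 1 0 := by
  rw [uQ_inv, mul_uQ_10, uQ_mul_10]

lemma uQ_mem_GA {q : ℕ} {t : ℚ} (ht : IsAway q t) : uQ t ∈ GA q :=
  (mem_GA_iff q _).2 ⟨by simpa using IsAway.one, by simpa using ht, by simpa using IsAway.zero,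
    by simpa using IsAway.one⟩

lemma lQ_mem_GA {q : ℕ} {t : ℚ} (ht : IsAway q t) : lQ t ∈ GA q :=
  (mem_GA_iff q _).2 ⟨by simpa using IsAway.one, by simpa using IsAway.zero, by simpa using ht,
    by simpa using IsAway.one⟩

lemma wQ_mem_GA (q : ℕ) : wQ ∈ GA q :=
  (mem_GA_iff q _).2 ⟨by simpa using IsAway.zero, by simpa using IsAway.one,
    by simpa using (IsAway.one (q := q)).neg, by simpa using IsAway.zero⟩

lemma uQ_mem_Gam {q M : ℕ} {t : ℚ} (ht : CZ q M t) : uQ t ∈ Gam q M :=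
  (mem_Gam_iff q M _).2 ⟨by simpa using CZ.zero, by simpa using ht,
    by simpa using CZ.zero, by simpa using CZ.zero⟩

lemma lQ_mem_Gam {q M : ℕ} {t : ℚ} (ht : CZ q M t) : lQ t ∈ Gam q M :=
  (mem_Gam_iff q M _).2 ⟨by simpa using CZ.zero, by simpa using CZ.zero,
    by simpa using ht, by simpa using CZ.zero⟩

/-! ### Parabolic homomorphisms -/

/-- unipotent: trace `2` -/
def IsUnip (g : SLQ) : Prop := g 0 0 + g 1 1 = 2

lemma isUnip_conj (x g : SLQ) (hg : IsUnip g) : IsUnip (x * g * x⁻¹) := by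
  unfold IsUnip at *
  have hdet := det_eq x
  rw [mul_00, mul_00, mul_01, mul_11, mul_10, mul_11, inv_00, inv_10, inv_01, inv_11]
  linear_combination (g 0 0 + g 1 1) * hdet + hg

lemma isUnip_uQ (t : ℚ) : IsUnip (uQ t) := by simp [IsUnip]; norm_num
lemma isUnip_lQ (t : ℚ) : IsUnip (lQ t) := by simp [IsUnip]; norm_num

/-- `Ψ` is additive on `Γ(M)` and kills the unipotent elements of `Γ(M)` -/
structure ParHom (q M : ℕ) {V : Type} [AddCommGroup V] (Ψ : SLQ → V) : Prop where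
  map_mul : ∀ g h : SLQ, g ∈ Gam q M → h ∈ Gam q M → Ψ (g * h) = Ψ g + Ψ h
  map_unip : ∀ g : SLQ, g ∈ Gam q M → IsUnip g → Ψ g = 0

namespace ParHom

variable {q M : ℕ} {V : Type} [AddCommGroup V] {Ψ : SLQ → V}

lemma map_one (h : ParHom q M Ψ) : Ψ 1 = 0 := by
  have := h.map_mul 1 1 (Gam q M).one_mem (Gam q M).one_mem
  rw [mul_one] at this
  simpa using this

lemma map_inv (h : ParHom q M Ψ) {g : SLQ} (hg : g ∈ Gam q M) : Ψ g⁻¹ = - Ψ g := by
  have := h.map_mul g g⁻¹ hg ((Gam q M).inv_mem hg)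
  rw [mul_inv_cancel, h.map_one] at this
  exact eq_neg_of_add_eq_zero_right this.symm

/-- inner conjugation of `Γ(M)` is invisible -/
lemma map_conj_self (h : ParHom q M Ψ) {x g : SLQ} (hx : x ∈ Gam q M) (hg : g ∈ Gam q M) :
    Ψ (x * g * x⁻¹) = Ψ g := by
  rw [h.map_mul _ _ ((Gam q M).mul_mem hx hg) ((Gam q M).inv_mem hx), h.map_mul _ _ hx hg,
    h.map_inv hx]
  abel

/-- restriction to a deeper level -/
lemma of_dvd (h : ParHom q M Ψ) {M' : ℕ} (hM : M ∣ M') : ParHom q M' Ψ where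
  map_mul g k hg hk := h.map_mul g k (Gam_mono q hM hg) (Gam_mono q hM hk)
  map_unip g hg hu := h.map_unip g (Gam_mono q hM hg) hu

/-- conjugating by an element of `SL₂(ℤ[1/q])` gives a parabolic hom of the same level -/
lemma conj (h : ParHom q M Ψ) {x : SLQ} (hx : x ∈ GA q) :
    ParHom q M (fun g => Ψ (x * g * x⁻¹)) where
  map_mul g k hg hk := by
    have : x * (g * k) * x⁻¹ = (x * g * x⁻¹) * (x * k * x⁻¹) := by group
    show Ψ (x * (g * k) * x⁻¹) = _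
    rw [this]
    exact h.map_mul _ _ (Gam_conj_mem hx hg) (Gam_conj_mem hx hk)
  map_unip g hg hu := h.map_unip _ (Gam_conj_mem hx hg) (isUnip_conj x g hu)

/-- general conjugation: if `x Γ(M') x⁻¹ ⊆ Γ(M)` then `Ψ ∘ c_x` is a parabolic hom of level `M'` -/
lemma conj_of (h : ParHom q M Ψ) {M' : ℕ} {x : SLQ}
    (hx : ∀ g : SLQ, g ∈ Gam q M' → x * g * x⁻¹ ∈ Gam q M) :
    ParHom q M' (fun g => Ψ (x * g * x⁻¹)) where
  map_mul g k hg hk := by
    have : x * (g * k) * x⁻¹ = (x * g * x⁻¹) * (x * k * x⁻¹) := by group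
    show Ψ (x * (g * k) * x⁻¹) = _
    rw [this]
    exact h.map_mul _ _ (hx g hg) (hx k hk)
  map_unip g hg hu := h.map_unip _ (hx g hg) (isUnip_conj x g hu)

lemma map_pow (h : ParHom q M Ψ) {g : SLQ} (hg : g ∈ Gam q M) (n : ℕ) :
    Ψ (g ^ n) = n • Ψ g := by
  induction n with
  | zero => simpa using h.map_one
  | succ n ih =>
    rw [pow_succ, h.map_mul _ _ ((Gam q M).pow_mem hg n) hg, ih, succ_nsmul]

/-- difference of two parabolic homs -/
lemma sub {Ψ' : SLQ → V} (h : ParHom q M Ψ) (h' : ParHom q M Ψ') :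
    ParHom q M (fun g => Ψ g - Ψ' g) where
  map_mul g k hg hk := by
    show Ψ (g * k) - Ψ' (g * k) = _
    rw [h.map_mul g k hg hk, h'.map_mul g k hg hk]; abel
  map_unip g hg hu := by
    show Ψ g - Ψ' g = 0
    rw [h.map_unip g hg hu, h'.map_unip g hg hu, sub_zero]

lemma map_uQ (h : ParHom q M Ψ) {t : ℚ} (ht : CZ q M t) : Ψ (uQ t) = 0 :=
  h.map_unip _ (uQ_mem_Gam ht) (isUnip_uQ t)

lemma map_lQ (h : ParHom q M Ψ) {t : ℚ} (ht : CZ q M t) : Ψ (lQ t) = 0 :=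
  h.map_unip _ (lQ_mem_Gam ht) (isUnip_lQ t)

/-- **column lemma**: `Ψ` on `Γ(M)` only depends on the first column -/
lemma eq_of_col (h : ParHom q M Ψ) {g g' : SLQ} (hg : g ∈ Gam q M) (hg' : g' ∈ Gam q M)
    (h0 : g 0 0 = g' 0 0) (h1 : g 1 0 = g' 1 0) : Ψ g = Ψ g' := by
  have hmem : g⁻¹ * g' ∈ Gam q M := (Gam q M).mul_mem ((Gam q M).inv_mem hg) hg'
  have hu : g⁻¹ * g' = uQ ((g⁻¹ * g') 0 1) := by
    have hd := det_eq g
    have hd' := det_eq g'
    apply ext_entries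
    · rw [mul_00, inv_00, inv_01, uQ_00, ← h0, ← h1]; linear_combination hd
    · rw [uQ_01]
    · rw [mul_10, inv_10, inv_11, uQ_10, ← h0, ← h1]; ring
    · rw [mul_11, inv_10, inv_11, uQ_11]
      have e1 : (g⁻¹ * g') 0 0 = 1 := by
        rw [mul_00, inv_00, inv_01, ← h0, ← h1]; linear_combination hd
      have e2 : (g⁻¹ * g') 1 0 = 0 := by
        rw [mul_10, inv_10, inv_11, ← h0, ← h1]; ring
      have hd'' := det_eq (g⁻¹ * g')
      rw [e1, e2, mul_zero, sub_zero, one_mul, mul_11, inv_10, inv_11] at hd''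
      exact hd''
  have h01 : CZ q M ((g⁻¹ * g') 0 1) := ((mem_Gam_iff q M _).1 hmem).c01
  have : g' = g * (g⁻¹ * g') := by group
  rw [this, h.map_mul _ _ hg hmem, hu, h.map_uQ h01, add_zero]

end ParHom

end Fermat.Agent.S41.CSP11
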