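/-
S41 / C4 [CSP] (helper11), STEP A (centrality): a parabolic hom of level `M` on `Γ(M) ⊆ SL₂(ℤ[1/q])`
is invariant under conjugation by `u(t)`, `l(t)` (`t ∈ ℤ[1/q]`) and `w`, GIVEN the number-theoretic
input `NTInput q M` (proved in a separate leaf by Dirichlet's theorem).
-/
import Fermat.Agent.S41.CSP11.Basic

set_option autoImplicit false
set_option linter.unusedSectionVars false

namespace Fermat.Agent.S41.CSP11

open Matrix Fermat.Agent.S41.Amalgam95 Fermat.Agent.S41.Ihara95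

/-- **Number-theoretic input of Step A** at level `M`: for every unimodular column `(a, M c₁)` with
`a ≡ 1 mod M` there are `s ∈ ℤ[1/q]`, a unit `η ≡ 1 mod M` and `s₂ ∈ ℤ[1/q]` with
`η² = 1 + M (c₁ + s a) s₂` such that `s₂ a` generates `ℤ[1/q] / M` additively. -/
def NTInput (q M : ℕ) : Prop :=
  ∀ a c₁ : ℚ, IsAway q a → IsAway q c₁ → CZ q M (a - 1) →
    (∃ x y : ℚ, IsAway q x ∧ IsAway q y ∧ x * a + y * c₁ = 1) →
    ∃ s η s₂ : ℚ, IsAway q s ∧ η ≠ 0 ∧ IsAway q η ∧ IsAway q η⁻¹ ∧ CZ q M (η - 1) ∧ IsAway q s₂ ∧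
      η ^ 2 = 1 + ((M : ℚ) * (c₁ + s * a)) * s₂ ∧
      ∀ t : ℚ, IsAway q t → ∃ i : ℕ, CZ q M (t - (i : ℚ) * (s₂ * a))

/-- `Ψ` is invariant under conjugation by `x` on `Γ(M)` -/
def ConjInv (q M : ℕ) {V : Type} [AddCommGroup V] (Ψ : SLQ → V) (x : SLQ) : Prop :=
  ∀ g : SLQ, g ∈ Gam q M → Ψ (x * g * x⁻¹) = Ψ g

section

variable {q M : ℕ} {V : Type} [AddCommGroup V] {Ψ : SLQ → V}

lemma ConjInv.mul {x y : SLQ} (hx : ConjInv q M Ψ x) (hy : ConjInv q M Ψ y) (hyG : y ∈ GA q) :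
    ConjInv q M Ψ (x * y) := by
  intro g hg
  have : x * y * g * (x * y)⁻¹ = x * (y * g * y⁻¹) * x⁻¹ := by group
  rw [this, hx _ (Gam_conj_mem hyG hg), hy g hg]

lemma ConjInv.inv {x : SLQ} (hx : ConjInv q M Ψ x) (hxG : x ∈ GA q) : ConjInv q M Ψ x⁻¹ := by
  intro g hg
  have hmem : x⁻¹ * g * x⁻¹⁻¹ ∈ Gam q M := Gam_conj_mem ((GA q).inv_mem hxG) hg
  have := hx _ hmem
  rw [← this]
  congr 1
  group

/-! ### the torus -/

lemma isAway_natCast (q n : ℕ) : IsAway q (n : ℚ) := by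
  simpa using IsAway.of_int (q := q) (n : ℤ)

lemma isAway_pow {q : ℕ} {x : ℚ} (hx : IsAway q x) (n : ℕ) : IsAway q (x ^ n) := by
  induction n with
  | zero => simpa using IsAway.one
  | succ n ih => rw [pow_succ]; exact ih.mul hx

lemma hQ_mem_GA {e : ℚ} (he : e ≠ 0) (h1 : IsAway q e) (h2 : IsAway q e⁻¹) : hQ e ∈ GA q := by
  rw [mem_GA_iff]
  refine ⟨?_, ?_, ?_, ?_⟩
  · rw [hQ_00 he]; exact h1
  · rw [hQ_01 he]; exact IsAway.zero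
  · rw [hQ_10 he]; exact IsAway.zero
  · rw [hQ_11 he]; exact h2

/-- `e⁻¹ ≡ 1` when `e ≡ 1` and `e⁻¹ ∈ ℤ[1/q]` -/
lemma CZ_inv_sub_one {e : ℚ} (he : e ≠ 0) (h2 : IsAway q e⁻¹) (hc : CZ q M (e - 1)) :
    CZ q M (e⁻¹ - 1) := by
  have := (hc.mul_away h2).neg
  convert this using 1
  field_simp
  ring

lemma hQ_mem_Gam {e : ℚ} (he : e ≠ 0) (h2 : IsAway q e⁻¹) (hc : CZ q M (e - 1)) :
    hQ e ∈ Gam q M := by
  rw [mem_Gam_iff]
  refine ⟨?_, ?_, ?_, ?_⟩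
  · rw [hQ_00 he]; exact hc
  · rw [hQ_01 he]; exact CZ.zero
  · rw [hQ_10 he]; exact CZ.zero
  · rw [hQ_11 he]; exact CZ_inv_sub_one he h2 hc

/-- torus elements `≡ 1 mod M` are products of unipotents of `Γ(M)` -/
lemma hQ_eq_prod {e : ℚ} (he : e ≠ 0) (hM : (M : ℚ) ≠ 0) :
    hQ e = (uQ ((e - 1) / M) * lQ M * (uQ ((e - 1) / M))⁻¹) *
      uQ ((M : ℚ) * ((e - 1) / M) ^ 2 / e) * lQ (-(M : ℚ) * e) := by
  rw [uQ_inv]
  apply ext_entries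
  · simp only [mul_00, mul_01, mul_10, mul_11, uQ_00, uQ_01, uQ_10, uQ_11, lQ_00, lQ_01, lQ_10,
      lQ_11, hQ_00 he]
    field_simp
    ring
  · simp only [mul_00, mul_01, mul_10, mul_11, uQ_00, uQ_01, uQ_10, uQ_11, lQ_00, lQ_01, lQ_10,
      lQ_11, hQ_01 he]
    field_simp
    ring
  · simp only [mul_00, mul_01, mul_10, mul_11, uQ_00, uQ_01, uQ_10, uQ_11, lQ_00, lQ_01, lQ_10,
      lQ_11, hQ_10 he]
    field_simp
    ring
  · simp only [mul_00, mul_01, mul_10, mul_11, uQ_00, uQ_01, uQ_10, uQ_11, lQ_00, lQ_01, lQ_10,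
      lQ_11, hQ_11 he]
    field_simp
    ring

lemma ParHom.map_hQ (h : ParHom q M Ψ) (hM : M ≠ 0) {e : ℚ} (he : e ≠ 0) (h1 : IsAway q e)
    (h2 : IsAway q e⁻¹) (hc : CZ q M (e - 1)) : Ψ (hQ e) = 0 := by
  have hM' : (M : ℚ) ≠ 0 := by exact_mod_cast hM
  obtain ⟨r, hr, hre⟩ := hc
  have hx : (e - 1) / M = r := by rw [hre]; field_simp
  have hxA : IsAway q ((e - 1) / M) := hx ▸ hr
  have hMcz : CZ q M (M : ℚ) := ⟨1, IsAway.one, by ring⟩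
  have m1 : uQ ((e - 1) / M) * lQ M * (uQ ((e - 1) / M))⁻¹ ∈ Gam q M :=
    Gam_conj_mem (uQ_mem_GA hxA) (lQ_mem_Gam hMcz)
  have u1 : IsUnip (uQ ((e - 1) / M) * lQ M * (uQ ((e - 1) / M))⁻¹) :=
    isUnip_conj _ _ (isUnip_lQ _)
  have c2 : CZ q M ((M : ℚ) * ((e - 1) / M) ^ 2 / e) := by
    have : (M : ℚ) * ((e - 1) / M) ^ 2 / e = (M : ℚ) * (((e - 1) / M) ^ 2 * e⁻¹) := by
      field_simp
    rw [this]
    exact isCongZero_natCast_mul ((isAway_pow hxA 2).mul h2)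
  have c3 : CZ q M (-(M : ℚ) * e) := by
    have : -(M : ℚ) * e = (M : ℚ) * (-e) := by ring
    rw [this]; exact isCongZero_natCast_mul h1.neg
  rw [hQ_eq_prod he hM', h.map_mul _ _ ((Gam q M).mul_mem m1 (uQ_mem_Gam c2)) (lQ_mem_Gam c3),
    h.map_mul _ _ m1 (uQ_mem_Gam c2), h.map_unip _ m1 u1, h.map_uQ c2, h.map_lQ c3]
  simp

/-! ### binomial expansion to second order -/

lemma one_add_pow_expand {z : ℚ} (hz : IsAway q z) (i : ℕ) :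
    ∃ R : ℚ, IsAway q R ∧ (1 + z) ^ i = 1 + (i : ℚ) * z + z ^ 2 * R := by
  induction i with
  | zero => exact ⟨0, IsAway.zero, by simp⟩
  | succ i ih =>
    obtain ⟨R, hR, hE⟩ := ih
    refine ⟨R + (i : ℚ) + z * R, (hR.add (isAway_natCast q i)).add (hz.mul hR), ?_⟩
    rw [pow_succ, hE]
    push_cast
    ring

/-! ### Step A -/

/-- first column of `h(η)^i g h(η)^i` -/
lemma hQ_pow_sandwich_col {η : ℚ} (hη : η ≠ 0) (g : SLQ) (i : ℕ) :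
    ((hQ η) ^ i * g * (hQ η) ^ i) 0 0 = η ^ (2 * i) * g 0 0 ∧
      ((hQ η) ^ i * g * (hQ η) ^ i) 1 0 = g 1 0 := by
  induction i with
  | zero => simp
  | succ i ih =>
    have e : (hQ η) ^ (i + 1) * g * (hQ η) ^ (i + 1) =
        hQ η * ((hQ η) ^ i * g * (hQ η) ^ i) * hQ η := by
      have e1 : (hQ η) ^ (i + 1) = hQ η * (hQ η) ^ i := pow_succ' _ _
      have e2 : (hQ η) ^ (i + 1) = (hQ η) ^ i * hQ η := pow_succ _ _
      calc (hQ η) ^ (i + 1) * g * (hQ η) ^ (i + 1)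
          = (hQ η * (hQ η) ^ i) * g * (hQ η) ^ (i + 1) := by rw [← e1]
        _ = (hQ η * (hQ η) ^ i) * g * ((hQ η) ^ i * hQ η) := by rw [← e2]
        _ = _ := by simp only [mul_assoc]
    rw [e]
    obtain ⟨h0, h1⟩ := ih
    constructor
    · rw [mul_00, mul_00, mul_01, hQ_00 hη, hQ_01 hη, hQ_10 hη, h0]
      ring
    · rw [mul_10, mul_10, mul_11, hQ_00 hη, hQ_10 hη, hQ_11 hη, h1]
      field_simp
      ring

theorem stepA_uQ (hM : M ≠ 0) (hNT : NTInput q M) (h : ParHom q M Ψ) {t : ℚ} (ht : IsAway q t) :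
    ConjInv q M Ψ (uQ t) := by
  intro g hg
  have hM' : (M : ℚ) ≠ 0 := by exact_mod_cast hM
  have hgP := (mem_Gam_iff q M g).1 hg
  obtain ⟨a00, a01, a10, a11⟩ := hgP.isAwayM
  obtain ⟨c₁, hc₁, hc⟩ := hgP.c10
  have hdet := det_eq g
  -- the NT input
  obtain ⟨s, η, s₂, hs, hη, hη1, hη2, hηc, hs₂, hsq, hgen⟩ :=
    hNT (g 0 0) c₁ a00 hc₁ hgP.c00
      ⟨g 1 1, -(g 0 1) * M, a11, (a01.neg).mul (isAway_natCast q M), by
        rw [hc] at hdet; linear_combination hdet⟩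
  obtain ⟨i, r, hr, hir⟩ := hgen t ht
  -- the modified element `g' = l(M s) g`
  have hMs : CZ q M ((M : ℚ) * s) := isCongZero_natCast_mul hs
  obtain ⟨g', hg'def⟩ : ∃ g' : SLQ, g' = lQ ((M : ℚ) * s) * g := ⟨_, rfl⟩
  have hg' : g' ∈ Gam q M := hg'def ▸ (Gam q M).mul_mem (lQ_mem_Gam hMs) hg
  have hΨg' : Ψ g' = Ψ g := by
    rw [hg'def, h.map_mul _ _ (lQ_mem_Gam hMs) hg, h.map_lQ hMs, zero_add]
  have g'00 : g' 0 0 = g 0 0 := by rw [hg'def, lQ_mul_00]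
  have g'10 : g' 1 0 = (M : ℚ) * (c₁ + s * g 0 0) := by rw [hg'def, lQ_mul_10, hc]; ring
  -- reduction from `g` to `g'`
  have hutG : uQ t ∈ GA q := uQ_mem_GA ht
  have red : Ψ (uQ t * g' * (uQ t)⁻¹) = Ψ (uQ t * g * (uQ t)⁻¹) := by
    have e : uQ t * g' * (uQ t)⁻¹ =
        (uQ t * lQ ((M : ℚ) * s) * (uQ t)⁻¹) * (uQ t * g * (uQ t)⁻¹) := by
      rw [hg'def]; group
    rw [e, h.map_mul _ _ (Gam_conj_mem hutG (lQ_mem_Gam hMs)) (Gam_conj_mem hutG hg),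
      h.map_unip _ (Gam_conj_mem hutG (lQ_mem_Gam hMs)) (isUnip_conj _ _ (isUnip_lQ _)), zero_add]
  rw [← red, ← hΨg']
  clear red
  -- the sandwich `k = h(η)^i g' h(η)^i`
  have hhη : hQ η ∈ Gam q M := hQ_mem_Gam hη hη2 hηc
  have hΨh : Ψ (hQ η) = 0 := h.map_hQ hM hη hη1 hη2 hηc
  have hpow_mem : ∀ n : ℕ, (hQ η) ^ n ∈ Gam q M := fun n => (Gam q M).pow_mem hhη n
  have hΨpow : ∀ n : ℕ, Ψ ((hQ η) ^ n) = 0 := by
    intro n
    induction n with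
    | zero => simpa using h.map_one
    | succ n ih => rw [pow_succ, h.map_mul _ _ (hpow_mem n) hhη, ih, hΨh, add_zero]
  obtain ⟨k, hkdef⟩ : ∃ k : SLQ, k = (hQ η) ^ i * g' * (hQ η) ^ i := ⟨_, rfl⟩
  have hk : k ∈ Gam q M :=
    hkdef ▸ (Gam q M).mul_mem ((Gam q M).mul_mem (hpow_mem i) hg') (hpow_mem i)
  have hΨk : Ψ k = Ψ g' := by
    rw [hkdef, h.map_mul _ _ ((Gam q M).mul_mem (hpow_mem i) hg') (hpow_mem i),
      h.map_mul _ _ (hpow_mem i) hg', hΨpow i]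
    simp
  obtain ⟨k00, k10⟩ := hQ_pow_sandwich_col hη g' i
  rw [← hkdef] at k00 k10
  -- expansion of `η^(2i)`
  obtain ⟨c'', hc''⟩ : ∃ c'' : ℚ, c'' = c₁ + s * g 0 0 := ⟨_, rfl⟩
  rw [← hc''] at hsq g'10
  have hc''A : IsAway q c'' := hc'' ▸ hc₁.add (hs.mul a00)
  have hzA : IsAway q ((M : ℚ) * c'' * s₂) := ((isAway_natCast q M).mul hc''A).mul hs₂
  obtain ⟨R, hR, hexp⟩ := one_add_pow_expand hzA i
  have hη2i : η ^ (2 * i) = 1 + (i : ℚ) * ((M : ℚ) * c'' * s₂) + ((M : ℚ) * c'' * s₂) ^ 2 * R := by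
    rw [pow_mul, hsq, ← hexp]
  -- the correcting translation `u(M τ)`
  obtain ⟨τ, hτ⟩ : ∃ τ : ℚ, τ = -r + c'' * s₂ ^ 2 * R * g 0 0 := ⟨_, rfl⟩
  have hτA : IsAway q τ :=
    hτ ▸ hr.neg.add (((hc''A.mul (isAway_pow hs₂ 2)).mul hR).mul a00)
  have hMτ : CZ q M ((M : ℚ) * τ) := isCongZero_natCast_mul hτA
  obtain ⟨X, hXdef⟩ : ∃ X : SLQ, X = uQ t * g' * (uQ t)⁻¹ := ⟨_, rfl⟩
  have hX : X ∈ Gam q M := hXdef ▸ Gam_conj_mem hutG hg'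
  have hcol0 : (uQ ((M : ℚ) * τ) * X) 0 0 = k 0 0 := by
    rw [k00, uQ_mul_00, hXdef, uQ_conj_00, uQ_conj_10, g'00, g'10, hη2i, hτ]
    have : t = (M : ℚ) * r + (i : ℚ) * (s₂ * g 0 0) := by linear_combination hir
    rw [this]
    ring
  have hcol1 : (uQ ((M : ℚ) * τ) * X) 1 0 = k 1 0 := by
    rw [k10, uQ_mul_10, hXdef, uQ_conj_10]
  have := h.eq_of_col ((Gam q M).mul_mem (uQ_mem_Gam hMτ) hX) hk hcol0 hcol1
  rw [h.map_mul _ _ (uQ_mem_Gam hMτ) hX, h.map_uQ hMτ, zero_add] at this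
  rw [← hXdef, this, hΨk]

/-- invariance under `w`, `l(t)` -/
theorem stepA_lQ (hM : M ≠ 0) (hNT : NTInput q M) (h : ParHom q M Ψ) {t : ℚ} (ht : IsAway q t) :
    ConjInv q M Ψ (lQ t) := by
  intro g hg
  -- apply `stepA_uQ` to `Ψ ∘ c_w`
  have hw : wQ ∈ GA q := wQ_mem_GA q
  have h' := h.conj hw
  have hg₀ : wQ⁻¹ * g * wQ⁻¹⁻¹ ∈ Gam q M := Gam_conj_mem ((GA q).inv_mem hw) hg
  have := stepA_uQ hM hNT h' (t := -t) ht.neg _ hg₀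
  simp only at this
  have e1 : wQ * (uQ (-t) * (wQ⁻¹ * g * wQ⁻¹⁻¹) * (uQ (-t))⁻¹) * wQ⁻¹ =
      (wQ * uQ (-t) * wQ⁻¹) * g * (wQ * uQ (-t) * wQ⁻¹)⁻¹ := by group
  have e2 : wQ * (wQ⁻¹ * g * wQ⁻¹⁻¹) * wQ⁻¹ = g := by group
  rw [e1, e2, wQ_uQ_wQ_inv, neg_neg] at this
  exact this

theorem stepA_wQ (hM : M ≠ 0) (hNT : NTInput q M) (h : ParHom q M Ψ) : ConjInv q M Ψ wQ := by
  rw [wQ_eq]
  exact ((stepA_uQ hM hNT h IsAway.one).mul (stepA_lQ hM hNT h IsAway.one.neg)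
    (lQ_mem_GA IsAway.one.neg)).mul (stepA_uQ hM hNT h IsAway.one) (uQ_mem_GA IsAway.one)

end

end Fermat.Agent.S41.CSP11
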