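/-
S41 / C4 [CSP], file F4 (helper15): STEP B of helper11's elementary proof of the congruence subgroup
property of `SL₂(ℤ[1/q])` for `𝔽_p`-valued characters (report #3042).

`Φ` a parabolic hom of level `m` with values in a group killed by `p`, `k ≥ 1` prime to `m q` with
`p` prime to `φ(k⁴)`.  Then `Φ (h(k) g h(k)⁻¹) = Φ g` for every `g ∈ Γ(m)` whose lower-left entry
lies in `m k² ℤ[1/q]`.

* (B1) `Φ ∘ c_{h(k)}` is a parabolic hom of level `m k²`; Step A at that level for `l(-k)` gives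
  `Φ (l(-1/k) g l(1/k)) = Φ g` for `g ∈ h(k) Γ(m k²) h(k)⁻¹`   (`stepB_aux_lQ`);
* (B2) `h(k) = u(k) l(-1/k) u(k) w⁻¹`, hence `Φ ∘ c_{h(k)} = Φ` on `Γ(m k⁴)`   (`stepB_deep`);
* (B3) `CSP24.torus_kill` (helper24) applied to `D = Φ ∘ c_{h(k)} - Φ`   (`stepB`).

Step A enters through the hypotheses `NTInput q m`, `NTInput q (m * k ^ 2)` of `StepA.lean`.
-/
import Fermat.Agent.S41.CSP11.StepA
import Fermat.Agent.S41.CSP24.TorusKill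

set_option autoImplicit false
set_option linter.unusedSectionVars false
set_option linter.unusedSimpArgs false

namespace Fermat.Agent.S41.CSP11

open Matrix Fermat.Agent.S41.Amalgam95 Fermat.Agent.S41.Ihara95

/-! ### conjugation by the torus -/

lemma stepB_hQ_conj_00 {e : ℚ} (he : e ≠ 0) (g : SLQ) : (hQ e * g * (hQ e)⁻¹) 0 0 = g 0 0 := by
  simp only [mul_00, mul_01, mul_10, mul_11, inv_00, inv_01, inv_10, inv_11, hQ_00 he, hQ_01 he,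
    hQ_10 he, hQ_11 he]
  field_simp
  ring

lemma stepB_hQ_conj_01 {e : ℚ} (he : e ≠ 0) (g : SLQ) :
    (hQ e * g * (hQ e)⁻¹) 0 1 = e ^ 2 * g 0 1 := by
  simp only [mul_00, mul_01, mul_10, mul_11, inv_00, inv_01, inv_10, inv_11, hQ_00 he, hQ_01 he,
    hQ_10 he, hQ_11 he]
  ring

lemma stepB_hQ_conj_10 {e : ℚ} (he : e ≠ 0) (g : SLQ) :
    (hQ e * g * (hQ e)⁻¹) 1 0 = g 1 0 / e ^ 2 := by
  simp only [mul_00, mul_01, mul_10, mul_11, inv_00, inv_01, inv_10, inv_11, hQ_00 he, hQ_01 he,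
    hQ_10 he, hQ_11 he]
  field_simp
  ring

lemma stepB_hQ_conj_11 {e : ℚ} (he : e ≠ 0) (g : SLQ) : (hQ e * g * (hQ e)⁻¹) 1 1 = g 1 1 := by
  simp only [mul_00, mul_01, mul_10, mul_11, inv_00, inv_01, inv_10, inv_11, hQ_00 he, hQ_01 he,
    hQ_10 he, hQ_11 he]
  field_simp
  ring

lemma stepB_hQ_inv_conj_00 {e : ℚ} (he : e ≠ 0) (g : SLQ) : ((hQ e)⁻¹ * g * hQ e) 0 0 = g 0 0 := by
  simp only [mul_00, mul_01, mul_10, mul_11, inv_00, inv_01, inv_10, inv_11, hQ_00 he, hQ_01 he,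
    hQ_10 he, hQ_11 he]
  field_simp
  ring

lemma stepB_hQ_inv_conj_01 {e : ℚ} (he : e ≠ 0) (g : SLQ) :
    ((hQ e)⁻¹ * g * hQ e) 0 1 = g 0 1 / e ^ 2 := by
  simp only [mul_00, mul_01, mul_10, mul_11, inv_00, inv_01, inv_10, inv_11, hQ_00 he, hQ_01 he,
    hQ_10 he, hQ_11 he]
  field_simp
  ring

lemma stepB_hQ_inv_conj_10 {e : ℚ} (he : e ≠ 0) (g : SLQ) :
    ((hQ e)⁻¹ * g * hQ e) 1 0 = e ^ 2 * g 1 0 := by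
  simp only [mul_00, mul_01, mul_10, mul_11, inv_00, inv_01, inv_10, inv_11, hQ_00 he, hQ_01 he,
    hQ_10 he, hQ_11 he]
  ring

lemma stepB_hQ_inv_conj_11 {e : ℚ} (he : e ≠ 0) (g : SLQ) : ((hQ e)⁻¹ * g * hQ e) 1 1 = g 1 1 := by
  simp only [mul_00, mul_01, mul_10, mul_11, inv_00, inv_01, inv_10, inv_11, hQ_00 he, hQ_01 he,
    hQ_10 he, hQ_11 he]
  field_simp
  ring

/-- `h(e) l(t) h(e)⁻¹ = l(t / e²)` -/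
lemma stepB_hQ_lQ_hQ_inv {e : ℚ} (he : e ≠ 0) (t : ℚ) : hQ e * lQ t * (hQ e)⁻¹ = lQ (t / e ^ 2) := by
  apply ext_entries
  · rw [stepB_hQ_conj_00 he]; simp
  · rw [stepB_hQ_conj_01 he]; simp
  · rw [stepB_hQ_conj_10 he]; simp
  · rw [stepB_hQ_conj_11 he]; simp

/-- `h(e) = u(e) l(-1/e) u(e) w⁻¹` -/
lemma stepB_hQ_eq {e : ℚ} (he : e ≠ 0) :
    hQ e = uQ e * lQ (-e⁻¹) * uQ e * wQ⁻¹ := by
  apply ext_entries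
  · rw [hQ_00 he]
    simp only [mul_00, mul_01, mul_10, mul_11, inv_00, inv_01, inv_10, inv_11, uQ_00, uQ_01, uQ_10,
      uQ_11, lQ_00, lQ_01, lQ_10, lQ_11, wQ_00, wQ_01, wQ_10, wQ_11]
    field_simp
    ring
  · rw [hQ_01 he]
    simp only [mul_00, mul_01, mul_10, mul_11, inv_00, inv_01, inv_10, inv_11, uQ_00, uQ_01, uQ_10,
      uQ_11, lQ_00, lQ_01, lQ_10, lQ_11, wQ_00, wQ_01, wQ_10, wQ_11]
    field_simp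
    ring
  · rw [hQ_10 he]
    simp only [mul_00, mul_01, mul_10, mul_11, inv_00, inv_01, inv_10, inv_11, uQ_00, uQ_01, uQ_10,
      uQ_11, lQ_00, lQ_01, lQ_10, lQ_11, wQ_00, wQ_01, wQ_10, wQ_11]
    field_simp
    ring
  · rw [hQ_11 he]
    simp only [mul_00, mul_01, mul_10, mul_11, inv_00, inv_01, inv_10, inv_11, uQ_00, uQ_01, uQ_10,
      uQ_11, lQ_00, lQ_01, lQ_10, lQ_11, wQ_00, wQ_01, wQ_10, wQ_11]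
    field_simp
    ring

section Levels

variable {q m k : ℕ}

/-- `x ∈ m k² A ⟹ x / k² ∈ m A` -/
lemma CZ.stepB_div_sq (hk : k ≠ 0) {x : ℚ} (hx : CZ q (m * k ^ 2) x) : CZ q m (x / (k : ℚ) ^ 2) := by
  have hk' : (k : ℚ) ≠ 0 := by exact_mod_cast hk
  obtain ⟨r, hr, rfl⟩ := hx
  refine ⟨r, hr, ?_⟩
  push_cast
  field_simp

/-- `x ∈ m k⁴ A ⟹ x / k² ∈ m k² A` -/
lemma CZ.stepB_div_sq_four (hk : k ≠ 0) {x : ℚ} (hx : CZ q (m * k ^ 4) x) :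
    CZ q (m * k ^ 2) (x / (k : ℚ) ^ 2) := by
  have hk' : (k : ℚ) ≠ 0 := by exact_mod_cast hk
  obtain ⟨r, hr, rfl⟩ := hx
  refine ⟨r, hr, ?_⟩
  push_cast
  field_simp

/-- `x ∈ M A ⟹ k² x ∈ M A` -/
lemma CZ.stepB_sq_mul {M : ℕ} {x : ℚ} (hx : CZ q M x) : CZ q M ((k : ℚ) ^ 2 * x) :=
  hx.away_mul (isAway_pow (isAway_natCast q k) 2)

/-- `h(k) Γ' h(k)⁻¹ ⊆ Γ(m)` for `Γ' = {g ∈ Γ(m) : g₁₀ ∈ m k² A}` -/
lemma stepB_hQ_conj_mem_Gam (hk : k ≠ 0) {g : SLQ} (hg : g ∈ Gam q m) (hc : CZ q (m * k ^ 2) (g 1 0)) :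
    hQ (k : ℚ) * g * (hQ (k : ℚ))⁻¹ ∈ Gam q m := by
  have hk' : (k : ℚ) ≠ 0 := by exact_mod_cast hk
  have hg' := (mem_Gam_iff q m g).1 hg
  rw [mem_Gam_iff]
  refine ⟨?_, ?_, ?_, ?_⟩
  · rw [stepB_hQ_conj_00 hk']; exact hg'.c00
  · rw [stepB_hQ_conj_01 hk']; exact hg'.c01.stepB_sq_mul
  · rw [stepB_hQ_conj_10 hk']; exact hc.stepB_div_sq hk
  · rw [stepB_hQ_conj_11 hk']; exact hg'.c11

/-- `h(k) Γ(m k²) h(k)⁻¹ ⊆ Γ(m)` -/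
lemma stepB_hQ_conj_mem_Gam_of_sq (hk : k ≠ 0) {g : SLQ} (hg : g ∈ Gam q (m * k ^ 2)) :
    hQ (k : ℚ) * g * (hQ (k : ℚ))⁻¹ ∈ Gam q m :=
  stepB_hQ_conj_mem_Gam hk (Gam_mono q (Dvd.intro _ rfl) hg) ((mem_Gam_iff q _ g).1 hg).c10

/-- `h(k)⁻¹ Γ(m k⁴) h(k) ⊆ Γ(m k²)` -/
lemma stepB_hQ_inv_conj_mem_Gam (hk : k ≠ 0) {g : SLQ} (hg : g ∈ Gam q (m * k ^ 4)) :
    (hQ (k : ℚ))⁻¹ * g * hQ (k : ℚ) ∈ Gam q (m * k ^ 2) := by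
  have hk' : (k : ℚ) ≠ 0 := by exact_mod_cast hk
  have hg' := (mem_Gam_iff q _ g).1 hg
  have hdvd : m * k ^ 2 ∣ m * k ^ 4 := ⟨k ^ 2, by ring⟩
  rw [mem_Gam_iff]
  refine ⟨?_, ?_, ?_, ?_⟩
  · rw [stepB_hQ_inv_conj_00 hk']; exact hg'.c00.of_dvd hdvd
  · rw [stepB_hQ_inv_conj_01 hk']; exact hg'.c01.stepB_div_sq_four hk
  · rw [stepB_hQ_inv_conj_10 hk']; exact (hg'.c10.of_dvd hdvd).stepB_sq_mul
  · rw [stepB_hQ_inv_conj_11 hk']; exact hg'.c11.of_dvd hdvd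

end Levels

/-! ### Step B -/

section StepB

variable {q m k : ℕ} {V : Type} [AddCommGroup V] {Φ : SLQ → V}

/-- (B1) `Φ ∘ c_{h(k)}` is a parabolic hom of level `m k²` -/
lemma ParHom.stepB_conj_hQ (h : ParHom q m Φ) (hk : k ≠ 0) :
    ParHom q (m * k ^ 2) (fun g => Φ (hQ (k : ℚ) * g * (hQ (k : ℚ))⁻¹)) :=
  h.conj_of (fun _ hg => stepB_hQ_conj_mem_Gam_of_sq hk hg)

/-- (B1) `Φ (l(-1/k) g l(1/k)) = Φ g` for `g ∈ h(k) Γ(m k²) h(k)⁻¹` -/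
lemma stepB_aux_lQ (hm : m ≠ 0) (hk : k ≠ 0) (hNT2 : NTInput q (m * k ^ 2)) (h : ParHom q m Φ)
    {g : SLQ} (hy : (hQ (k : ℚ))⁻¹ * g * hQ (k : ℚ) ∈ Gam q (m * k ^ 2)) :
    Φ (lQ (-(k : ℚ)⁻¹) * g * (lQ (-(k : ℚ)⁻¹))⁻¹) = Φ g := by
  have hk' : (k : ℚ) ≠ 0 := by exact_mod_cast hk
  have hM : m * k ^ 2 ≠ 0 := mul_ne_zero hm (pow_ne_zero 2 hk)
  have key := stepA_lQ hM hNT2 (h.stepB_conj_hQ hk) (t := -(k : ℚ)) (isAway_natCast q k).neg _ hy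
  simp only at key
  have el : hQ (k : ℚ) * lQ (-(k : ℚ)) * (hQ (k : ℚ))⁻¹ = lQ (-(k : ℚ)⁻¹) := by
    rw [stepB_hQ_lQ_hQ_inv hk']
    congr 1
    field_simp
  have e1 : hQ (k : ℚ) * (lQ (-(k : ℚ)) * ((hQ (k : ℚ))⁻¹ * g * hQ (k : ℚ)) * (lQ (-(k : ℚ)))⁻¹) *
      (hQ (k : ℚ))⁻¹ = (hQ (k : ℚ) * lQ (-(k : ℚ)) * (hQ (k : ℚ))⁻¹) * g *
        (hQ (k : ℚ) * lQ (-(k : ℚ)) * (hQ (k : ℚ))⁻¹)⁻¹ := by group
  have e2 : hQ (k : ℚ) * ((hQ (k : ℚ))⁻¹ * g * hQ (k : ℚ)) * (hQ (k : ℚ))⁻¹ = g := by group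
  rw [e1, e2, el] at key
  exact key

/-- the conjugate `l(-1/k) g l(1/k)` of `g ∈ h(k) Γ(m k²) h(k)⁻¹` lies in `Γ(m)` -/
lemma stepB_aux_mem (hk : k ≠ 0) {g : SLQ}
    (hy : (hQ (k : ℚ))⁻¹ * g * hQ (k : ℚ) ∈ Gam q (m * k ^ 2)) :
    lQ (-(k : ℚ)⁻¹) * g * (lQ (-(k : ℚ)⁻¹))⁻¹ ∈ Gam q m := by
  have hk' : (k : ℚ) ≠ 0 := by exact_mod_cast hk
  have el : hQ (k : ℚ) * lQ (-(k : ℚ)) * (hQ (k : ℚ))⁻¹ = lQ (-(k : ℚ)⁻¹) := by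
    rw [stepB_hQ_lQ_hQ_inv hk']
    congr 1
    field_simp
  have hmem : lQ (-(k : ℚ)) * ((hQ (k : ℚ))⁻¹ * g * hQ (k : ℚ)) * (lQ (-(k : ℚ)))⁻¹ ∈
      Gam q (m * k ^ 2) := Gam_conj_mem (lQ_mem_GA (isAway_natCast q k).neg) hy
  have := stepB_hQ_conj_mem_Gam_of_sq hk hmem
  have e1 : hQ (k : ℚ) * (lQ (-(k : ℚ)) * ((hQ (k : ℚ))⁻¹ * g * hQ (k : ℚ)) * (lQ (-(k : ℚ)))⁻¹) *
      (hQ (k : ℚ))⁻¹ = (hQ (k : ℚ) * lQ (-(k : ℚ)) * (hQ (k : ℚ))⁻¹) * g *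
        (hQ (k : ℚ) * lQ (-(k : ℚ)) * (hQ (k : ℚ))⁻¹)⁻¹ := by group
  rw [e1, el] at this
  exact this

/-- (B2) `Φ ∘ c_{h(k)} = Φ` on `Γ(m k⁴)` -/
theorem stepB_deep (hm : m ≠ 0) (hk : k ≠ 0) (hNT1 : NTInput q m) (hNT2 : NTInput q (m * k ^ 2))
    (h : ParHom q m Φ) {g : SLQ} (hg : g ∈ Gam q (m * k ^ 4)) :
    Φ (hQ (k : ℚ) * g * (hQ (k : ℚ))⁻¹) = Φ g := by
  have hk' : (k : ℚ) ≠ 0 := by exact_mod_cast hk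
  have hdvd : m ∣ m * k ^ 4 := Dvd.intro _ rfl
  have hkA : IsAway q (k : ℚ) := isAway_natCast q k
  have hw : wQ ∈ GA q := wQ_mem_GA q
  have hwi : wQ⁻¹ ∈ GA q := (GA q).inv_mem hw
  have hu : uQ (k : ℚ) ∈ GA q := uQ_mem_GA hkA
  -- g₁ = w⁻¹ g w
  obtain ⟨g₁, hg₁def⟩ : ∃ g₁ : SLQ, g₁ = wQ⁻¹ * g * wQ⁻¹⁻¹ := ⟨_, rfl⟩
  have hg₁ : g₁ ∈ Gam q (m * k ^ 4) := hg₁def ▸ Gam_conj_mem hwi hg
  have hΦ₁ : Φ g₁ = Φ g := by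
    rw [hg₁def]
    exact (stepA_wQ hm hNT1 h).inv hw g (Gam_mono q hdvd hg)
  -- g₂ = u(k) g₁ u(-k)
  obtain ⟨g₂, hg₂def⟩ : ∃ g₂ : SLQ, g₂ = uQ (k : ℚ) * g₁ * (uQ (k : ℚ))⁻¹ := ⟨_, rfl⟩
  have hg₂ : g₂ ∈ Gam q (m * k ^ 4) := hg₂def ▸ Gam_conj_mem hu hg₁
  have hΦ₂ : Φ g₂ = Φ g₁ := by
    rw [hg₂def]
    exact stepA_uQ hm hNT1 h hkA g₁ (Gam_mono q hdvd hg₁)
  -- g₃ = l(-1/k) g₂ l(1/k)
  have hy : (hQ (k : ℚ))⁻¹ * g₂ * hQ (k : ℚ) ∈ Gam q (m * k ^ 2) := stepB_hQ_inv_conj_mem_Gam hk hg₂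
  obtain ⟨g₃, hg₃def⟩ : ∃ g₃ : SLQ, g₃ = lQ (-(k : ℚ)⁻¹) * g₂ * (lQ (-(k : ℚ)⁻¹))⁻¹ := ⟨_, rfl⟩
  have hg₃ : g₃ ∈ Gam q m := hg₃def ▸ stepB_aux_mem hk hy
  have hΦ₃ : Φ g₃ = Φ g₂ := by
    rw [hg₃def]
    exact stepB_aux_lQ hm hk hNT2 h hy
  -- g₄ = u(k) g₃ u(-k) = h(k) g h(k)⁻¹
  have hΦ₄ : Φ (uQ (k : ℚ) * g₃ * (uQ (k : ℚ))⁻¹) = Φ g₃ := stepA_uQ hm hNT1 h hkA g₃ hg₃
  have e : hQ (k : ℚ) * g * (hQ (k : ℚ))⁻¹ = uQ (k : ℚ) * g₃ * (uQ (k : ℚ))⁻¹ := by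
    rw [hg₃def, hg₂def, hg₁def, stepB_hQ_eq hk']
    group
  rw [e, hΦ₄, hΦ₃, hΦ₂, hΦ₁]

/-- **STEP B** of helper11's proof of the congruence subgroup property (#3042): a parabolic hom `Φ`
of level `m` with values killed by `p` is invariant under conjugation by the torus element `h(k)`
on `Γ' = {g ∈ Γ(m) : g₁₀ ∈ m k² ℤ[1/q]}`, for `k` prime to `m q` with `p` prime to `φ(k⁴)`. -/
theorem stepB {p : ℕ} (hq : q.Prime) (hm : m ≠ 0) (hk : k ≠ 0) (hkm : k.Coprime m)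
    (hkq : k.Coprime q) (hV : ∀ v : V, p • v = 0) (hpk : p.Coprime (Nat.totient (k ^ 4)))
    (hNT1 : NTInput q m) (hNT2 : NTInput q (m * k ^ 2)) (h : ParHom q m Φ)
    {g : SLQ} (hg : g ∈ Gam q m) (hc : CZ q (m * k ^ 2) (g 1 0)) :
    Φ (hQ (k : ℚ) * g * (hQ (k : ℚ))⁻¹) = Φ g := by
  have key := CSP24.torus_kill (q := q) (m := m) (k := k) hq hkm hkq hV hpk
    (fun g => Φ (hQ (k : ℚ) * g * (hQ (k : ℚ))⁻¹) - Φ g) ?_ ?_ ?_ g ⟨hg, hc⟩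
  · exact sub_eq_zero.1 key
  · rintro g₁ g₂ ⟨h₁, c₁⟩ ⟨h₂, c₂⟩
    have e : hQ (k : ℚ) * (g₁ * g₂) * (hQ (k : ℚ))⁻¹ =
        (hQ (k : ℚ) * g₁ * (hQ (k : ℚ))⁻¹) * (hQ (k : ℚ) * g₂ * (hQ (k : ℚ))⁻¹) := by group
    show Φ (hQ (k : ℚ) * (g₁ * g₂) * (hQ (k : ℚ))⁻¹) - Φ (g₁ * g₂) = _
    rw [e, h.map_mul _ _ (stepB_hQ_conj_mem_Gam hk h₁ c₁) (stepB_hQ_conj_mem_Gam hk h₂ c₂),
      h.map_mul _ _ h₁ h₂]
    abel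
  · rintro g₁ ⟨h₁, c₁⟩ htr
    show Φ (hQ (k : ℚ) * g₁ * (hQ (k : ℚ))⁻¹) - Φ g₁ = 0
    rw [h.map_unip _ (stepB_hQ_conj_mem_Gam hk h₁ c₁) (isUnip_conj _ _ htr), h.map_unip _ h₁ htr,
      sub_zero]
  · intro g₁ hg₁
    show Φ (hQ (k : ℚ) * g₁ * (hQ (k : ℚ))⁻¹) - Φ g₁ = 0
    rw [stepB_deep hm hk hNT1 hNT2 h hg₁, sub_self]

/-- Step B with the arithmetic side condition in the form of #3042: no prime factor of `k` is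
`≡ 0, 1 mod p`. -/
theorem stepB' {p : ℕ} (hp : p.Prime) (hq : q.Prime) (hm : m ≠ 0) (hk : k ≠ 0) (hkm : k.Coprime m)
    (hkq : k.Coprime q) (hV : ∀ v : V, p • v = 0)
    (hl : ∀ l : ℕ, l.Prime → l ∣ k → ¬ p ∣ l ∧ ¬ p ∣ l - 1)
    (hNT1 : NTInput q m) (hNT2 : NTInput q (m * k ^ 2)) (h : ParHom q m Φ)
    {g : SLQ} (hg : g ∈ Gam q m) (hc : CZ q (m * k ^ 2) (g 1 0)) :
    Φ (hQ (k : ℚ) * g * (hQ (k : ℚ))⁻¹) = Φ g :=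
  stepB hq hm hk hkm hkq hV (CSP24.coprime_totient_pow_four hp hl) hNT1 hNT2 h hg hc

/-- Step B for a large prime `l` (the shape consumed by STEP C), with Step A supplied as the
number-theoretic input at every level prime to `q`. -/
theorem stepB_prime {p : ℕ} (hp : p.Prime) (hq : q.Prime) (hm : 0 < m) (hmq : m.Coprime q)
    (hNT : ∀ M : ℕ, 0 < M → M.Coprime q → NTInput q M) (hV : ∀ v : V, p • v = 0)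
    (h : ParHom q m Φ) :
    ∀ l : ℕ, l.Prime → ¬ p ∣ l → ¬ p ∣ l - 1 → max m q < l → ∀ g : SLQ, g ∈ Gam q m →
      CZ q (m * l ^ 2) (g 1 0) → Φ (hQ (l : ℚ) * g * (hQ (l : ℚ))⁻¹) = Φ g := by
  intro l hl hpl hpl1 hbig g hg hc
  have hml : m < l := lt_of_le_of_lt (le_max_left m q) hbig
  have hql : q < l := lt_of_le_of_lt (le_max_right m q) hbig
  have hlm : l.Coprime m := by
    rw [Nat.Prime.coprime_iff_not_dvd hl]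
    exact fun hd => absurd (Nat.le_of_dvd hm hd) (not_le.2 hml)
  have hlq : l.Coprime q := by
    rw [Nat.Prime.coprime_iff_not_dvd hl]
    exact fun hd => absurd (Nat.le_of_dvd hq.pos hd) (not_le.2 hql)
  have hM2 : (m * l ^ 2).Coprime q := Nat.Coprime.mul_left hmq (Nat.Coprime.pow_left 2 hlq)
  refine stepB' hp hq hm.ne' hl.ne_zero hlm hlq hV ?_ (hNT m hm hmq)
    (hNT (m * l ^ 2) (Nat.mul_pos hm (pow_pos hl.pos 2)) hM2) h hg hc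
  intro l' hl' hdvd
  have : l' = l := (Nat.prime_dvd_prime_iff_eq hl' hl).1 hdvd
  subst this
  exact ⟨hpl, hpl1⟩

end StepB

end Fermat.Agent.S41.CSP11
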