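/-
S41 / C4 [CSP], file F6a (helper86): the PURE ARITHMETIC heart of STEP C of helper11's proof
(report #3042).  Mathlib only.

`d` an odd prime, `p` an odd prime `≠ d`, `V` an abelian group killed by `p`, `G : ℤ → V` with
* (h1) `G (n + d s) = G n`;
* (h2) `G (l² n) = G n` for every prime `l` with `p ∤ l`, `p ∤ l - 1`, `l ∤ bad`  (`n` prime to `d`);
* (h3) `G (-n') = - G n` whenever `m² n n' ≡ 1 mod d`;
* (h4) `G 1 = 0 = G (-1)`.
Then `G n = 0` for every `n` prime to `d`  (`kill_of_squares`).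

In the application `G n = Φ (g)` for `g` principal of level `m` with first column `(d, m n)`:
(h1) is left multiplication by `l(m s)`, (h2) is STEP B, (h3) is `w`-conjugation + inversion,
(h4) are the unipotents `u(±j) l(±m) u(∓j)`, `d = 1 + j m`.
-/
import Mathlib

set_option autoImplicit false

namespace Fermat.Agent.S41.CSP11

/-- Chinese remainder + Dirichlet: a prime `l > B` with `l ≡ y mod d` and `l ≡ 2 mod p`. -/
theorem exists_prime_modEq_two {d p : ℕ} (hd : d.Prime) (hp : p.Prime) (hp2 : p ≠ 2) (hdp : d ≠ p)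
    (y : ℤ) (hy : IsCoprime y (d : ℤ)) (B : ℕ) :
    ∃ l : ℕ, B < l ∧ l.Prime ∧ (l : ℤ) ≡ y [ZMOD d] ∧ (l : ℤ) ≡ 2 [ZMOD p] := by
  have hcop : IsCoprime (d : ℤ) (p : ℤ) := by
    rw [Int.isCoprime_iff_gcd_eq_one, Int.gcd_natCast_natCast]
    exact (Nat.coprime_primes hd hp).mpr hdp
  obtain ⟨u, v, huv⟩ := hcop
  -- `u d + v p = 1`
  set r : ℤ := y * (v * p) + 2 * (u * d) with hr
  have hrd : r ≡ y [ZMOD d] :=
    Int.modEq_iff_dvd.mpr ⟨y * u - 2 * u, by rw [hr]; linear_combination (-y) * huv⟩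
  have hrp : r ≡ 2 [ZMOD p] :=
    Int.modEq_iff_dvd.mpr ⟨2 * v - y * v, by rw [hr]; linear_combination (-2 : ℤ) * huv⟩
  have h2p : IsCoprime (2 : ℤ) (p : ℤ) := by
    have : Nat.Coprime 2 p := (Nat.coprime_primes Nat.prime_two hp).mpr (Ne.symm hp2)
    rw [Int.isCoprime_iff_gcd_eq_one]
    exact_mod_cast this
  have hr1 : IsCoprime r (d : ℤ) := by
    have h := Int.modEq_iff_dvd.mp hrd
    obtain ⟨k, hk⟩ := h
    -- `y = r + d k`
    have : y = r + d * k := by linarith
    rw [this] at hy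
    exact (IsCoprime.add_mul_left_left_iff).mp hy
  have hr2 : IsCoprime r (p : ℤ) := by
    obtain ⟨k, hk⟩ := Int.modEq_iff_dvd.mp hrp
    have : (2 : ℤ) = r + p * k := by linarith
    rw [this] at h2p
    exact (IsCoprime.add_mul_left_left_iff).mp h2p
  have hr3 : IsCoprime r ((d * p : ℕ) : ℤ) := by
    push_cast
    exact hr1.mul_right hr2
  obtain ⟨l, hl, hlp, hlr⟩ := Nat.forall_exists_prime_gt_and_zmodEq B
    (Nat.mul_ne_zero hd.ne_zero hp.ne_zero) hr3
  refine ⟨l, hl, hlp, ?_, ?_⟩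
  · refine (Int.ModEq.of_mul_right (p : ℤ) ?_).trans hrd
    simpa [Nat.cast_mul] using hlr
  · refine (Int.ModEq.of_mul_left (d : ℤ) ?_).trans hrp
    simpa [Nat.cast_mul] using hlr


section Kill

variable {d p : ℕ} [hd : Fact d.Prime] [hp : Fact p.Prime] {V : Type*} [AddCommGroup V]

/-- an integer whose class mod `d` is a square is congruent to an integer square. -/
theorem exists_sq_modEq_of_isSquare {n : ℤ} (h : IsSquare ((n : ℤ) : ZMod d)) :
    ∃ y : ℤ, n ≡ y ^ 2 [ZMOD d] := by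
  obtain ⟨r, hr⟩ := h
  obtain ⟨y, rfl⟩ := ZMod.intCast_surjective r
  refine ⟨y, ?_⟩
  rw [← ZMod.intCast_eq_intCast_iff, hr]
  push_cast
  ring

/-- **STEP C, arithmetic core.** -/
theorem kill_of_squares (hp2 : p ≠ 2) (hdp : d ≠ p) (m : ℤ) (hmd : IsCoprime m (d : ℤ))
    (bad : ℕ) (hV : ∀ v : V, p • v = 0) (G : ℤ → V)
    (h1 : ∀ n s : ℤ, G (n + d * s) = G n)
    (h2 : ∀ l : ℕ, l.Prime → ¬ p ∣ l → ¬ p ∣ l - 1 → bad < l →
      ∀ n : ℤ, IsCoprime n (d : ℤ) → G ((l : ℤ) ^ 2 * n) = G n)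
    (h3 : ∀ n n' : ℤ, (d : ℤ) ∣ m ^ 2 * n * n' - 1 → G (-n') = - G n)
    (h4 : G 1 = 0) (h4' : G (-1) = 0) :
    ∀ n : ℤ, IsCoprime n (d : ℤ) → G n = 0 := by
  have hdprime : Prime (d : ℤ) := Nat.prime_iff_prime_int.mp hd.out
  -- invariance under congruence mod `d`
  have hmod : ∀ a b : ℤ, a ≡ b [ZMOD d] → G a = G b := by
    intro a b hab
    obtain ⟨s, hs⟩ := Int.modEq_iff_dvd.mp hab
    have : b = a + d * s := by linarith
    rw [this, h1]
  -- coprimality is invariant under congruence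
  have hcop_of_modEq : ∀ a b : ℤ, a ≡ b [ZMOD d] → IsCoprime a (d : ℤ) → IsCoprime b (d : ℤ) := by
    intro a b hab ha
    obtain ⟨s, hs⟩ := Int.modEq_iff_dvd.mp hab
    have : b = a + d * s := by linarith
    rw [this]
    exact (IsCoprime.add_mul_left_left_iff).mpr ha
  -- squares
  have hsq : ∀ y n : ℤ, IsCoprime y (d : ℤ) → IsCoprime n (d : ℤ) → G (y ^ 2 * n) = G n := by
    intro y n hy hn
    obtain ⟨l, hl, hlp, hly, hl2⟩ := exists_prime_modEq_two hd.out hp.out hp2 hdp y hy bad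
    have hpl : ¬ p ∣ l := by
      intro h
      have h0 : (l : ℤ) ≡ 0 [ZMOD p] := by
        rw [Int.modEq_zero_iff_dvd]; exact_mod_cast h
      have h2 : (2 : ℤ) ≡ 0 [ZMOD p] := hl2.symm.trans h0
      rw [Int.modEq_zero_iff_dvd] at h2
      have h2' : p ∣ 2 := by exact_mod_cast h2
      exact hp2 ((Nat.prime_dvd_prime_iff_eq hp.out Nat.prime_two).mp h2')
    have hpl1 : ¬ p ∣ l - 1 := by
      intro h
      have h0 : ((l - 1 : ℕ) : ℤ) ≡ 0 [ZMOD p] := by
        rw [Int.modEq_zero_iff_dvd]; exact_mod_cast h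
      have hcast : ((l - 1 : ℕ) : ℤ) = (l : ℤ) - 1 := by
        have := hlp.one_le
        push_cast [Nat.cast_sub this]; ring
      rw [hcast] at h0
      have h1' : ((l : ℤ) - 1) ≡ 1 [ZMOD p] := by
        have := hl2.sub_right 1
        simpa using this
      have h3' : (1 : ℤ) ≡ 0 [ZMOD p] := h1'.symm.trans h0
      rw [Int.modEq_zero_iff_dvd] at h3'
      have : p ∣ 1 := by exact_mod_cast h3'
      exact hp.out.one_lt.ne' (Nat.dvd_one.mp this)
    have e1 : G (y ^ 2 * n) = G ((l : ℤ) ^ 2 * n) :=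
      hmod _ _ (((hly.pow 2).mul_right n).symm)
    rw [e1, h2 l hlp hpl hpl1 hl n hn]
  -- oddness
  have hneg : ∀ n : ℤ, IsCoprime n (d : ℤ) → G (-n) = - G n := by
    intro n hn
    have hmn : IsCoprime (m ^ 2 * n) (d : ℤ) := (hmd.pow_left).mul_left hn
    obtain ⟨a, b, hab⟩ := hmn
    -- `a (m² n) + b d = 1`
    have hdvd : (d : ℤ) ∣ m ^ 2 * n * a - 1 := ⟨-b, by linear_combination hab⟩
    have h3' := h3 n a hdvd
    have ha : IsCoprime a (d : ℤ) := ⟨m ^ 2 * n, b, by linear_combination hab⟩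
    have hy : IsCoprime (m * a) (d : ℤ) := hmd.mul_left ha
    have hcong : (m * a) ^ 2 * (-n) ≡ -a [ZMOD d] := by
      apply Int.modEq_iff_dvd.mpr
      obtain ⟨k, hk⟩ := hdvd
      exact ⟨a * k, by linear_combination a * hk⟩
    rw [← h3', ← hmod _ _ hcong, hsq (m * a) (-n) hy hn.neg_left]
  intro n hn
  have hn0 : ((n : ℤ) : ZMod d) ≠ 0 := by
    intro h
    rw [ZMod.intCast_zmod_eq_zero_iff_dvd] at h
    have hunit : IsUnit (d : ℤ) := hn.symm.isUnit_of_dvd' (dvd_refl _) h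
    exact hdprime.not_isUnit hunit
  by_cases hm1 : IsSquare (-1 : ZMod d)
  · -- `-1` is a square: `G n = - G n`
    have hm1' : IsSquare (((-1 : ℤ) : ℤ) : ZMod d) := by simpa using hm1
    obtain ⟨y, hy⟩ := exists_sq_modEq_of_isSquare hm1'
    have hyc : IsCoprime y (d : ℤ) := by
      have h1c : IsCoprime (-1 : ℤ) (d : ℤ) := isCoprime_one_left.neg_left
      have := hcop_of_modEq _ _ hy h1c
      exact IsCoprime.of_mul_left_left (by rw [← pow_two]; exact this)
    have hcong : y ^ 2 * n ≡ -n [ZMOD d] := by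
      have := (hy.symm.mul_right n)
      simpa using this
    have e1 : G (-n) = G n := by
      rw [← hmod _ _ hcong, hsq y n hyc hn]
    have e2 : G n = - G n := by rw [← hneg n hn, e1]
    have h2G : (2 : ℕ) • G n = 0 := by
      rw [two_nsmul]
      nth_rewrite 1 [e2]
      exact neg_add_cancel _
    -- `gcd(2, p) = 1`
    have hcop : Nat.Coprime 2 p := (Nat.coprime_primes Nat.prime_two hp.out).mpr (Ne.symm hp2)
    have := hcop.gcd_eq_one
    have hg : (Nat.gcd 2 p) • G n = 0 := by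
      have h := Nat.gcd_eq_gcd_ab 2 p
      have hz : ((Nat.gcd 2 p : ℕ) : ℤ) • G n = 0 := by
        rw [h, add_smul, mul_smul, mul_smul]
        have e3 : ((2 : ℕ) : ℤ) • G n = 0 := by rw [natCast_zsmul]; exact h2G
        have e4 : ((p : ℕ) : ℤ) • G n = 0 := by rw [natCast_zsmul]; exact hV _
        rw [smul_comm, e3, smul_zero, smul_comm, e4, smul_zero, add_zero]
      rwa [natCast_zsmul] at hz
    rwa [this, one_smul] at hg
  · -- `-1` is not a square: every `n` is `± square`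
    have hm1pow : (-1 : ZMod d) ^ (d / 2) = -1 := by
      have hne : (-1 : ZMod d) ≠ 0 := neg_ne_zero.mpr one_ne_zero
      rcases ZMod.pow_div_two_eq_neg_one_or_one d hne with h | h
      · exact absurd ((ZMod.euler_criterion d hne).mpr h) hm1
      · exact h
    rcases ZMod.pow_div_two_eq_neg_one_or_one d hn0 with h | h
    · -- `n` is a square
      have hs : IsSquare ((n : ℤ) : ZMod d) := (ZMod.euler_criterion d hn0).mpr h
      obtain ⟨y, hy⟩ := exists_sq_modEq_of_isSquare hs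
      have hyc : IsCoprime y (d : ℤ) :=
        IsCoprime.of_mul_left_left (by rw [← pow_two]; exact hcop_of_modEq _ _ hy hn)
      have : G n = G (y ^ 2 * 1) := hmod _ _ (by simpa using hy)
      rw [this, hsq y 1 hyc isCoprime_one_left, h4]
    · -- `-n` is a square
      have hnn0 : ((( -n : ℤ)) : ZMod d) ≠ 0 := by
        push_cast; exact neg_ne_zero.mpr hn0
      have hpow : (((-n : ℤ)) : ZMod d) ^ (d / 2) = 1 := by
        push_cast
        rw [neg_pow, hm1pow, h]; ring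
      have hs : IsSquare (((-n : ℤ)) : ZMod d) := (ZMod.euler_criterion d hnn0).mpr hpow
      obtain ⟨y, hy⟩ := exists_sq_modEq_of_isSquare hs
      have hyc : IsCoprime y (d : ℤ) :=
        IsCoprime.of_mul_left_left (by rw [← pow_two]; exact hcop_of_modEq _ _ hy hn.neg_left)
      have hcong : n ≡ y ^ 2 * (-1) [ZMOD d] := by
        have := hy.neg
        simpa using this
      rw [hmod _ _ hcong, hsq y (-1) hyc isCoprime_one_left.neg_left, h4']

end Kill

end Fermat.Agent.S41.CSP11
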