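/-
S41 / C4 [CSP], file F5 `NumC` (helper32), matrix-existence half of the number theory of STEP C of
helper11's elementary proof of the congruence subgroup property for `SL₂(ℤ[1/q])`:

* `numC_exists_principal_col`   : an integral matrix of `Γ(m)` with prescribed first column
  `(d, m n)` (`d ≡ 1 mod m`, `gcd(d, m n) = 1`);
* `numC_exists_principal_lr`    : an integral matrix of `Γ(m)` with prescribed lower right entry `d`
  and off-diagonal entries `m b`, `m c` (`d ≡ 1 mod m`, `d ∣ 1 + m² b c`);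
* the `SLQ`-forms (`IsPrincipal q m`) of both, and
* `numC_exists_principalQ_col_away` : the general `ℤ[1/q]`-form (first column `(a, c)` with
  `a ≡ 1`, `c ≡ 0 mod m ℤ[1/q]`, `a x + c y = 1`).

Vocabulary: landed `Amalgam95` (`SLQ`, `mkQ`, `IsAway`, `castSL`) and `Ihara95.Core`
(`IsCongZero`, `IsPrincipal`).
-/
import Fermat.Agent.S41.Ihara95.Core

set_option autoImplicit false

namespace Fermat.Agent.S41.CSP11

open Matrix Fermat.Agent.S41.Amalgam95 Fermat.Agent.S41.Ihara95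

/-- the integral matrix `[[a, b], [c, e]]` of determinant one -/
def numC_mkZ (a b c e : ℤ) (h : a * e - b * c = 1) : Matrix.SpecialLinearGroup (Fin 2) ℤ :=
  ⟨!![a, b; c, e], by rw [Matrix.det_fin_two_of]; exact h⟩

@[simp] lemma numC_mkZ_00 (a b c e : ℤ) (h : a * e - b * c = 1) : numC_mkZ a b c e h 0 0 = a := rfl
@[simp] lemma numC_mkZ_01 (a b c e : ℤ) (h : a * e - b * c = 1) : numC_mkZ a b c e h 0 1 = b := rfl
@[simp] lemma numC_mkZ_10 (a b c e : ℤ) (h : a * e - b * c = 1) : numC_mkZ a b c e h 1 0 = c := rfl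
@[simp] lemma numC_mkZ_11 (a b c e : ℤ) (h : a * e - b * c = 1) : numC_mkZ a b c e h 1 1 = e := rfl

/-- membership in `Γ(m)` from divisibilities of the entries -/
lemma numC_mem_Gamma_of_dvd (m : ℕ) (g : Matrix.SpecialLinearGroup (Fin 2) ℤ)
    (h00 : (m : ℤ) ∣ g 0 0 - 1) (h01 : (m : ℤ) ∣ g 0 1) (h10 : (m : ℤ) ∣ g 1 0)
    (h11 : (m : ℤ) ∣ g 1 1 - 1) : g ∈ CongruenceSubgroup.Gamma m := by
  rw [CongruenceSubgroup.Gamma_mem]
  refine ⟨?_, ?_, ?_, ?_⟩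
  · have := (ZMod.intCast_zmod_eq_zero_iff_dvd (g 0 0 - 1) m).2 h00
    push_cast at this
    exact sub_eq_zero.1 this
  · exact (ZMod.intCast_zmod_eq_zero_iff_dvd (g 0 1) m).2 h01
  · exact (ZMod.intCast_zmod_eq_zero_iff_dvd (g 1 0) m).2 h10
  · have := (ZMod.intCast_zmod_eq_zero_iff_dvd (g 1 1 - 1) m).2 h11
    push_cast at this
    exact sub_eq_zero.1 this

/-- **(N-c)** an integral matrix of `Γ(m)` with prescribed first column `(d, m n)`. -/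
theorem numC_exists_principal_col (m : ℕ) (d n : ℤ) (hd : d ≡ 1 [ZMOD (m : ℤ)])
    (hcop : IsCoprime d ((m : ℤ) * n)) :
    ∃ g : Matrix.SpecialLinearGroup (Fin 2) ℤ, g ∈ CongruenceSubgroup.Gamma m ∧
      g 0 0 = d ∧ g 1 0 = (m : ℤ) * n := by
  obtain ⟨x, y, hxy⟩ := hcop
  -- `x * d + y * (m n) = 1`
  obtain ⟨k, hk⟩ : (m : ℤ) ∣ d - 1 := (Int.modEq_iff_dvd.1 hd.symm)
  have hdet : d * (x + y * ((m : ℤ) * n)) - (y * (d - 1)) * ((m : ℤ) * n) = 1 := by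
    linear_combination hxy
  refine ⟨numC_mkZ d (y * (d - 1)) ((m : ℤ) * n) (x + y * ((m : ℤ) * n)) hdet, ?_, rfl, rfl⟩
  apply numC_mem_Gamma_of_dvd
  · simpa using ⟨k, hk⟩
  · simp only [numC_mkZ_01]
    exact Dvd.dvd.mul_left ⟨k, hk⟩ y
  · simp only [numC_mkZ_10]
    exact Dvd.intro _ rfl
  · simp only [numC_mkZ_11]
    -- `e - 1 = -(d-1) e + b (m n)`
    refine ⟨-k * (x + y * ((m : ℤ) * n)) + y * (d - 1) * n, ?_⟩
    linear_combination hdet - (x + y * ((m : ℤ) * n)) * hk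

/-- **(N-c')** an integral matrix of `Γ(m)` with prescribed lower right entry `d` and
off-diagonal entries `m b`, `m c`. -/
theorem numC_exists_principal_lr (m : ℕ) (d b c : ℤ) (hd : d ≡ 1 [ZMOD (m : ℤ)])
    (hdvd : d ∣ 1 + (m : ℤ) ^ 2 * b * c) :
    ∃ g : Matrix.SpecialLinearGroup (Fin 2) ℤ, g ∈ CongruenceSubgroup.Gamma m ∧
      g 0 1 = (m : ℤ) * b ∧ g 1 0 = (m : ℤ) * c ∧ g 1 1 = d := by
  obtain ⟨a, ha⟩ := hdvd
  obtain ⟨k, hk⟩ : (m : ℤ) ∣ d - 1 := (Int.modEq_iff_dvd.1 hd.symm)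
  have hdet : a * d - ((m : ℤ) * b) * ((m : ℤ) * c) = 1 := by
    linear_combination (-1 : ℤ) * ha
  refine ⟨numC_mkZ a ((m : ℤ) * b) ((m : ℤ) * c) d hdet, ?_, rfl, rfl, rfl⟩
  apply numC_mem_Gamma_of_dvd
  · simp only [numC_mkZ_00]
    refine ⟨-a * k + (m : ℤ) * b * c, ?_⟩
    linear_combination hdet - a * hk
  · simp only [numC_mkZ_01]
    exact Dvd.intro _ rfl
  · simp only [numC_mkZ_10]
    exact Dvd.intro _ rfl
  · simpa using ⟨k, hk⟩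

/-- `SLQ`-form of `numC_exists_principal_col`: all four entries are integers. -/
theorem numC_exists_principalQ_col (q m : ℕ) (d n : ℤ) (hd : d ≡ 1 [ZMOD (m : ℤ)])
    (hcop : IsCoprime d ((m : ℤ) * n)) :
    ∃ g : SLQ, IsPrincipal q m g ∧ g 0 0 = (d : ℚ) ∧ g 1 0 = (m : ℚ) * (n : ℚ) ∧
      (∃ b : ℤ, g 0 1 = (m : ℚ) * (b : ℚ)) ∧ (∃ e : ℤ, g 1 1 = (e : ℚ)) := by
  obtain ⟨g, hg, h00, h10⟩ := numC_exists_principal_col m d n hd hcop
  obtain ⟨-, ⟨b, hb⟩, -, -⟩ := Gamma_entries m g hg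
  refine ⟨castSL g, isPrincipal_castSL q m g hg, ?_, ?_, ⟨b, ?_⟩, ⟨g 1 1, ?_⟩⟩
  · rw [castSL_apply, h00]
  · rw [castSL_apply, h10]; push_cast; ring
  · rw [castSL_apply, hb]; push_cast; ring
  · rw [castSL_apply]

/-- `SLQ`-form of `numC_exists_principal_lr`. -/
theorem numC_exists_principalQ_lr (q m : ℕ) (d b c : ℤ) (hd : d ≡ 1 [ZMOD (m : ℤ)])
    (hdvd : d ∣ 1 + (m : ℤ) ^ 2 * b * c) :
    ∃ g : SLQ, IsPrincipal q m g ∧ g 0 1 = (m : ℚ) * (b : ℚ) ∧ g 1 0 = (m : ℚ) * (c : ℚ) ∧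
      g 1 1 = (d : ℚ) ∧ (∃ a : ℤ, g 0 0 = (a : ℚ)) := by
  obtain ⟨g, hg, h01, h10, h11⟩ := numC_exists_principal_lr m d b c hd hdvd
  refine ⟨castSL g, isPrincipal_castSL q m g hg, ?_, ?_, ?_, ⟨g 0 0, ?_⟩⟩
  · rw [castSL_apply, h01]; push_cast; ring
  · rw [castSL_apply, h10]; push_cast; ring
  · rw [castSL_apply, h11]
  · rw [castSL_apply]

/-- General `ℤ[1/q]`-form: a principal matrix of level `m` with prescribed first column `(a, c)`,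
`a ≡ 1`, `c ≡ 0 mod m ℤ[1/q]`, `a x + c y = 1` with `x, y ∈ ℤ[1/q]`. -/
theorem numC_exists_principalQ_col_away (q m : ℕ) (a c : ℚ) (ha : IsCongZero q m (a - 1))
    (hc : IsCongZero q m c)
    (hcop : ∃ x y : ℚ, IsAway q x ∧ IsAway q y ∧ a * x + c * y = 1) :
    ∃ g : SLQ, IsPrincipal q m g ∧ g 0 0 = a ∧ g 1 0 = c := by
  obtain ⟨x, y, hx, hy, hxy⟩ := hcop
  obtain ⟨a₁, ha₁, haa⟩ := ha
  obtain ⟨c₁, hc₁, rfl⟩ := hc
  have hdet : a * (x + y * ((m : ℚ) * c₁)) - (y * (a - 1)) * ((m : ℚ) * c₁) = 1 := by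
    linear_combination hxy
  refine ⟨mkQ a (y * (a - 1)) ((m : ℚ) * c₁) (x + y * ((m : ℚ) * c₁)) hdet, ⟨?_, ?_, ?_, ?_⟩, rfl, rfl⟩
  · exact ⟨a₁, ha₁, haa⟩
  · refine ⟨y * a₁, hy.mul ha₁, ?_⟩
    change y * (a - 1) = _
    rw [haa]; ring
  · exact ⟨c₁, hc₁, rfl⟩
  · refine ⟨-a₁ * (x + y * ((m : ℚ) * c₁)) + y * a₁ * ((m : ℚ) * c₁), ?_, ?_⟩
    · exact (ha₁.neg.mul (hx.add (hy.mul ((IsAway.of_int (m : ℤ)).mul hc₁ |> fun h => by
        simpa using h)))).add ((hy.mul ha₁).mul ((IsAway.of_int (m : ℤ)).mul hc₁ |> fun h => by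
        simpa using h))
    · change x + y * ((m : ℚ) * c₁) - 1 = _
      linear_combination hdet + (-(x + y * ((m : ℚ) * c₁)) + y * (m : ℚ) * c₁) * haa

end Fermat.Agent.S41.CSP11
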