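/-
S41 / C4 [CSP], route helper11 (#3042), file F5 (first half, helper92): the number theory of STEP C
that lives in `A = ℤ[1/q]`.

* `exists_int_rep` : `A / dA = ℤ / d` for `d` prime to `q` — every element of `A` is congruent to an
  integer modulo `d A`;
* `exists_prime_eq_add_mul` : Dirichlet in `A`: if `a, c ∈ A` are coprime in `A` and `c ≠ 0`, the
  class `a + cA` contains arbitrarily large integer primes;
* `exists_prime_eq_add_mul_modEq` : the same, recording `d ≡ 1 mod m` when `a ≡ 1`, `c ≡ 0 mod mA`.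
-/
import Mathlib
import Fermat.Agent.S41.Ihara95.Core

set_option autoImplicit false

namespace Fermat.Agent.S41.CSP11

open Fermat.Agent.S41.Amalgam95 Fermat.Agent.S41.Ihara95

/-- `A/dA = ℤ/d`: every element of `ℤ[1/q]` is congruent to an integer modulo `d`, for `d` prime
to `q`. -/
theorem exists_int_rep (q d : ℕ) (hq : q ≠ 0) (hd : d.Coprime q) (c1 : ℚ) (hc1 : IsAway q c1) :
    ∃ n : ℤ, ∃ s : ℚ, IsAway q s ∧ c1 = n + d * s := by
  obtain ⟨k, c', hc'⟩ := hc1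
  have hq' : (q : ℚ) ≠ 0 := by exact_mod_cast hq
  have hqk : (q : ℚ) ^ k ≠ 0 := pow_ne_zero k hq'
  have hcop : IsCoprime ((q : ℤ) ^ k) (d : ℤ) := by
    have h1 : Nat.Coprime (q ^ k) d := Nat.Coprime.pow_left k hd.symm
    have h2 := Nat.isCoprime_iff_coprime.2 h1
    push_cast at h2
    exact h2
  obtain ⟨u, v, huv⟩ := hcop
  have huvQ : (u : ℚ) * (q : ℚ) ^ k + v * d = 1 := by exact_mod_cast huv
  refine ⟨u * c', ((c' * v : ℤ) : ℚ) / (q : ℚ) ^ k, ⟨k, c' * v, ?_⟩, ?_⟩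
  · field_simp
  · have hc1 : c1 = (c' : ℚ) / (q : ℚ) ^ k := by
      rw [← hc']; field_simp
    rw [hc1]
    push_cast
    field_simp
    linear_combination (-(c' : ℚ)) * huvQ

/-- **Dirichlet in `A = ℤ[1/q]`.**  If `a, c ∈ A` are coprime in `A` and `c ≠ 0`, then the class
`a + cA` contains an integer prime `d > B`. -/
theorem exists_prime_eq_add_mul (q : ℕ) (hq : q.Prime) (a c : ℚ) (ha : IsAway q a)
    (hc : IsAway q c) (hc0 : c ≠ 0)
    (hcop : ∃ x y : ℚ, IsAway q x ∧ IsAway q y ∧ a * x + c * y = 1) (B : ℕ) :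
    ∃ d : ℕ, d.Prime ∧ B < d ∧ ∃ t : ℚ, IsAway q t ∧ a + t * c = (d : ℚ) := by
  obtain ⟨k1, a1, ha1⟩ := ha
  obtain ⟨k2, c2, hc2⟩ := hc
  obtain ⟨x, y, ⟨k3, x3, hx3⟩, ⟨k4, y4, hy4⟩, hxy⟩ := hcop
  have hq' : (q : ℚ) ≠ 0 := by exact_mod_cast hq.ne_zero
  have hc2ne : c2 ≠ 0 := by
    rintro rfl
    have : c * (q : ℚ) ^ k2 = 0 := by simpa using hc2
    rcases mul_eq_zero.1 this with h | h
    · exact hc0 h
    · exact pow_ne_zero k2 hq' h
  obtain ⟨e, c'', hqc'', hc''⟩ :=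
    Nat.exists_eq_pow_mul_and_not_dvd (Int.natAbs_ne_zero.2 hc2ne) q hq.ne_one
  have hc''0 : c'' ≠ 0 := by
    rintro rfl
    rw [mul_zero] at hc''
    exact hc2ne (Int.natAbs_eq_zero.1 hc'')
  have : NeZero c'' := ⟨hc''0⟩
  have hcopq : Nat.Coprime q c'' := (Nat.Prime.coprime_iff_not_dvd hq).2 hqc''
  have hqu : IsUnit ((q : ℕ) : ZMod c'') := (ZMod.isUnit_iff_coprime q c'').2 hcopq
  have hid : a1 * x3 * (q : ℤ) ^ (k2 + k4) + c2 * y4 * (q : ℤ) ^ (k1 + k3)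
      = (q : ℤ) ^ (k1 + k2 + k3 + k4) := by
    have h : ((a1 * x3 * (q : ℤ) ^ (k2 + k4) + c2 * y4 * (q : ℤ) ^ (k1 + k3) : ℤ) : ℚ)
        = (((q : ℤ) ^ (k1 + k2 + k3 + k4) : ℤ) : ℚ) := by
      push_cast
      rw [← ha1, ← hc2, ← hx3, ← hy4]
      simp only [pow_add]
      linear_combination ((q : ℚ) ^ k1 * (q : ℚ) ^ k2 * (q : ℚ) ^ k3 * (q : ℚ) ^ k4) * hxy
    exact_mod_cast h
  have hc''dvd : (c'' : ℤ) ∣ c2 := by
    have h1 : (c'' : ℤ) ∣ (c2.natAbs : ℤ) := by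
      rw [hc'']; push_cast; exact Dvd.intro_left _ rfl
    exact Int.dvd_natAbs.1 h1
  have hc2z : ((c2 : ℤ) : ZMod c'') = 0 := by
    rwa [ZMod.intCast_zmod_eq_zero_iff_dvd]
  have ha1u : IsUnit ((a1 : ℤ) : ZMod c'') := by
    have h := congrArg (Int.cast : ℤ → ZMod c'') hid
    push_cast at h
    rw [hc2z, zero_mul, zero_mul, add_zero] at h
    have hu : IsUnit (((q : ℕ) : ZMod c'') ^ (k1 + k2 + k3 + k4)) := hqu.pow _
    rw [← h, mul_assoc] at hu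
    exact isUnit_of_mul_isUnit_left hu
  have hαu : IsUnit (((a1 : ℤ) : ZMod c'') * (((hqu.pow k1).unit⁻¹ : (ZMod c'')ˣ) : ZMod c'')) :=
    ha1u.mul (Units.isUnit _)
  obtain ⟨d, hdB, hdp, hdα⟩ := Nat.forall_exists_prime_gt_and_eq_mod hαu B
  obtain ⟨s, hs⟩ : (c'' : ℤ) ∣ (d : ℤ) * (q : ℤ) ^ k1 - a1 := by
    rw [← ZMod.intCast_zmod_eq_zero_iff_dvd]
    push_cast
    rw [hdα, mul_assoc]
    have h1 : (((hqu.pow k1).unit⁻¹ : (ZMod c'')ˣ) : ZMod c'') * ((q : ℕ) : ZMod c'') ^ k1 = 1 := by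
      have := (hqu.pow k1).unit.inv_mul
      rw [IsUnit.unit_spec] at this
      exact this
    rw [h1, mul_one, sub_self]
  have hsQ : ((d : ℚ) - a) * (q : ℚ) ^ k1 = (c'' : ℚ) * s := by
    have : (((d : ℤ) * (q : ℤ) ^ k1 - a1 : ℤ) : ℚ) = (((c'' : ℤ) * s : ℤ) : ℚ) := by rw [hs]
    push_cast at this
    rw [← ha1] at this
    linear_combination this
  refine ⟨d, hdp, hdB, ((d : ℚ) - a) / c, ?_, by field_simp; ring⟩
  have hqk : ∀ n : ℕ, (q : ℚ) ^ n ≠ 0 := fun n => pow_ne_zero n hq'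
  have hc''Q : (c'' : ℚ) ≠ 0 := by exact_mod_cast hc''0
  rcases Int.natAbs_eq c2 with h | h
  · refine ⟨k1 + e, s * (q : ℤ) ^ k2, ?_⟩
    have hc2Q : c * (q : ℚ) ^ k2 = (q : ℚ) ^ e * c'' := by
      rw [hc2, h, hc'']; push_cast; ring
    push_cast
    rw [div_mul_eq_mul_div, div_eq_iff hc0, pow_add]
    have e1 : ((d : ℚ) - a) * ((q : ℚ) ^ k1 * (q : ℚ) ^ e) = (c'' : ℚ) * s * (q : ℚ) ^ e := by
      rw [← hsQ]; ring
    rw [e1]
    have e2 : (s : ℚ) * (q : ℚ) ^ k2 * c = s * ((q : ℚ) ^ e * c'') := by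
      rw [← hc2Q]; ring
    rw [e2]; ring
  · refine ⟨k1 + e, -(s * (q : ℤ) ^ k2), ?_⟩
    have hc2Q : c * (q : ℚ) ^ k2 = -((q : ℚ) ^ e * c'') := by
      rw [hc2, h, hc'']; push_cast; ring
    push_cast
    rw [div_mul_eq_mul_div, div_eq_iff hc0, pow_add]
    have e1 : ((d : ℚ) - a) * ((q : ℚ) ^ k1 * (q : ℚ) ^ e) = (c'' : ℚ) * s * (q : ℚ) ^ e := by
      rw [← hsQ]; ring
    rw [e1]
    have e2 : -((s : ℚ) * (q : ℚ) ^ k2) * c = s * ((q : ℚ) ^ e * c'') := by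
      have : (s : ℚ) * (c * (q : ℚ) ^ k2) = s * -((q : ℚ) ^ e * c'') := by rw [hc2Q]
      linear_combination -this
    rw [e2]; ring

/-- an integer lying in `m ℤ[1/q]` is divisible by `m`, for `m` prime to `q`. -/
theorem numCDir_int_dvd_of_isCongZero (q m : ℕ) (hm : m.Coprime q) (z : ℤ)
    (h : IsCongZero q m (z : ℚ)) : (m : ℤ) ∣ z := by
  obtain ⟨r, ⟨k, r', hr'⟩, hz⟩ := h
  have h1 : z * (q : ℤ) ^ k = m * r' := by
    have : ((z * (q : ℤ) ^ k : ℤ) : ℚ) = ((m * r' : ℤ) : ℚ) := by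
      push_cast; rw [hz, ← hr']; ring
    exact_mod_cast this
  have hcop : IsCoprime (m : ℤ) ((q : ℤ) ^ k) := by
    have := Nat.isCoprime_iff_coprime.2 (Nat.Coprime.pow_right k hm)
    push_cast at this
    exact this
  exact hcop.dvd_of_dvd_mul_right ⟨r', h1⟩

/-- **Dirichlet in `A = ℤ[1/q]`, principal version.**  If moreover `a ≡ 1` and `c ≡ 0` modulo `mA`
(`m` prime to `q`), the prime `d ∈ a + cA` satisfies `d ≡ 1 mod m`. -/
theorem exists_prime_eq_add_mul_modEq (q : ℕ) (hq : q.Prime) (m : ℕ) (hm : m.Coprime q)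
    (a c : ℚ) (ha : IsAway q a) (hc : IsAway q c) (hc0 : c ≠ 0)
    (hcop : ∃ x y : ℚ, IsAway q x ∧ IsAway q y ∧ a * x + c * y = 1)
    (ha1 : IsCongZero q m (a - 1)) (hcm : IsCongZero q m c) (B : ℕ) :
    ∃ d : ℕ, d.Prime ∧ B < d ∧ (d : ℤ) ≡ 1 [ZMOD (m : ℤ)] ∧
      ∃ t : ℚ, IsAway q t ∧ a + t * c = (d : ℚ) := by
  obtain ⟨d, hdp, hdB, t, ht, hd⟩ := exists_prime_eq_add_mul q hq a c ha hc hc0 hcop B
  refine ⟨d, hdp, hdB, ?_, t, ht, hd⟩
  obtain ⟨r1, hr1, h1⟩ := ha1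
  obtain ⟨r2, hr2, h2⟩ := hcm
  have hz : IsCongZero q m (((d : ℤ) - 1 : ℤ) : ℚ) := by
    refine ⟨r1 + t * r2, hr1.add (ht.mul hr2), ?_⟩
    push_cast
    rw [← hd, h2]
    linear_combination h1
  have := numCDir_int_dvd_of_isCongZero q m hm _ hz
  exact (Int.modEq_iff_dvd.2 this).symm

/-- **Dirichlet for (C1).**  For distinct primes `d ≠ p`, `p` odd, every unit class `y` modulo `d`
contains a prime `l > B` with `l ≡ 2 mod p`. -/
theorem exists_prime_modEq_modEq_two (d p : ℕ) (hd : d.Prime) (hp : p.Prime) (hp2 : p ≠ 2)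
    (hdp : d ≠ p) (y : ℕ) (hy : y.Coprime d) (B : ℕ) :
    ∃ l : ℕ, l.Prime ∧ B < l ∧ l ≡ y [MOD d] ∧ l ≡ 2 [MOD p] := by
  have hco : d.Coprime p := (Nat.coprime_primes hd hp).2 hdp
  obtain ⟨k, hk1, hk2⟩ := Nat.chineseRemainder hco y 2
  have h2p : Nat.Coprime 2 p := (Nat.coprime_primes Nat.prime_two hp).2 (Ne.symm hp2)
  have hkd : k.Coprime d := by
    have := hk1.gcd_eq
    unfold Nat.Coprime
    rw [this]; exact hy
  have hkp : k.Coprime p := by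
    have := hk2.gcd_eq
    unfold Nat.Coprime
    rw [this]; exact h2p
  have hk : k.Coprime (d * p) := Nat.Coprime.mul_right hkd hkp
  obtain ⟨l, hlB, hlp, hl⟩ :=
    Nat.forall_exists_prime_gt_and_modEq B (Nat.mul_ne_zero hd.ne_zero hp.ne_zero) hk
  exact ⟨l, hlp, hlB, (hl.of_mul_right p).trans hk1, (hl.of_mul_left d).trans hk2⟩

end Fermat.Agent.S41.CSP11
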