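/-
S41 / C4 [CSP], STEP C (kill), matrix side, in the landed vocabulary of `CSP11/Basic.lean`
(helper86; second implementation next to helper49's `CSPKill49/Kill.lean`).

`Φ` a parabolic hom of level `m` on `Γ(m) ⊆ SL₂(ℤ[1/q])` with values in a group killed by `p`,
invariant under conjugation by `u(t)` (`t ∈ ℤ[1/q]`) and `w` (STEP A) and under conjugation by
`h(l)` on the elements with lower-left entry in `m l² ℤ[1/q]` for all large primes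
`l ≢ 0, 1 mod p` (STEP B).  Then `Φ = 0` on `Γ(m)`.
-/
import Fermat.Agent.S41.CSP11.StepA
import Fermat.Agent.S41.CSP11.NumCDir
import Fermat.Agent.S41.CSP11.NumC
import Fermat.Agent.S41.CSP11.KillC

set_option autoImplicit false
set_option linter.unusedSectionVars false
set_option linter.unusedSimpArgs false

namespace Fermat.Agent.S41.CSP11

open Matrix Fermat.Agent.S41.Amalgam95 Fermat.Agent.S41.Ihara95

/-! ### matrix bookkeeping -/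

lemma stepC_hQ_conj_00 {e : ℚ} (he : e ≠ 0) (g : SLQ) :
    (hQ e * g * (hQ e)⁻¹) 0 0 = g 0 0 := by
  simp only [mul_00, mul_01, mul_10, mul_11, inv_00, inv_01, inv_10, inv_11, hQ_00 he, hQ_01 he,
    hQ_10 he, hQ_11 he]
  field_simp
  ring

lemma stepC_hQ_conj_01 {e : ℚ} (he : e ≠ 0) (g : SLQ) :
    (hQ e * g * (hQ e)⁻¹) 0 1 = e ^ 2 * g 0 1 := by
  simp only [mul_00, mul_01, mul_10, mul_11, inv_00, inv_01, inv_10, inv_11, hQ_00 he, hQ_01 he,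
    hQ_10 he, hQ_11 he]
  ring

lemma stepC_hQ_conj_10 {e : ℚ} (he : e ≠ 0) (g : SLQ) :
    (hQ e * g * (hQ e)⁻¹) 1 0 = g 1 0 / e ^ 2 := by
  simp only [mul_00, mul_01, mul_10, mul_11, inv_00, inv_01, inv_10, inv_11, hQ_00 he, hQ_01 he,
    hQ_10 he, hQ_11 he]
  field_simp
  ring

lemma stepC_hQ_conj_11 {e : ℚ} (he : e ≠ 0) (g : SLQ) :
    (hQ e * g * (hQ e)⁻¹) 1 1 = g 1 1 := by
  simp only [mul_00, mul_01, mul_10, mul_11, inv_00, inv_01, inv_10, inv_11, hQ_00 he, hQ_01 he,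
    hQ_10 he, hQ_11 he]
  field_simp
  ring

lemma stepC_wQ_conj_inv_00 (g : SLQ) : ((wQ * g * wQ⁻¹)⁻¹) 0 0 = g 0 0 := by
  simp only [mul_00, mul_01, mul_10, mul_11, inv_00, inv_01, inv_10, inv_11, wQ_00, wQ_01, wQ_10,
    wQ_11]
  ring

lemma stepC_wQ_conj_inv_10 (g : SLQ) : ((wQ * g * wQ⁻¹)⁻¹) 1 0 = g 0 1 := by
  simp only [mul_00, mul_01, mul_10, mul_11, inv_00, inv_01, inv_10, inv_11, wQ_00, wQ_01, wQ_10,
    wQ_11]
  ring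

/-! ### the function `G` on first columns `(d, m n)` -/

section

variable {q m : ℕ} {V : Type} [AddCommGroup V] {Φ : SLQ → V}

/-- there is an element of `Γ(m)` with first column `(d, m n)` -/
def stepC_HasCol (q m : ℕ) (d : ℕ) (n : ℤ) : Prop :=
  ∃ g : SLQ, g ∈ Gam q m ∧ g 0 0 = (d : ℚ) ∧ g 1 0 = (m : ℚ) * (n : ℚ)

open Classical in
/-- the value of `Φ` on the elements of `Γ(m)` with first column `(d, m n)` (`0` if there is none) -/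
noncomputable def stepC_G (q m : ℕ) (Φ : SLQ → V) (d : ℕ) (n : ℤ) : V :=
  if h : stepC_HasCol q m d n then Φ (Classical.choose h) else 0

lemma stepC_G_eq (h : ParHom q m Φ) {d : ℕ} {n : ℤ} {g : SLQ} (hg : g ∈ Gam q m)
    (h0 : g 0 0 = (d : ℚ)) (h1 : g 1 0 = (m : ℚ) * (n : ℚ)) : stepC_G q m Φ d n = Φ g := by
  have hex : stepC_HasCol q m d n := ⟨g, hg, h0, h1⟩
  unfold stepC_G
  rw [dif_pos hex]
  obtain ⟨hg', h0', h1'⟩ := Classical.choose_spec hex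
  exact h.eq_of_col hg' hg (h0'.trans h0.symm) (h1'.trans h1.symm)

lemma stepC_G_of_not {d : ℕ} {n : ℤ} (hno : ¬ stepC_HasCol q m d n) :
    stepC_G q m Φ d n = 0 := by
  unfold stepC_G
  rw [dif_neg hno]

lemma stepC_hasCol_add {d : ℕ} {n : ℤ} (s : ℤ) (hex : stepC_HasCol q m d n) :
    stepC_HasCol q m d (n + d * s) := by
  obtain ⟨g, hg, h0, h1⟩ := hex
  have hcz : CZ q m ((m : ℚ) * (s : ℚ)) := isCongZero_natCast_mul (IsAway.of_int s)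
  refine ⟨lQ ((m : ℚ) * s) * g, (Gam q m).mul_mem (lQ_mem_Gam hcz) hg, ?_, ?_⟩
  · rw [lQ_mul_00, h0]
  · rw [lQ_mul_10, h0, h1]; push_cast; ring

/-- (h1) periodicity mod `d` -/
lemma stepC_G_add (h : ParHom q m Φ) (d : ℕ) (n s : ℤ) :
    stepC_G q m Φ d (n + d * s) = stepC_G q m Φ d n := by
  by_cases hex : stepC_HasCol q m d n
  · obtain ⟨g, hg, h0, h1⟩ := hex
    have hcz : CZ q m ((m : ℚ) * (s : ℚ)) := isCongZero_natCast_mul (IsAway.of_int s)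
    have hmem := (Gam q m).mul_mem (lQ_mem_Gam hcz) hg
    have e0 : (lQ ((m : ℚ) * s) * g) 0 0 = (d : ℚ) := by rw [lQ_mul_00, h0]
    have e1 : (lQ ((m : ℚ) * s) * g) 1 0 = (m : ℚ) * ((n + d * s : ℤ) : ℚ) := by
      rw [lQ_mul_10, h0, h1]; push_cast; ring
    rw [stepC_G_eq h hg h0 h1, stepC_G_eq h hmem e0 e1, h.map_mul _ _ (lQ_mem_Gam hcz) hg,
      h.map_lQ hcz, zero_add]
  · have hno : ¬ stepC_HasCol q m d (n + d * s) := by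
      intro hex'
      apply hex
      have := stepC_hasCol_add (-s) hex'
      have e : n + d * s + d * (-s) = n := by ring
      rwa [e] at this
    rw [stepC_G_of_not hex, stepC_G_of_not hno]

/-- (h2) invariance under `l²`, from STEP B -/
lemma stepC_G_sq (h : ParHom q m Φ) {d l : ℕ} (hl0 : l ≠ 0) {n : ℤ}
    (hex : stepC_HasCol q m d ((l : ℤ) ^ 2 * n))
    (hB : ∀ g : SLQ, g ∈ Gam q m → CZ q (m * l ^ 2) (g 1 0) →
      Φ (hQ (l : ℚ) * g * (hQ (l : ℚ))⁻¹) = Φ g) :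
    stepC_G q m Φ d ((l : ℤ) ^ 2 * n) = stepC_G q m Φ d n := by
  obtain ⟨g, hg, h0, h1⟩ := hex
  have hl : (l : ℚ) ≠ 0 := by exact_mod_cast hl0
  have hcz : CZ q (m * l ^ 2) (g 1 0) :=
    ⟨(n : ℚ), IsAway.of_int n, by rw [h1]; push_cast; ring⟩
  have e0 : (hQ (l : ℚ) * g * (hQ (l : ℚ))⁻¹) 0 0 = (d : ℚ) := by
    rw [stepC_hQ_conj_00 hl, h0]
  have e1 : (hQ (l : ℚ) * g * (hQ (l : ℚ))⁻¹) 1 0 = (m : ℚ) * (n : ℚ) := by
    rw [stepC_hQ_conj_10 hl, h1]; push_cast; field_simp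
  have hconj : hQ (l : ℚ) * g * (hQ (l : ℚ))⁻¹ ∈ Gam q m := by
    have hgP := (mem_Gam_iff q m g).1 hg
    rw [mem_Gam_iff]
    refine ⟨?_, ?_, ?_, ?_⟩
    · rw [stepC_hQ_conj_00 hl]; exact hgP.c00
    · rw [stepC_hQ_conj_01 hl]
      exact CZ.away_mul (isAway_pow (isAway_natCast q l) 2) hgP.c01
    · rw [e1]; exact isCongZero_natCast_mul (IsAway.of_int n)
    · rw [stepC_hQ_conj_11 hl]; exact hgP.c11
  rw [stepC_G_eq h hg h0 h1, ← hB g hg hcz]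
  exact (stepC_G_eq h hconj e0 e1).symm

/-- (h3) inversion, from `w`-invariance -/
lemma stepC_G_inv (h : ParHom q m Φ) (hw : ConjInv q m Φ wQ) {d : ℕ}
    (hd1 : (d : ℤ) ≡ 1 [ZMOD (m : ℤ)]) {n n' : ℤ}
    (hdvd : (d : ℤ) ∣ (m : ℤ) ^ 2 * n * n' - 1) :
    stepC_G q m Φ d (-n') = - stepC_G q m Φ d n := by
  obtain ⟨k, hk⟩ := hdvd
  obtain ⟨j, hj⟩ := Int.modEq_iff_dvd.mp hd1.symm
  have hkQ : (m : ℚ) ^ 2 * n * n' - 1 = (d : ℚ) * k := by exact_mod_cast hk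
  have hjQ : (d : ℚ) - 1 = (m : ℚ) * j := by exact_mod_cast hj
  have hdet : (d : ℚ) * (-(k : ℚ)) - (-((m : ℚ) * n')) * ((m : ℚ) * n) = 1 := by
    linear_combination hkQ
  obtain ⟨g, hgdef⟩ : ∃ g : SLQ,
      g = mkQ (d : ℚ) (-((m : ℚ) * n')) ((m : ℚ) * n) (-(k : ℚ)) hdet := ⟨_, rfl⟩
  have g00 : g 0 0 = (d : ℚ) := by rw [hgdef]; rfl
  have g01 : g 0 1 = -((m : ℚ) * n') := by rw [hgdef]; rfl
  have g10 : g 1 0 = (m : ℚ) * n := by rw [hgdef]; rfl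
  have g11 : g 1 1 = -(k : ℚ) := by rw [hgdef]; rfl
  have hg : g ∈ Gam q m := by
    rw [mem_Gam_iff]
    refine ⟨?_, ?_, ?_, ?_⟩
    · rw [g00]; exact ⟨(j : ℚ), IsAway.of_int j, hjQ⟩
    · rw [g01]; exact ⟨-(n' : ℚ), (IsAway.of_int n').neg, by ring⟩
    · rw [g10]; exact ⟨(n : ℚ), IsAway.of_int n, rfl⟩
    · rw [g11]
      refine ⟨-((m : ℚ) * n * n' - j * k), ?_, ?_⟩
      · exact ((((isAway_natCast q m).mul (IsAway.of_int n)).mul (IsAway.of_int n')).sub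
          ((IsAway.of_int j).mul (IsAway.of_int k))).neg
      · linear_combination hkQ + (k : ℚ) * hjQ
  have hconj : wQ * g * wQ⁻¹ ∈ Gam q m := Gam_conj_mem (wQ_mem_GA q) hg
  have hinv : (wQ * g * wQ⁻¹)⁻¹ ∈ Gam q m := (Gam q m).inv_mem hconj
  have e0 : ((wQ * g * wQ⁻¹)⁻¹) 0 0 = (d : ℚ) := by rw [stepC_wQ_conj_inv_00, g00]
  have e1 : ((wQ * g * wQ⁻¹)⁻¹) 1 0 = (m : ℚ) * ((-n' : ℤ) : ℚ) := by
    rw [stepC_wQ_conj_inv_10, g01]; push_cast; ring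
  rw [stepC_G_eq h hg g00 g10, stepC_G_eq h hinv e0 e1, h.map_inv hconj, hw g hg]

/-- (h4) the base values -/
lemma stepC_G_one (h : ParHom q m Φ) {d : ℕ} (hd1 : (d : ℤ) ≡ 1 [ZMOD (m : ℤ)]) :
    stepC_G q m Φ d 1 = 0 := by
  obtain ⟨j, hj⟩ := Int.modEq_iff_dvd.mp hd1.symm
  have hjQ : (d : ℚ) - 1 = (m : ℚ) * j := by exact_mod_cast hj
  have hcz : CZ q m (m : ℚ) := ⟨1, IsAway.one, by ring⟩
  have hmem : uQ (j : ℚ) * lQ (m : ℚ) * (uQ (j : ℚ))⁻¹ ∈ Gam q m :=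
    Gam_conj_mem (uQ_mem_GA (IsAway.of_int j)) (lQ_mem_Gam hcz)
  have hun : IsUnip (uQ (j : ℚ) * lQ (m : ℚ) * (uQ (j : ℚ))⁻¹) := isUnip_conj _ _ (isUnip_lQ _)
  have e0 : (uQ (j : ℚ) * lQ (m : ℚ) * (uQ (j : ℚ))⁻¹) 0 0 = (d : ℚ) := by
    rw [uQ_conj_00, lQ_00, lQ_10]; linear_combination -hjQ
  have e1 : (uQ (j : ℚ) * lQ (m : ℚ) * (uQ (j : ℚ))⁻¹) 1 0 = (m : ℚ) * ((1 : ℤ) : ℚ) := by
    rw [uQ_conj_10, lQ_10]; push_cast; ring
  rw [stepC_G_eq h hmem e0 e1, h.map_unip _ hmem hun]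

lemma stepC_G_neg_one (h : ParHom q m Φ) {d : ℕ} (hd1 : (d : ℤ) ≡ 1 [ZMOD (m : ℤ)]) :
    stepC_G q m Φ d (-1) = 0 := by
  obtain ⟨j, hj⟩ := Int.modEq_iff_dvd.mp hd1.symm
  have hjQ : (d : ℚ) - 1 = (m : ℚ) * j := by exact_mod_cast hj
  have hcz : CZ q m (-(m : ℚ)) := ⟨-1, IsAway.one.neg, by ring⟩
  have hmem : uQ (-(j : ℚ)) * lQ (-(m : ℚ)) * (uQ (-(j : ℚ)))⁻¹ ∈ Gam q m :=
    Gam_conj_mem (uQ_mem_GA (IsAway.of_int j).neg) (lQ_mem_Gam hcz)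
  have hun : IsUnip (uQ (-(j : ℚ)) * lQ (-(m : ℚ)) * (uQ (-(j : ℚ)))⁻¹) :=
    isUnip_conj _ _ (isUnip_lQ _)
  have e0 : (uQ (-(j : ℚ)) * lQ (-(m : ℚ)) * (uQ (-(j : ℚ)))⁻¹) 0 0 = (d : ℚ) := by
    rw [uQ_conj_00, lQ_00, lQ_10]; linear_combination -hjQ
  have e1 : (uQ (-(j : ℚ)) * lQ (-(m : ℚ)) * (uQ (-(j : ℚ)))⁻¹) 1 0 =
      (m : ℚ) * ((-1 : ℤ) : ℚ) := by
    rw [uQ_conj_10, lQ_10]; push_cast; ring
  rw [stepC_G_eq h hmem e0 e1, h.map_unip _ hmem hun]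

/-- existence of the column `(d, m n)` -/
lemma stepC_hasCol_of_coprime {d : ℕ} {n : ℤ} (hd1 : (d : ℤ) ≡ 1 [ZMOD (m : ℤ)])
    (hcop : IsCoprime (d : ℤ) ((m : ℤ) * n)) : stepC_HasCol q m d n := by
  obtain ⟨g, hP, h0, h1, -, -⟩ := numC_exists_principalQ_col q m (d : ℤ) n hd1 hcop
  exact ⟨g, (mem_Gam_iff q m g).2 ((Prin_iff_isPrincipal q m g).2 hP), by simpa using h0, h1⟩

end

/-! ### the kill -/

/-- a unimodular relation over `ℤ[1/q]` gives coprimality over `ℤ` with a prime `d ≠ q` -/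
lemma stepC_isCoprime_of_away {q d : ℕ} (hq : q.Prime) (hd : d.Prime) (hdq : d ≠ q) {n : ℤ}
    {x y : ℚ} (hx : IsAway q x) (hy : IsAway q y) (hxy : (d : ℚ) * x + (n : ℚ) * y = 1) :
    IsCoprime n (d : ℤ) := by
  obtain ⟨i, X, hX⟩ := hx
  obtain ⟨j, Y, hY⟩ := hy
  have hdprime : Prime (d : ℤ) := Nat.prime_iff_prime_int.mp hd
  rw [isCoprime_comm, hdprime.irreducible.coprime_iff_not_dvd]
  intro hdn
  have key : (d : ℤ) * (X * (q : ℤ) ^ j) + n * (Y * (q : ℤ) ^ i) = (q : ℤ) ^ (i + j) := by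
    have : (((d : ℤ) * (X * (q : ℤ) ^ j) + n * (Y * (q : ℤ) ^ i) : ℤ) : ℚ) =
        (((q : ℤ) ^ (i + j) : ℤ) : ℚ) := by
      push_cast
      rw [← hX, ← hY, pow_add]
      linear_combination (q : ℚ) ^ i * (q : ℚ) ^ j * hxy
    exact_mod_cast this
  have h1 : (d : ℤ) ∣ (q : ℤ) ^ (i + j) := by
    rw [← key]
    exact dvd_add (dvd_mul_right _ _) (Dvd.dvd.mul_right hdn _)
  have h2 : (d : ℤ) ∣ (q : ℤ) := hdprime.dvd_of_dvd_pow h1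
  have h3 : d ∣ q := by exact_mod_cast h2
  exact hdq ((Nat.prime_dvd_prime_iff_eq hd hq).mp h3)

section

variable {p q m : ℕ} {V : Type} [AddCommGroup V] {Φ : SLQ → V}

/-- STEP C for the elements with non-zero lower-left entry -/
theorem stepC_kill_aux (hp : p.Prime) (hp2 : p ≠ 2) (hq : q.Prime) (hmq : m.Coprime q)
    (hV : ∀ v : V, p • v = 0) (h : ParHom q m Φ)
    (hAu : ∀ t : ℚ, IsAway q t → ConjInv q m Φ (uQ t)) (hAw : ConjInv q m Φ wQ) (B₀ : ℕ)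
    (hB : ∀ l : ℕ, l.Prime → ¬ p ∣ l → ¬ p ∣ l - 1 → B₀ < l → ∀ g : SLQ, g ∈ Gam q m →
      CZ q (m * l ^ 2) (g 1 0) → Φ (hQ (l : ℚ) * g * (hQ (l : ℚ))⁻¹) = Φ g)
    (g : SLQ) (hg : g ∈ Gam q m) (hc0 : g 1 0 ≠ 0) : Φ g = 0 := by
  have hgP := (mem_Gam_iff q m g).1 hg
  obtain ⟨a00, a01, a10, a11⟩ := hgP.isAwayM
  have hdet := det_eq g
  obtain ⟨d, hdp, hdB, hd1, t, ht, hd⟩ := exists_prime_eq_add_mul_modEq q hq m hmq (g 0 0) (g 1 0)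
    a00 a10 hc0 ⟨g 1 1, -g 0 1, a11, a01.neg, by linear_combination hdet⟩ hgP.c00 hgP.c10 (max p q)
  have hdp' : d ≠ p := (lt_of_le_of_lt (le_max_left p q) hdB).ne'
  have hdq : d ≠ q := (lt_of_le_of_lt (le_max_right p q) hdB).ne'
  -- conjugate by `u(t)`: first column `(d, c)`
  obtain ⟨g₁, hg₁def⟩ : ∃ g₁ : SLQ, g₁ = uQ t * g * (uQ t)⁻¹ := ⟨_, rfl⟩
  have hg₁ : g₁ ∈ Gam q m := hg₁def ▸ Gam_conj_mem (uQ_mem_GA ht) hg
  have hΦ₁ : Φ g₁ = Φ g := by rw [hg₁def]; exact hAu t ht g hg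
  have g₁00 : g₁ 0 0 = (d : ℚ) := by rw [hg₁def, uQ_conj_00]; exact hd
  have g₁10 : g₁ 1 0 = g 1 0 := by rw [hg₁def, uQ_conj_10]
  -- integer representative of the lower-left entry
  obtain ⟨c₁, hc₁, hc⟩ := hgP.c10
  have hdq' : d.Coprime q := (Nat.coprime_primes hdp hq).2 hdq
  obtain ⟨n, s, hs, hns⟩ := exists_int_rep q d hq.ne_zero hdq' c₁ hc₁
  have hcz : CZ q m (-((m : ℚ) * s)) := (isCongZero_natCast_mul hs).neg
  obtain ⟨g₂, hg₂def⟩ : ∃ g₂ : SLQ, g₂ = lQ (-((m : ℚ) * s)) * g₁ := ⟨_, rfl⟩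
  have hg₂ : g₂ ∈ Gam q m := hg₂def ▸ (Gam q m).mul_mem (lQ_mem_Gam hcz) hg₁
  have hΦ₂ : Φ g₂ = Φ g₁ := by
    rw [hg₂def, h.map_mul _ _ (lQ_mem_Gam hcz) hg₁, h.map_lQ hcz, zero_add]
  have g₂00 : g₂ 0 0 = (d : ℚ) := by rw [hg₂def, lQ_mul_00, g₁00]
  have g₂10 : g₂ 1 0 = (m : ℚ) * (n : ℚ) := by
    rw [hg₂def, lQ_mul_10, g₁00, g₁10, hc, hns]; ring
  have hg₂P := (mem_Gam_iff q m g₂).1 hg₂
  obtain ⟨-, b01, -, b11⟩ := hg₂P.isAwayM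
  have hncop : IsCoprime n (d : ℤ) :=
    stepC_isCoprime_of_away hq hdp hdq (x := g₂ 1 1) (y := -(g₂ 0 1 * (m : ℚ))) b11
      (b01.mul (isAway_natCast q m)).neg (by
        have := det_eq g₂
        rw [g₂00, g₂10] at this
        linear_combination this)
  -- the arithmetic kill
  have : Fact d.Prime := ⟨hdp⟩
  have : Fact p.Prime := ⟨hp⟩
  have hmd : IsCoprime (m : ℤ) (d : ℤ) := by
    obtain ⟨j, hj⟩ := Int.modEq_iff_dvd.mp hd1.symm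
    exact ⟨-j, 1, by linarith⟩
  have key := kill_of_squares hp2 hdp' (m : ℤ) hmd (max B₀ d) hV (stepC_G q m Φ d)
    (fun n s => stepC_G_add h d n s)
    (fun l hl hpl hpl1 hbad n hn => by
      have hlB : B₀ < l := lt_of_le_of_lt (le_max_left _ _) hbad
      have hld : l ≠ d := (lt_of_le_of_lt (le_max_right _ _) hbad).ne'
      have hdl : IsCoprime (d : ℤ) (l : ℤ) := by
        rw [Int.isCoprime_iff_gcd_eq_one, Int.gcd_natCast_natCast]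
        exact (Nat.coprime_primes hdp hl).2 hld.symm
      have hex : stepC_HasCol q m d ((l : ℤ) ^ 2 * n) :=
        stepC_hasCol_of_coprime hd1 (hmd.symm.mul_right (hdl.pow_right.mul_right hn.symm))
      exact stepC_G_sq h hl.ne_zero hex (hB l hl hpl hpl1 hlB))
    (fun n n' hdvd => stepC_G_inv h hAw hd1 hdvd)
    (stepC_G_one h hd1) (stepC_G_neg_one h hd1) n hncop
  rw [← hΦ₁, ← hΦ₂, ← stepC_G_eq h hg₂ g₂00 g₂10]
  exact key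

/-- **STEP C**: a parabolic hom of level `m` with values in a group killed by `p` which is
invariant under `u(t)`, `w` (STEP A) and `h(l)` (STEP B) vanishes on `Γ(m)`. -/
theorem stepC_kill (hp : p.Prime) (hp2 : p ≠ 2) (hq : q.Prime) (hm : 0 < m) (hmq : m.Coprime q)
    (hV : ∀ v : V, p • v = 0) (h : ParHom q m Φ)
    (hAu : ∀ t : ℚ, IsAway q t → ConjInv q m Φ (uQ t)) (hAw : ConjInv q m Φ wQ) (B₀ : ℕ)
    (hB : ∀ l : ℕ, l.Prime → ¬ p ∣ l → ¬ p ∣ l - 1 → B₀ < l → ∀ g : SLQ, g ∈ Gam q m →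
      CZ q (m * l ^ 2) (g 1 0) → Φ (hQ (l : ℚ) * g * (hQ (l : ℚ))⁻¹) = Φ g) :
    ∀ g : SLQ, g ∈ Gam q m → Φ g = 0 := by
  intro g hg
  by_cases hc0 : g 1 0 = 0
  · have hcz : CZ q m (m : ℚ) := ⟨1, IsAway.one, by ring⟩
    have hmem := (Gam q m).mul_mem (lQ_mem_Gam hcz) hg
    have hne : (lQ (m : ℚ) * g) 1 0 ≠ 0 := by
      rw [lQ_mul_10, hc0, zero_add]
      have hdet := det_eq g
      rw [hc0, mul_zero, sub_zero] at hdet
      have h00 : g 0 0 ≠ 0 := left_ne_zero_of_mul_eq_one hdet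
      have hm' : (m : ℚ) ≠ 0 := by exact_mod_cast hm.ne'
      exact mul_ne_zero hm' h00
    have := stepC_kill_aux hp hp2 hq hmq hV h hAu hAw B₀ hB (lQ (m : ℚ) * g) hmem hne
    rwa [h.map_mul _ _ (lQ_mem_Gam hcz) hg, h.map_lQ hcz, zero_add] at this
  · exact stepC_kill_aux hp hp2 hq hmq hV h hAu hAw B₀ hB g hg hc0

end

end Fermat.Agent.S41.CSP11
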