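/-
S41 / C4 [CSP], STEP C of helper11's proof, the `G`-layer (helper32): for a parabolic hom `Φ` of
level `m` with values in an `𝔽_p`-space which is invariant under `w`-conjugation (STEP A) and
under conjugation by the rational tori `h(l)` (STEP B, as a hypothesis), and for a prime
`d ≡ 1 mod m`, `d ≠ p`: `Φ g = 0` for every `g ∈ Γ(m)` with first column `(d, m n)`, `n` an integer
prime to `d`.

`G n := Φ (g_n)`, `g_n` a chosen integral matrix of `Γ(m)` with first column `(d, m n)`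
(`NumC.numC_exists_principalQ_col`); the hypotheses of `KillC.kill_of_squares` are checked:
(h1) left multiplication by `l(m s)`, (h2) STEP B, (h3) `w`-conjugation and inversion,
(h4) the unipotents `u(±j) l(±m) u(∓j)`, `d = 1 + j m`.
-/
import Fermat.Agent.S41.CSP11.StepA
import Fermat.Agent.S41.CSP11.KillC
import Fermat.Agent.S41.CSP11.NumC

set_option autoImplicit false
set_option linter.unusedSectionVars false
set_option linter.unusedSimpArgs false

namespace Fermat.Agent.S41.CSP11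

open Matrix Fermat.Agent.S41.Amalgam95 Fermat.Agent.S41.Ihara95

/-! ### conjugation by the torus, entrywise -/

lemma killCol32_hQ_conj_00 {e : ℚ} (he : e ≠ 0) (g : SLQ) :
    (hQ e * g * (hQ e)⁻¹) 0 0 = g 0 0 := by
  simp only [mul_00, mul_01, mul_10, mul_11, inv_00, inv_01, inv_10, inv_11, hQ_00 he, hQ_01 he,
    hQ_10 he, hQ_11 he]
  field_simp
  ring

lemma killCol32_hQ_conj_01 {e : ℚ} (he : e ≠ 0) (g : SLQ) :
    (hQ e * g * (hQ e)⁻¹) 0 1 = e ^ 2 * g 0 1 := by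
  simp only [mul_00, mul_01, mul_10, mul_11, inv_00, inv_01, inv_10, inv_11, hQ_00 he, hQ_01 he,
    hQ_10 he, hQ_11 he]
  ring

lemma killCol32_hQ_conj_10 {e : ℚ} (he : e ≠ 0) (g : SLQ) :
    (hQ e * g * (hQ e)⁻¹) 1 0 = g 1 0 / e ^ 2 := by
  simp only [mul_00, mul_01, mul_10, mul_11, inv_00, inv_01, inv_10, inv_11, hQ_00 he, hQ_01 he,
    hQ_10 he, hQ_11 he]
  field_simp
  ring

lemma killCol32_hQ_conj_11 {e : ℚ} (he : e ≠ 0) (g : SLQ) :
    (hQ e * g * (hQ e)⁻¹) 1 1 = g 1 1 := by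
  simp only [mul_00, mul_01, mul_10, mul_11, inv_00, inv_01, inv_10, inv_11, hQ_00 he, hQ_01 he,
    hQ_10 he, hQ_11 he]
  field_simp
  ring

/-- `h(l) g h(l)⁻¹ ∈ Γ(m)` when `g ∈ Γ(m)` has lower left entry `m l² n'`, `n' ∈ ℤ[1/q]`. -/
lemma killCol32_hQ_conj_mem {q m : ℕ} (l : ℕ) (hl : l ≠ 0) {g : SLQ} (hg : g ∈ Gam q m)
    {n' : ℚ} (hn' : IsAway q n') (h10 : g 1 0 = (m : ℚ) * ((l : ℚ) ^ 2 * n')) :
    hQ (l : ℚ) * g * (hQ (l : ℚ))⁻¹ ∈ Gam q m := by
  have hl' : (l : ℚ) ≠ 0 := by exact_mod_cast hl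
  have hgP := (mem_Gam_iff q m g).1 hg
  rw [mem_Gam_iff]
  refine ⟨?_, ?_, ?_, ?_⟩
  · rw [killCol32_hQ_conj_00 hl']; exact hgP.c00
  · rw [killCol32_hQ_conj_01 hl']
    exact hgP.c01.away_mul (isAway_pow (isAway_natCast q l) 2)
  · rw [killCol32_hQ_conj_10 hl', h10]
    refine ⟨n', hn', ?_⟩
    field_simp
  · rw [killCol32_hQ_conj_11 hl']; exact hgP.c11

/-! ### the chosen representatives -/

lemma killCol32_coprime_d_m {m : ℕ} {d : ℤ} (hdm : d ≡ 1 [ZMOD (m : ℤ)]) :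
    IsCoprime d (m : ℤ) := by
  obtain ⟨k, hk⟩ : (m : ℤ) ∣ d - 1 := Int.modEq_iff_dvd.1 hdm.symm
  exact ⟨1, -k, by linear_combination hk⟩

lemma killCol32_coprime_mul {m : ℕ} {d n : ℤ} (hdm : d ≡ 1 [ZMOD (m : ℤ)])
    (hn : IsCoprime n d) : IsCoprime d ((m : ℤ) * n) :=
  IsCoprime.mul_right (killCol32_coprime_d_m hdm) hn.symm

/-- a chosen element of `Γ(m)` with first column `(d, m n)` -/
noncomputable def killCol32_rep (q m : ℕ) (d n : ℤ) (hdm : d ≡ 1 [ZMOD (m : ℤ)])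
    (hn : IsCoprime n d) : SLQ :=
  (numC_exists_principalQ_col q m d n hdm (killCol32_coprime_mul hdm hn)).choose

lemma killCol32_rep_mem (q m : ℕ) (d n : ℤ) (hdm : d ≡ 1 [ZMOD (m : ℤ)]) (hn : IsCoprime n d) :
    killCol32_rep q m d n hdm hn ∈ Gam q m :=
  (numC_exists_principalQ_col q m d n hdm (killCol32_coprime_mul hdm hn)).choose_spec.1

lemma killCol32_rep_00 (q m : ℕ) (d n : ℤ) (hdm : d ≡ 1 [ZMOD (m : ℤ)]) (hn : IsCoprime n d) :
    killCol32_rep q m d n hdm hn 0 0 = (d : ℚ) :=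
  (numC_exists_principalQ_col q m d n hdm (killCol32_coprime_mul hdm hn)).choose_spec.2.1

lemma killCol32_rep_10 (q m : ℕ) (d n : ℤ) (hdm : d ≡ 1 [ZMOD (m : ℤ)]) (hn : IsCoprime n d) :
    killCol32_rep q m d n hdm hn 1 0 = (m : ℚ) * (n : ℚ) :=
  (numC_exists_principalQ_col q m d n hdm (killCol32_coprime_mul hdm hn)).choose_spec.2.2.1

open Classical in
/-- the function `G` of STEP C -/
noncomputable def killCol32_G (q m : ℕ) (d : ℤ) (hdm : d ≡ 1 [ZMOD (m : ℤ)]) {V : Type}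
    [AddCommGroup V] (Φ : SLQ → V) (n : ℤ) : V :=
  if hn : IsCoprime n d then Φ (killCol32_rep q m d n hdm hn) else 0

section

variable {q m : ℕ} {d : ℤ} (hdm : d ≡ 1 [ZMOD (m : ℤ)]) {V : Type} [AddCommGroup V] {Φ : SLQ → V}

/-- `Φ g = G n` for every `g ∈ Γ(m)` with first column `(d, m n)` -/
lemma killCol32_G_eq (h : ParHom q m Φ) {g : SLQ} (hg : g ∈ Gam q m) {n : ℤ}
    (hn : IsCoprime n d) (h00 : g 0 0 = (d : ℚ)) (h10 : g 1 0 = (m : ℚ) * (n : ℚ)) :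
    Φ g = killCol32_G q m d hdm Φ n := by
  unfold killCol32_G
  rw [dif_pos hn]
  exact h.eq_of_col hg (killCol32_rep_mem q m d n hdm hn)
    (h00.trans (killCol32_rep_00 q m d n hdm hn).symm)
    (h10.trans (killCol32_rep_10 q m d n hdm hn).symm)

lemma killCol32_G_of_not (n : ℤ) (hn : ¬ IsCoprime n d) : killCol32_G q m d hdm Φ n = 0 := by
  unfold killCol32_G
  rw [dif_neg hn]

/-- (h1) -/
lemma killCol32_h1 (h : ParHom q m Φ) (n s : ℤ) :
    killCol32_G q m d hdm Φ (n + d * s) = killCol32_G q m d hdm Φ n := by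
  by_cases hn : IsCoprime n d
  · have hn' : IsCoprime (n + d * s) d := by
      have := (IsCoprime.add_mul_left_left_iff (x := n) (y := d) (z := s)).2 hn
      exact this
    have hMs : CZ q m ((m : ℚ) * (s : ℚ)) := isCongZero_natCast_mul (IsAway.of_int s)
    have hmem := killCol32_rep_mem q m d n hdm hn
    have hmem' : lQ ((m : ℚ) * (s : ℚ)) * killCol32_rep q m d n hdm hn ∈ Gam q m :=
      (Gam q m).mul_mem (lQ_mem_Gam hMs) hmem
    have e := killCol32_G_eq hdm h hmem' hn'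
      (by rw [lQ_mul_00, killCol32_rep_00])
      (by rw [lQ_mul_10, killCol32_rep_00, killCol32_rep_10]; push_cast; ring)
    rw [← e, h.map_mul _ _ (lQ_mem_Gam hMs) hmem, h.map_lQ hMs, zero_add]
    exact killCol32_G_eq hdm h hmem hn (killCol32_rep_00 q m d n hdm hn)
      (killCol32_rep_10 q m d n hdm hn)
  · have hn' : ¬ IsCoprime (n + d * s) d := by
      intro h'
      exact hn ((IsCoprime.add_mul_left_left_iff (x := n) (y := d) (z := s)).1 h')
    rw [killCol32_G_of_not hdm n hn, killCol32_G_of_not hdm _ hn']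

/-- (h2), from STEP B for the prime `l` -/
lemma killCol32_h2 (h : ParHom q m Φ) (l : ℕ) (hl : l ≠ 0) (hld : IsCoprime (l : ℤ) d)
    (hB : ∀ g : SLQ, g ∈ Gam q m → CZ q (m * l ^ 2) (g 1 0) →
      Φ (hQ (l : ℚ) * g * (hQ (l : ℚ))⁻¹) = Φ g)
    (n : ℤ) (hn : IsCoprime n d) :
    killCol32_G q m d hdm Φ ((l : ℤ) ^ 2 * n) = killCol32_G q m d hdm Φ n := by
  have hl' : (l : ℚ) ≠ 0 := by exact_mod_cast hl
  have hn2 : IsCoprime ((l : ℤ) ^ 2 * n) d := IsCoprime.mul_left (hld.pow_left) hn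
  have hmem := killCol32_rep_mem q m d _ hdm hn2
  have h00 := killCol32_rep_00 q m d _ hdm hn2
  have h10 := killCol32_rep_10 q m d _ hdm hn2
  have h10' : killCol32_rep q m d _ hdm hn2 1 0 = (m : ℚ) * ((l : ℚ) ^ 2 * (n : ℚ)) := by
    rw [h10]; push_cast; ring
  have hcz : CZ q (m * l ^ 2) (killCol32_rep q m d _ hdm hn2 1 0) := by
    refine ⟨(n : ℚ), IsAway.of_int n, ?_⟩
    rw [h10']; push_cast; ring
  have e1 := hB _ hmem hcz
  have hmem2 := killCol32_hQ_conj_mem l hl hmem (IsAway.of_int n) h10'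
  have e2 := killCol32_G_eq hdm h hmem2 hn
    (by rw [killCol32_hQ_conj_00 hl', h00])
    (by rw [killCol32_hQ_conj_10 hl', h10']; field_simp)
  have e3 := killCol32_G_eq hdm h hmem hn2 h00 h10
  rw [← e3, ← e2, e1]

/-- (h3), from `w`-conjugation and inversion -/
lemma killCol32_h3 (h : ParHom q m Φ) (hAw : ConjInv q m Φ wQ) (n n' : ℤ)
    (hdvd : d ∣ (m : ℤ) ^ 2 * n * n' - 1) :
    killCol32_G q m d hdm Φ (-n') = - killCol32_G q m d hdm Φ n := by
  obtain ⟨k, hk⟩ := hdvd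
  have hn : IsCoprime n d := ⟨(m : ℤ) ^ 2 * n', -k, by linear_combination hk⟩
  have hn' : IsCoprime (-n') d := ⟨-((m : ℤ) ^ 2 * n), -k, by linear_combination hk⟩
  obtain ⟨g, hg, g01, g10, g11, -⟩ := numC_exists_principalQ_lr q m d (-n) n' hdm
    ⟨-k, by linear_combination (-1 : ℤ) * hk⟩
  have hgG : g ∈ Gam q m := hg
  -- `w g w⁻¹` has first column `(d, m n)`
  have hw := Gam_conj_mem (wQ_mem_GA q) hgG
  have e1 := killCol32_G_eq hdm h hw hn
    (by
      simp only [mul_00, mul_01, mul_10, mul_11, inv_00, inv_01, inv_10, inv_11, wQ_00, wQ_01,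
        wQ_10, wQ_11, g11]
      ring)
    (by
      simp only [mul_00, mul_01, mul_10, mul_11, inv_00, inv_01, inv_10, inv_11, wQ_00, wQ_01,
        wQ_10, wQ_11, g01]
      push_cast; ring)
  -- `g⁻¹` has first column `(d, -m n')`
  have e2 := killCol32_G_eq hdm h ((Gam q m).inv_mem hgG) hn'
    (by rw [inv_00, g11])
    (by rw [inv_10, g10]; push_cast; ring)
  rw [← e2, ← e1, hAw g hgG, h.map_inv hgG]

/-- (h4): the base values -/
lemma killCol32_h4 (h : ParHom q m Φ) (ε : ℤ) (hε : ε = 1 ∨ ε = -1) :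
    killCol32_G q m d hdm Φ ε = 0 := by
  obtain ⟨j, hj⟩ : (m : ℤ) ∣ d - 1 := Int.modEq_iff_dvd.1 hdm.symm
  have hεc : IsCoprime ε d := by
    rcases hε with rfl | rfl
    · exact isCoprime_one_left
    · exact isCoprime_one_left.neg_left
  have hε2 : ε * ε = 1 := by rcases hε with rfl | rfl <;> norm_num
  -- `X = u(ε j) l(ε m) u(ε j)⁻¹`
  have hlm : CZ q m ((m : ℚ) * (ε : ℚ)) := isCongZero_natCast_mul (IsAway.of_int ε)
  have huG : uQ ((ε : ℚ) * (j : ℚ)) ∈ GA q := uQ_mem_GA ((IsAway.of_int ε).mul (IsAway.of_int j))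
  have hX : uQ ((ε : ℚ) * (j : ℚ)) * lQ ((m : ℚ) * (ε : ℚ)) * (uQ ((ε : ℚ) * (j : ℚ)))⁻¹ ∈ Gam q m :=
    Gam_conj_mem huG (lQ_mem_Gam hlm)
  have hU : IsUnip (uQ ((ε : ℚ) * (j : ℚ)) * lQ ((m : ℚ) * (ε : ℚ)) *
      (uQ ((ε : ℚ) * (j : ℚ)))⁻¹) := isUnip_conj _ _ (isUnip_lQ _)
  have hdQ : (d : ℚ) = 1 + (m : ℚ) * (j : ℚ) := by
    have : ((d - 1 : ℤ) : ℚ) = (((m : ℤ) * j : ℤ) : ℚ) := by rw [hj]
    push_cast at this
    linear_combination this
  have hε2Q : (ε : ℚ) * (ε : ℚ) = 1 := by exact_mod_cast hε2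
  have e := killCol32_G_eq hdm h hX hεc
    (by
      rw [uQ_conj_00, lQ_00, lQ_10, hdQ]
      linear_combination ((m : ℚ) * (j : ℚ)) * hε2Q)
    (by rw [uQ_conj_10, lQ_10])
  rw [← e, h.map_unip _ hX hU]

end

/-- **STEP C, the `G`-layer**: a parabolic hom of level `m` into an `𝔽_p`-space which is invariant
under `w`-conjugation and under conjugation by the tori `h(l)` (`l` a large prime, `l ≢ 0, 1 mod p`)
vanishes on every element of `Γ(m)` whose first column is `(d, m n)`, `d ≡ 1 mod m` a prime `≠ p`,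
`n` an integer prime to `d`. -/
theorem kill_col32 {q m p d : ℕ} {V : Type} [AddCommGroup V] {Φ : SLQ → V}
    (hp : p.Prime) (hp2 : p ≠ 2) (hd : d.Prime) (hdp : d ≠ p)
    (hdm : (d : ℤ) ≡ 1 [ZMOD (m : ℤ)]) (hV : ∀ v : V, p • v = 0) (h : ParHom q m Φ)
    (hAw : ConjInv q m Φ wQ) (bad : ℕ)
    (hB : ∀ l : ℕ, l.Prime → ¬ p ∣ l → ¬ p ∣ l - 1 → bad < l → ∀ g : SLQ, g ∈ Gam q m →
      CZ q (m * l ^ 2) (g 1 0) → Φ (hQ (l : ℚ) * g * (hQ (l : ℚ))⁻¹) = Φ g)
    {g : SLQ} (hg : g ∈ Gam q m) (n : ℤ) (hn : IsCoprime n (d : ℤ)) (h00 : g 0 0 = (d : ℚ))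
    (h10 : g 1 0 = (m : ℚ) * (n : ℚ)) : Φ g = 0 := by
  have : Fact d.Prime := ⟨hd⟩
  have : Fact p.Prime := ⟨hp⟩
  rw [killCol32_G_eq hdm h hg hn h00 h10]
  refine kill_of_squares (d := d) (p := p) hp2 hdp (m : ℤ) (killCol32_coprime_d_m hdm).symm
    (max bad d) hV (killCol32_G q m (d : ℤ) hdm Φ) (killCol32_h1 hdm h) ?_
    (killCol32_h3 hdm h hAw) (killCol32_h4 hdm h 1 (Or.inl rfl))
    (killCol32_h4 hdm h (-1) (Or.inr rfl)) n hn
  intro l hl hpl hpl1 hbl n hn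
  have hbl1 : bad < l := lt_of_le_of_lt (le_max_left _ _) hbl
  have hdl : d < l := lt_of_le_of_lt (le_max_right _ _) hbl
  have hld : IsCoprime (l : ℤ) (d : ℤ) := by
    rw [Int.isCoprime_iff_gcd_eq_one, Int.gcd_natCast_natCast]
    exact (Nat.coprime_primes hl hd).2 (Nat.ne_of_gt hdl)
  exact killCol32_h2 hdm h l hl.ne_zero hld (hB l hl hpl hpl1 hbl1) n hn

end Fermat.Agent.S41.CSP11
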