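/-
S41 / C4 [CSP] (helper11): STEP C of the elementary CSP proof (report #3042), matrix side.

`Φ` a parabolic hom of level `m` on `Γ(m)[1/q]` with values in a `p`-torsion group, invariant under
conjugation by `u(t)` (`t ∈ ℤ[1/q]`) and by `w` (STEP A) and by `h(k)` on `{g : g₁₀ ∈ m k² A}` for
primes `k` with `p ∤ k (k - 1)` (STEP B).  Then `Φ = 0` on `Γ(m)[1/q]`  (`killMat`).

The arithmetic heart is `kill_of_squares` (KillC.lean, helper86); the number theory in `ℤ[1/q]`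
is `exists_prime_eq_add_mul_modEq`, `exists_int_rep` (NumCDir.lean, helper92) and
`numC_exists_principalQ_col` (NumC.lean, helper32).
-/
import Fermat.Agent.S41.CSP11.StepA
import Fermat.Agent.S41.CSP11.KillC
import Fermat.Agent.S41.CSP11.NumC
import Fermat.Agent.S41.CSP11.NumCDir

set_option autoImplicit false
set_option linter.unusedSectionVars false

namespace Fermat.Agent.S41.CSP11

open Matrix Fermat.Agent.S41.Amalgam95 Fermat.Agent.S41.Ihara95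

section KillMat

variable {q m p : ℕ} {V : Type} [AddCommGroup V] {Φ : SLQ → V}

/-- entries of `h(e) g h(e)⁻¹` -/
lemma killMat_hQ_conj_entries {e : ℚ} (he : e ≠ 0) (g : SLQ) :
    (hQ e * g * (hQ e)⁻¹) 0 0 = g 0 0 ∧ (hQ e * g * (hQ e)⁻¹) 0 1 = e ^ 2 * g 0 1 ∧
    (hQ e * g * (hQ e)⁻¹) 1 0 = g 1 0 / e ^ 2 ∧ (hQ e * g * (hQ e)⁻¹) 1 1 = g 1 1 := by
  refine ⟨?_, ?_, ?_, ?_⟩ <;>
  · simp only [mul_00, mul_01, mul_10, mul_11, inv_00, inv_01, inv_10, inv_11, hQ_00 he, hQ_01 he,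
      hQ_10 he, hQ_11 he]
    field_simp
    try ring

/-- a prime `d ≠ q` is not invertible in `ℤ[1/q]` -/
lemma killMat_not_unit {d : ℕ} (hq : q.Prime) (hd : d.Prime) (hdq : d ≠ q) {x : ℚ}
    (hx : IsAway q x) (h : (d : ℚ) * x = 1) : False := by
  obtain ⟨k, r, hr⟩ := hx
  have h1 : ((d : ℤ) * r : ℤ) = (q : ℤ) ^ k := by
    have : (((d : ℤ) * r : ℤ) : ℚ) = (((q : ℤ) ^ k : ℤ) : ℚ) := by
      push_cast
      rw [← hr]
      linear_combination (q : ℚ) ^ k * h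
    exact_mod_cast this
  have h2 : (d : ℤ) ∣ (q : ℤ) ^ k := ⟨r, h1.symm⟩
  have h3 : d ∣ q ^ k := by exact_mod_cast h2
  have h4 : d ∣ q := hd.dvd_of_dvd_pow h3
  exact hdq ((Nat.prime_dvd_prime_iff_eq hd hq).1 h4)

/-- first column of `(w g w⁻¹)⁻¹` -/
lemma killMat_wQ_conj_inv_col (g : SLQ) :
    ((wQ * g * wQ⁻¹)⁻¹) 0 0 = g 0 0 ∧ ((wQ * g * wQ⁻¹)⁻¹) 1 0 = g 0 1 := by
  constructor
  · rw [inv_00, wQ_inv]
    simp only [mul_00, mul_01, mul_10, mul_11, mkQ_00, mkQ_01, mkQ_10, mkQ_11, wQ_00, wQ_01, wQ_10,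
      wQ_11]
    ring
  · rw [inv_10, wQ_inv]
    simp only [mul_00, mul_01, mul_10, mul_11, mkQ_00, mkQ_01, mkQ_10, mkQ_11, wQ_00, wQ_01, wQ_10,
      wQ_11]
    ring

/-- **STEP C for a prime first entry `d ≡ 1 mod m`.** -/
theorem killMat_prime (hq : q.Prime) (hp : p.Prime) (hp2 : p ≠ 2) (hm : 0 < m)
    (hV : ∀ v : V, p • v = 0) (h : ParHom q m Φ) (hW : ConjInv q m Φ wQ)
    (hB : ∀ k : ℕ, k.Prime → ¬ p ∣ k → ¬ p ∣ k - 1 → k.Coprime m → k.Coprime q →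
      ∀ g ∈ Gam q m, CZ q (m * k ^ 2) (g 1 0) → Φ (hQ (k : ℚ) * g * (hQ (k : ℚ))⁻¹) = Φ g)
    {d : ℕ} (hd : d.Prime) (hd1 : (d : ℤ) ≡ 1 [ZMOD (m : ℤ)]) (hdp : d ≠ p) (hdq : d ≠ q) :
    ∀ g ∈ Gam q m, g 0 0 = (d : ℚ) → Φ g = 0 := by
  classical
  have : Fact d.Prime := ⟨hd⟩
  have : Fact p.Prime := ⟨hp⟩
  obtain ⟨j, hj⟩ : ∃ j : ℤ, (d : ℤ) = 1 + j * m := by
    obtain ⟨s, hs⟩ := Int.modEq_iff_dvd.mp hd1
    exact ⟨-s, by linarith⟩
  have hjQ : (d : ℚ) = 1 + (j : ℚ) * (m : ℚ) := by exact_mod_cast hj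
  have hmd : IsCoprime (m : ℤ) (d : ℤ) := ⟨-j, 1, by rw [hj]; ring⟩
  have hmcz : CZ q m (m : ℚ) := ⟨1, IsAway.one, by ring⟩
  -- the function `G`
  let P : ℤ → SLQ → Prop := fun n g =>
    g ∈ Gam q m ∧ g 0 0 = (d : ℚ) ∧ g 1 0 = (m : ℚ) * (n : ℚ)
  let G : ℤ → V := fun n => if hn : ∃ g, P n g then Φ (Classical.choose hn) else 0
  have hG : ∀ n g, P n g → G n = Φ g := by
    intro n g hg
    have hn : ∃ g, P n g := ⟨g, hg⟩
    have hc := Classical.choose_spec hn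
    simp only [G, dif_pos hn]
    exact h.eq_of_col hc.1 hg.1 (hc.2.1.trans hg.2.1.symm) (hc.2.2.trans hg.2.2.symm)
  have hG0 : ∀ n, (¬ ∃ g, P n g) → G n = 0 := by
    intro n hn
    simp only [G, dif_neg hn]
  -- shift by `l(m s)`
  have hshift : ∀ (n s : ℤ) g, P n g → P (n + d * s) (lQ ((m : ℚ) * s) * g) := by
    rintro n s g ⟨hg, h0, h1⟩
    refine ⟨(Gam q m).mul_mem (lQ_mem_Gam (isCongZero_natCast_mul (IsAway.of_int s))) hg, ?_, ?_⟩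
    · rw [lQ_mul_00, h0]
    · rw [lQ_mul_10, h0, h1]; push_cast; ring
  have hΦshift : ∀ (s : ℤ) g, g ∈ Gam q m → Φ (lQ ((m : ℚ) * s) * g) = Φ g := by
    intro s g hg
    have hcz : CZ q m ((m : ℚ) * s) := isCongZero_natCast_mul (IsAway.of_int s)
    rw [h.map_mul _ _ (lQ_mem_Gam hcz) hg, h.map_lQ hcz, zero_add]
  have h1 : ∀ n s : ℤ, G (n + d * s) = G n := by
    intro n s
    by_cases hn : ∃ g, P n g
    · obtain ⟨g, hg⟩ := hn
      rw [hG _ _ (hshift n s g hg), hG _ _ hg, hΦshift s g hg.1]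
    · have hn' : ¬ ∃ g, P (n + d * s) g := by
        rintro ⟨g, hg⟩
        apply hn
        have := hshift (n + d * s) (-s) g hg
        have e : n + d * s + d * (-s) = n := by ring
        rw [e] at this
        exact ⟨_, this⟩
      rw [hG0 _ hn, hG0 _ hn']
  -- base values
  have h4 : G 1 = 0 := by
    have hmem : uQ (j : ℚ) * lQ (m : ℚ) * (uQ (j : ℚ))⁻¹ ∈ Gam q m :=
      Gam_conj_mem (uQ_mem_GA (IsAway.of_int j)) (lQ_mem_Gam hmcz)
    have hP : P 1 (uQ (j : ℚ) * lQ (m : ℚ) * (uQ (j : ℚ))⁻¹) :=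
      ⟨hmem, by rw [uQ_conj_00, lQ_00, lQ_10, hjQ], by rw [uQ_conj_10, lQ_10]; push_cast; ring⟩
    rw [hG _ _ hP]
    exact h.map_unip _ hmem (isUnip_conj _ _ (isUnip_lQ _))
  have h4' : G (-1) = 0 := by
    have hmem : uQ (-(j : ℚ)) * lQ (-(m : ℚ)) * (uQ (-(j : ℚ)))⁻¹ ∈ Gam q m :=
      Gam_conj_mem (uQ_mem_GA (IsAway.of_int j).neg) (lQ_mem_Gam hmcz.neg)
    have hP : P (-1) (uQ (-(j : ℚ)) * lQ (-(m : ℚ)) * (uQ (-(j : ℚ)))⁻¹) :=
      ⟨hmem, by rw [uQ_conj_00, lQ_00, lQ_10, hjQ]; ring,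
        by rw [uQ_conj_10, lQ_10]; push_cast; ring⟩
    rw [hG _ _ hP]
    exact h.map_unip _ hmem (isUnip_conj _ _ (isUnip_lQ _))
  -- squares (STEP B)
  have h2 : ∀ l : ℕ, l.Prime → ¬ p ∣ l → ¬ p ∣ l - 1 → max d (max m q) < l →
      ∀ n : ℤ, IsCoprime n (d : ℤ) → G ((l : ℤ) ^ 2 * n) = G n := by
    intro l hl hpl hpl1 hbad n hn
    have hld : d < l := lt_of_le_of_lt (le_max_left _ _) hbad
    have hlm : m < l := lt_of_le_of_lt ((le_max_left _ _).trans (le_max_right _ _)) hbad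
    have hlq : q < l := lt_of_le_of_lt ((le_max_right _ _).trans (le_max_right _ _)) hbad
    have hlm' : l.Coprime m := (Nat.Prime.coprime_iff_not_dvd hl).2
      (fun hh => absurd (Nat.le_of_dvd hm hh) (not_le.2 hlm))
    have hlq' : l.Coprime q := (Nat.Prime.coprime_iff_not_dvd hl).2
      (fun hh => absurd (Nat.le_of_dvd hq.pos hh) (not_le.2 hlq))
    have hld' : IsCoprime (l : ℤ) (d : ℤ) := by
      have : l.Coprime d := (Nat.Prime.coprime_iff_not_dvd hl).2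
        (fun hh => absurd (Nat.le_of_dvd hd.pos hh) (not_le.2 hld))
      exact Nat.isCoprime_iff_coprime.2 this
    have hcop : IsCoprime (d : ℤ) ((m : ℤ) * ((l : ℤ) ^ 2 * n)) :=
      (IsCoprime.mul_left hmd (IsCoprime.mul_left hld'.pow_left hn)).symm
    obtain ⟨g, hgP, hg00, hg10, -, -⟩ :=
      numC_exists_principalQ_col q m d ((l : ℤ) ^ 2 * n) hd1 hcop
    rw [Int.cast_natCast] at hg00
    have hg : g ∈ Gam q m := hgP
    have hl0 : (l : ℚ) ≠ 0 := by exact_mod_cast hl.ne_zero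
    have hcz : CZ q (m * l ^ 2) (g 1 0) :=
      ⟨(n : ℚ), IsAway.of_int n, by rw [hg10]; push_cast; ring⟩
    have hBl := hB l hl hpl hpl1 hlm' hlq' g hg hcz
    obtain ⟨e00, e01, e10, e11⟩ := killMat_hQ_conj_entries hl0 g
    have hgP' := (mem_Gam_iff q m g).1 hg
    have e10' : (hQ (l : ℚ) * g * (hQ (l : ℚ))⁻¹) 1 0 = (m : ℚ) * (n : ℚ) := by
      rw [e10, hg10]; push_cast; field_simp
    have hmem : hQ (l : ℚ) * g * (hQ (l : ℚ))⁻¹ ∈ Gam q m := by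
      rw [mem_Gam_iff]
      refine ⟨?_, ?_, ?_, ?_⟩
      · rw [e00]; exact hgP'.c00
      · rw [e01]; exact CZ.away_mul (isAway_pow (isAway_natCast q l) 2) hgP'.c01
      · rw [e10']; exact isCongZero_natCast_mul (IsAway.of_int n)
      · rw [e11]; exact hgP'.c11
    have hP' : P n (hQ (l : ℚ) * g * (hQ (l : ℚ))⁻¹) := ⟨hmem, by rw [e00, hg00], e10'⟩
    have hP : P ((l : ℤ) ^ 2 * n) g := ⟨hg, hg00, hg10⟩
    rw [hG _ _ hP, hG _ _ hP', hBl]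
  -- the `w`-relation
  have h3 : ∀ n n' : ℤ, (d : ℤ) ∣ (m : ℤ) ^ 2 * n * n' - 1 → G (-n') = - G n := by
    intro n n' hdvd
    obtain ⟨k, hk⟩ := hdvd
    have hcop : IsCoprime (d : ℤ) ((m : ℤ) * n) := ⟨-k, (m : ℤ) * n', by linear_combination hk⟩
    obtain ⟨g, hgP, hg00, hg10, ⟨b, hb⟩, ⟨e, he⟩⟩ := numC_exists_principalQ_col q m d n hd1 hcop
    rw [Int.cast_natCast] at hg00
    have hg : g ∈ Gam q m := hgP
    have hwg : wQ * g * wQ⁻¹ ∈ Gam q m := Gam_conj_mem (wQ_mem_GA q) hg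
    have hg₂ : (wQ * g * wQ⁻¹)⁻¹ ∈ Gam q m := (Gam q m).inv_mem hwg
    obtain ⟨c00, c10⟩ := killMat_wQ_conj_inv_col g
    have hP₂ : P b ((wQ * g * wQ⁻¹)⁻¹) := ⟨hg₂, c00.trans hg00, c10.trans hb⟩
    have hGb : G b = - G n := by
      rw [hG _ _ hP₂, hG _ _ ⟨hg, hg00, hg10⟩, h.map_inv hwg, hW g hg]
    have hdet := det_eq g
    rw [hg00, hg10, hb, he] at hdet
    have hdetZ : (d : ℤ) * e - (m : ℤ) * b * ((m : ℤ) * n) = 1 := by exact_mod_cast hdet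
    have hdvd2 : (d : ℤ) ∣ ((m : ℤ) * ((m : ℤ) * n)) * (b + n') :=
      ⟨e + k, by linear_combination (-1 : ℤ) * hdetZ + hk⟩
    have hcop2 : IsCoprime (d : ℤ) ((m : ℤ) * ((m : ℤ) * n)) := IsCoprime.mul_right hmd.symm hcop
    obtain ⟨s, hs⟩ := hcop2.dvd_of_dvd_mul_left hdvd2
    have hb' : b = -n' + d * s := by linarith
    rw [← hGb, hb', h1]
  have hkill := kill_of_squares (d := d) (p := p) (V := V) hp2 hdp (m : ℤ) hmd
    (max d (max m q)) hV G h1 h2 h3 h4 h4'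
  -- conclusion
  intro g hg hg00
  obtain ⟨c₁, hc₁, hc⟩ := ((mem_Gam_iff q m g).1 hg).c10
  have hdq' : d.Coprime q := (Nat.coprime_primes hd hq).2 hdq
  obtain ⟨n, s, hs, hns⟩ := exists_int_rep q d hq.ne_zero hdq' c₁ hc₁
  have hczs : CZ q m ((m : ℚ) * (-s)) := isCongZero_natCast_mul hs.neg
  have hg' : lQ ((m : ℚ) * (-s)) * g ∈ Gam q m := (Gam q m).mul_mem (lQ_mem_Gam hczs) hg
  have hP : P n (lQ ((m : ℚ) * (-s)) * g) :=
    ⟨hg', by rw [lQ_mul_00, hg00], by rw [lQ_mul_10, hc, hg00, hns]; ring⟩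
  have hΦ : Φ (lQ ((m : ℚ) * (-s)) * g) = Φ g := by
    rw [h.map_mul _ _ (lQ_mem_Gam hczs) hg, h.map_lQ hczs, zero_add]
  have hn : IsCoprime n (d : ℤ) := by
    have hprime : Prime (d : ℤ) := Nat.prime_iff_prime_int.mp hd
    by_contra hnot
    have hdn : (d : ℤ) ∣ n := by
      by_contra hdn
      exact hnot ((hprime.irreducible.coprime_iff_not_dvd.2 hdn).symm)
    obtain ⟨n', rfl⟩ := hdn
    have hdet := det_eq (lQ ((m : ℚ) * (-s)) * g)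
    rw [hP.2.1, hP.2.2] at hdet
    obtain ⟨-, a01, -, a11⟩ := ((mem_Gam_iff q m _).1 hg').isAwayM
    refine killMat_not_unit hq hd hdq
      (x := (lQ ((m : ℚ) * (-s)) * g) 1 1 - (lQ ((m : ℚ) * (-s)) * g) 0 1 * (m : ℚ) * (n' : ℚ))
      (a11.sub ((a01.mul (isAway_natCast q m)).mul (IsAway.of_int n'))) ?_
    push_cast at hdet
    linear_combination hdet
  rw [← hΦ, ← hG _ _ hP, hkill n hn]

/-- **STEP C**: a parabolic hom of level `m` with values in a `p`-torsion group which is invariant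
under `u(t)`, `w` (STEP A) and `h(k)` (STEP B) vanishes on `Γ(m)[1/q]`. -/
theorem killMat (hq : q.Prime) (hp : p.Prime) (hp2 : p ≠ 2) (hm : 0 < m) (hmq : m.Coprime q)
    (hV : ∀ v : V, p • v = 0) (h : ParHom q m Φ)
    (hU : ∀ t : ℚ, IsAway q t → ConjInv q m Φ (uQ t)) (hW : ConjInv q m Φ wQ)
    (hB : ∀ k : ℕ, k.Prime → ¬ p ∣ k → ¬ p ∣ k - 1 → k.Coprime m → k.Coprime q →
      ∀ g ∈ Gam q m, CZ q (m * k ^ 2) (g 1 0) → Φ (hQ (k : ℚ) * g * (hQ (k : ℚ))⁻¹) = Φ g) :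
    ∀ g ∈ Gam q m, Φ g = 0 := by
  have hmcz : CZ q m (m : ℚ) := ⟨1, IsAway.one, by ring⟩
  have key : ∀ g ∈ Gam q m, g 1 0 ≠ 0 → Φ g = 0 := by
    intro g hg hc0
    have hgP := (mem_Gam_iff q m g).1 hg
    obtain ⟨a00, a01, a10, a11⟩ := hgP.isAwayM
    have hcop : ∃ x y : ℚ, IsAway q x ∧ IsAway q y ∧ g 0 0 * x + g 1 0 * y = 1 :=
      ⟨g 1 1, -(g 0 1), a11, a01.neg, by linear_combination det_eq g⟩
    obtain ⟨d, hd, hdB, hd1, t, ht, hdt⟩ := exists_prime_eq_add_mul_modEq q hq m hmq (g 0 0) (g 1 0)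
      a00 a10 hc0 hcop hgP.c00 hgP.c10 (max p q)
    have hdp : d ≠ p := by
      rintro rfl
      exact absurd (le_max_left d q) (not_le.2 hdB)
    have hdq : d ≠ q := by
      rintro rfl
      exact absurd (le_max_right p d) (not_le.2 hdB)
    have hg' : uQ t * g * (uQ t)⁻¹ ∈ Gam q m := Gam_conj_mem (uQ_mem_GA ht) hg
    rw [← hU t ht g hg]
    exact killMat_prime hq hp hp2 hm hV h hW hB hd hd1 hdp hdq _ hg' (by rw [uQ_conj_00, hdt])
  intro g hg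
  by_cases hc0 : g 1 0 = 0
  · have hg' : lQ (m : ℚ) * g ∈ Gam q m := (Gam q m).mul_mem (lQ_mem_Gam hmcz) hg
    have hΦ : Φ (lQ (m : ℚ) * g) = Φ g := by
      rw [h.map_mul _ _ (lQ_mem_Gam hmcz) hg, h.map_lQ hmcz, zero_add]
    rw [← hΦ]
    apply key _ hg'
    rw [lQ_mul_10, hc0, zero_add]
    have hdet := det_eq g
    rw [hc0, mul_zero, sub_zero] at hdet
    have h00 : g 0 0 ≠ 0 := left_ne_zero_of_mul_eq_one hdet
    have hm0 : (m : ℚ) ≠ 0 := by exact_mod_cast hm.ne'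
    exact mul_ne_zero hm0 h00
  · exact key g hg hc0

end KillMat

end Fermat.Agent.S41.CSP11
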