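/-
S41 / C4 [CSP], route helper11 (#3042), STEP C, reduction (C4) (helper92): every element of
`Γ(m) ⊆ SL₂(ℤ[1/q])` has the same `Ψ`-value as an element of `Γ(m)` whose first column is
`(d, m n)` with `d` a large integer prime, `d ≡ 1 mod m`, and `n` an integer prime to `d`.
-/
import Mathlib
import Fermat.Agent.S41.CSP11.StepA
import Fermat.Agent.S41.CSP11.NumCDir

set_option autoImplicit false

namespace Fermat.Agent.S41.CSP11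

open Matrix Fermat.Agent.S41.Amalgam95 Fermat.Agent.S41.Ihara95

/-- if `d x = 1` with `x ∈ ℤ[1/q]` and `d` a prime, then `d ∣ q`. -/
lemma killRed_prime_dvd_of_unit {q d : ℕ} (hd : d.Prime) {x : ℚ} (hx : IsAway q x)
    (h : (d : ℚ) * x = 1) : d ∣ q := by
  obtain ⟨k, z, hz⟩ := hx
  have h1 : (d : ℤ) * z = (q : ℤ) ^ k := by
    have : (((d : ℤ) * z : ℤ) : ℚ) = (((q : ℤ) ^ k : ℤ) : ℚ) := by
      push_cast
      rw [← hz]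
      linear_combination ((q : ℚ) ^ k) * h
    exact_mod_cast this
  have h2 : (d : ℤ) ∣ (q : ℤ) ^ k := ⟨z, h1.symm⟩
  have h3 : d ∣ q ^ k := by exact_mod_cast h2
  exact hd.dvd_of_dvd_pow h3

variable {q m : ℕ} {V : Type} [AddCommGroup V] {Ψ : SLQ → V}

/-- **(C4) + integer representative.**  Reduction of an arbitrary element of `Γ(m)` to one with
first column `(d, m n)`, `d` a prime `> B`, `d ≡ 1 mod m`, `n ∈ ℤ` prime to `d`. -/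
theorem exists_prime_col (hq : q.Prime) (hm : 0 < m) (hmq : m.Coprime q) (h : ParHom q m Ψ)
    (hAu : ∀ t : ℚ, IsAway q t → ConjInv q m Ψ (uQ t)) {g : SLQ} (hg : g ∈ Gam q m) (B : ℕ) :
    ∃ (d : ℕ) (n : ℤ) (g' : SLQ), d.Prime ∧ B < d ∧ (d : ℤ) ≡ 1 [ZMOD (m : ℤ)] ∧
      IsCoprime n (d : ℤ) ∧ g' ∈ Gam q m ∧ g' 0 0 = (d : ℚ) ∧ g' 1 0 = (m : ℚ) * (n : ℚ) ∧
      Ψ g' = Ψ g := by
  have hmQ : (m : ℚ) ≠ 0 := by exact_mod_cast hm.ne'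
  have hlm : lQ (m : ℚ) ∈ Gam q m := lQ_mem_Gam ⟨1, IsAway.one, by ring⟩
  -- Step 1: make the lower left entry nonzero
  obtain ⟨g₁, hg₁, hΨ₁, hc₁⟩ : ∃ g₁ : SLQ, g₁ ∈ Gam q m ∧ Ψ g₁ = Ψ g ∧ g₁ 1 0 ≠ 0 := by
    by_cases hc : g 1 0 = 0
    · refine ⟨lQ (m : ℚ) * g, (Gam q m).mul_mem hlm hg, ?_, ?_⟩
      · rw [h.map_mul _ _ hlm hg, h.map_lQ ⟨1, IsAway.one, by ring⟩, zero_add]
      · rw [lQ_mul_10, hc, zero_add]
        have hdet := det_eq g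
        rw [hc, mul_zero, sub_zero] at hdet
        have : g 0 0 ≠ 0 := left_ne_zero_of_mul_eq_one hdet
        exact mul_ne_zero hmQ this
    · exact ⟨g, hg, rfl, hc⟩
  -- Step 2: Dirichlet
  have hP₁ : Prin q m g₁ := (mem_Gam_iff q m g₁).1 hg₁
  obtain ⟨a00, a01, a10, a11⟩ := hP₁.isAwayM
  obtain ⟨d, hdp, hdB, hd1, t, ht, hdt⟩ :=
    exists_prime_eq_add_mul_modEq q hq m hmq (g₁ 0 0) (g₁ 1 0) a00 a10 hc₁
      ⟨g₁ 1 1, -(g₁ 0 1), a11, a01.neg, by linear_combination det_eq g₁⟩ hP₁.c00 hP₁.c10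
      (B + q)
  have hdq : ¬ d ∣ q := fun hdvd => by
    have := Nat.le_of_dvd hq.pos hdvd
    omega
  have hdcop : d.Coprime q := (Nat.Prime.coprime_iff_not_dvd hdp).2 hdq
  have hutG : uQ t ∈ GA q := uQ_mem_GA ht
  have hg₂ : uQ t * g₁ * (uQ t)⁻¹ ∈ Gam q m := Gam_conj_mem hutG hg₁
  have hΨ₂ : Ψ (uQ t * g₁ * (uQ t)⁻¹) = Ψ g := by rw [hAu t ht g₁ hg₁, hΨ₁]
  have h₂00 : (uQ t * g₁ * (uQ t)⁻¹) 0 0 = (d : ℚ) := by rw [uQ_conj_00, hdt]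
  have h₂10 : (uQ t * g₁ * (uQ t)⁻¹) 1 0 = g₁ 1 0 := uQ_conj_10 t g₁
  -- Step 3: integer representative of the lower left entry
  obtain ⟨c₁, hc₁A, hc₁⟩ := hP₁.c10
  obtain ⟨n, s, hs, hns⟩ := exists_int_rep q d hq.ne_zero hdcop c₁ hc₁A
  have hms : CZ q m (-((m : ℚ) * s)) := ⟨-s, hs.neg, by ring⟩
  have hls : lQ (-((m : ℚ) * s)) ∈ Gam q m := lQ_mem_Gam hms
  have hg₃ : lQ (-((m : ℚ) * s)) * (uQ t * g₁ * (uQ t)⁻¹) ∈ Gam q m := (Gam q m).mul_mem hls hg₂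
  have hΨ₃ : Ψ (lQ (-((m : ℚ) * s)) * (uQ t * g₁ * (uQ t)⁻¹)) = Ψ g := by
    rw [h.map_mul _ _ hls hg₂, h.map_lQ hms, zero_add, hΨ₂]
  have h₃00 : (lQ (-((m : ℚ) * s)) * (uQ t * g₁ * (uQ t)⁻¹)) 0 0 = (d : ℚ) := by
    rw [lQ_mul_00, h₂00]
  have h₃10 : (lQ (-((m : ℚ) * s)) * (uQ t * g₁ * (uQ t)⁻¹)) 1 0 = (m : ℚ) * (n : ℚ) := by
    rw [lQ_mul_10, h₂10, h₂00, hc₁, hns]; ring
  -- Step 4: coprimality
  have hcop : IsCoprime n (d : ℤ) := by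
    have hdpZ : Prime (d : ℤ) := Nat.prime_iff_prime_int.1 hdp
    rw [isCoprime_comm, Prime.coprime_iff_not_dvd hdpZ]
    rintro ⟨n', hn'⟩
    set g₃ := lQ (-((m : ℚ) * s)) * (uQ t * g₁ * (uQ t)⁻¹) with hg₃def
    have hP₃ : Prin q m g₃ := (mem_Gam_iff q m g₃).1 hg₃
    obtain ⟨b00, b01, b10, b11⟩ := hP₃.isAwayM
    have hdet := det_eq g₃
    rw [h₃00, h₃10, hn'] at hdet
    have hx : IsAway q (g₃ 1 1 - g₃ 0 1 * ((m : ℚ) * n')) :=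
      b11.sub (b01.mul ((isAway_natCast q m).mul (IsAway.of_int n')))
    have := killRed_prime_dvd_of_unit hdp hx (by push_cast at hdet; linear_combination hdet)
    exact hdq this
  exact ⟨d, n, _, hdp, by omega, hd1, hcop, hg₃, h₃00, h₃10, hΨ₃⟩

end Fermat.Agent.S41.CSP11
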