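/-
S41 / C4 [CSP], file F2-core (helper70): the pure number theory of step (A3) of helper11's proof.
Mathlib only (Dirichlet + CRT + Fermat's little theorem + a geometric sum).

Given a prime `q`, a level `M` prime to `q`, an integer `a0 > 0` prime to `M` and a class `κ`
prime to `a0`, there are a prime `c0`, an `M`-part `L` of `q ^ (2 φ(M)) - 1` and an exponent `k` with
`q ^ k ≡ 1 [MOD M]`, `(q ^ k) ^ 2 = 1 + L * c0 * w`, `w` prime to `M`, and
`(L / M) * c0 ≡ κ [MOD a0]`.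
-/
import Mathlib

set_option autoImplicit false

namespace Fermat.Agent.S41.CSP11.Num70

open Finset

/-- split `n = L * R` with `R` coprime to `M` and every prime factor of `L` dividing `M` -/
lemma exists_split (M : ℕ) : ∀ n : ℕ, 0 < n → ∃ L R : ℕ, n = L * R ∧ R.Coprime M ∧
    ∀ l : ℕ, l.Prime → l ∣ L → l ∣ M := by
  intro n
  induction n using Nat.strong_induction_on with
  | _ n ih =>
    intro hn
    by_cases h : n.Coprime M
    · refine ⟨1, n, by simp, h, fun l hl hdvd => ?_⟩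
      have := Nat.le_of_dvd one_pos hdvd
      have := hl.two_le
      omega
    · obtain ⟨l, hl, hln, hlM⟩ := Nat.Prime.not_coprime_iff_dvd.mp h
      obtain ⟨n', rfl⟩ := hln
      have hn' : 0 < n' := Nat.pos_of_mul_pos_left hn
      have hlt : n' < l * n' := by
        have := hl.two_le
        nlinarith
      obtain ⟨L, R, hLR, hR, hL⟩ := ih n' hlt hn'
      refine ⟨l * L, R, by rw [hLR]; ring, hR, ?_⟩
      intro l' hl' hdvd
      rcases (Nat.Prime.dvd_mul hl').mp hdvd with h1 | h1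
      · rwa [(Nat.prime_dvd_prime_iff_eq hl' hl).mp h1]
      · exact hL l' hl' h1

/-- a geometric sum of a number `≡ 1 [MOD M]` is congruent to its length -/
lemma geom_sum_modEq {M x : ℕ} (hx : x ≡ 1 [MOD M]) (j : ℕ) :
    (∑ i ∈ range j, x ^ i) ≡ j [MOD M] := by
  rw [← ZMod.natCast_eq_natCast_iff]
  have hx' : (x : ZMod M) = 1 := by
    have := (ZMod.natCast_eq_natCast_iff x 1 M).mpr hx
    simpa using this
  push_cast
  rw [hx']
  simp

end Fermat.Agent.S41.CSP11.Num70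

namespace Fermat.Agent.S41.CSP11

open Finset Num70

/-- **(A3), arithmetic core.** -/
theorem exists_prime_unit {q M a0 : ℕ} (hq : q.Prime) (hM : 0 < M) (hMq : M.Coprime q)
    (ha0 : 0 < a0) (ha0M : a0.Coprime M) {κ : ℤ} (hκ : IsCoprime κ (a0 : ℤ)) :
    ∃ c0 L k w : ℕ, c0.Prime ∧ M ∣ L ∧ ((a0 : ℤ) ∣ ((L / M * c0 : ℕ) : ℤ) - κ) ∧
      q ^ k ≡ 1 [MOD M] ∧ (q ^ k) ^ 2 = 1 + L * c0 * w ∧ w.Coprime M := by
  classical
  -- the unit `e0 = q ^ φ(M) ≡ 1 [MOD M]`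
  obtain ⟨e0, he0⟩ : ∃ e0 : ℕ, e0 = q ^ Nat.totient M := ⟨_, rfl⟩
  have he0M : e0 ≡ 1 [MOD M] := by rw [he0]; exact Nat.ModEq.pow_totient hMq.symm
  have hφ : 0 < Nat.totient M := Nat.totient_pos.mpr hM
  have he0_2 : 2 ≤ e0 := by
    rw [he0]
    calc 2 ≤ q := hq.two_le
      _ = q ^ 1 := (pow_one q).symm
      _ ≤ q ^ Nat.totient M := Nat.pow_le_pow_right hq.pos hφ
  -- `n = e0 ^ 2 - 1 = L * R`
  obtain ⟨e, rfl⟩ : ∃ e, e0 = e + 1 := ⟨e0 - 1, by omega⟩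
  obtain ⟨n, hn⟩ : ∃ n : ℕ, (e + 1) ^ 2 = n + 1 := ⟨e * (e + 2), by ring⟩
  have hn' : n = e * (e + 2) := by
    have : (e + 1) ^ 2 = e * (e + 2) + 1 := by ring
    omega
  have hnpos : 0 < n := by
    rw [hn']
    have : 1 ≤ e := by omega
    positivity
  obtain ⟨L, R, hLR, hRM, hLprime⟩ := exists_split M n hnpos
  -- `M ∣ L`
  have hMn : M ∣ n := by
    have h1 : M ∣ e + 1 - 1 := (Nat.modEq_iff_dvd' (by omega)).mp he0M.symm
    rw [Nat.add_sub_cancel] at h1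
    rw [hn']
    exact Dvd.dvd.mul_right h1 _
  have hML : M ∣ L := by
    rw [hLR] at hMn
    exact (Nat.Coprime.symm hRM).dvd_of_dvd_mul_right hMn
  obtain ⟨L', hL'⟩ := hML
  have hLdiv : L / M = L' := by rw [hL']; exact Nat.mul_div_cancel_left _ hM
  -- `L` and `L'` are prime to `a0`
  have hLa0 : L.Coprime a0 := by
    refine Nat.coprime_of_dvd fun l hl h1 h2 => ?_
    have h3 : l ∣ M := hLprime l hl h1
    have : l ∣ Nat.gcd a0 M := Nat.dvd_gcd h2 h3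
    rw [ha0M] at this
    exact hl.one_lt.ne' (Nat.dvd_one.mp this)
  have hL'a0 : L'.Coprime a0 := Nat.Coprime.coprime_dvd_left ⟨M, by rw [hL']; ring⟩ hLa0
  -- the modulus for the side conditions
  obtain ⟨Ms, hMs⟩ : ∃ Ms : ℕ, Ms = if Even M then 2 * M else M := ⟨_, rfl⟩
  have hMspos : 0 < Ms := by rw [hMs]; split_ifs <;> omega
  have ha0Ms : a0.Coprime Ms := by
    rw [hMs]; split_ifs with hev
    · have h2 : a0.Coprime 2 := by
        obtain ⟨m, hm⟩ := hev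
        exact Nat.Coprime.coprime_dvd_right ⟨m, by omega⟩ ha0M
      exact Nat.Coprime.mul_right h2 ha0M
    · exact ha0M
  -- the target class mod `a0`
  have : NeZero a0 := ⟨ha0.ne'⟩
  have : NeZero (a0 * Ms) := ⟨(Nat.mul_pos ha0 hMspos).ne'⟩
  obtain ⟨u, hu⟩ : ∃ u : ZMod a0, u = (κ : ZMod a0) * ((L' : ℕ) : ZMod a0)⁻¹ := ⟨_, rfl⟩
  have hκu : IsUnit (κ : ZMod a0) := by
    obtain ⟨x, y, hxy⟩ := hκ
    have : ((x * κ + y * (a0 : ℤ) : ℤ) : ZMod a0) = 1 := by rw [hxy]; simp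
    push_cast at this
    rw [ZMod.natCast_self, mul_zero, add_zero] at this
    exact IsUnit.of_mul_eq_one _ (by rw [mul_comm]; exact this)
  have hL'inv : ((L' : ℕ) : ZMod a0) * ((L' : ℕ) : ZMod a0)⁻¹ = 1 :=
    ZMod.coe_mul_inv_eq_one L' hL'a0
  have huL : u * ((L' : ℕ) : ZMod a0) = (κ : ZMod a0) := by
    rw [hu, mul_assoc, mul_comm (((L' : ℕ) : ZMod a0)⁻¹), hL'inv, mul_one]
  have huu : IsUnit u := by
    rw [hu]
    exact hκu.mul (IsUnit.of_mul_eq_one _ (by rw [mul_comm]; exact hL'inv))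
  -- a natural number `z ≡ u [MOD a0]`, `z ≡ -1 [MOD Ms]`
  obtain ⟨z, hz1, hz2⟩ := Nat.chineseRemainder ha0Ms u.val (Ms - 1)
  have hzu : ((z : ℕ) : ZMod a0) = u := by
    rw [(ZMod.natCast_eq_natCast_iff z u.val a0).mpr hz1, ZMod.natCast_zmod_val]
  have hza0 : z.Coprime a0 := by
    rw [← ZMod.isUnit_iff_coprime, hzu]; exact huu
  have hzMs : z.Coprime Ms := by
    have h1 : (Ms - 1).Coprime Ms := (Nat.coprime_self_sub_left hMspos).mpr (Nat.coprime_one_left _)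
    unfold Nat.Coprime at h1 ⊢
    rw [hz2.gcd_eq]; exact h1
  have hzunit : IsUnit ((z : ℕ) : ZMod (a0 * Ms)) :=
    (ZMod.isUnit_iff_coprime z (a0 * Ms)).mpr (Nat.Coprime.mul_right hza0 hzMs)
  -- Dirichlet
  obtain ⟨c0, hc0gt, hc0, hc0z⟩ := Nat.forall_exists_prime_gt_and_eq_mod hzunit (q + M + 2)
  have hc0z' : c0 ≡ z [MOD a0 * Ms] := (ZMod.natCast_eq_natCast_iff c0 z (a0 * Ms)).mp hc0z
  have hc0a0 : ((c0 : ℕ) : ZMod a0) = u := by
    rw [(ZMod.natCast_eq_natCast_iff c0 z a0).mpr (Nat.ModEq.of_mul_right Ms hc0z'), hzu]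
  have hc0Ms : c0 ≡ Ms - 1 [MOD Ms] := (Nat.ModEq.of_mul_left a0 hc0z').trans hz2
  -- `c0 = 2 j + 1`, `M ∣ j + 1`
  have hc0odd : Odd c0 := hc0.odd_of_ne_two (by omega)
  obtain ⟨j, hj⟩ := hc0odd
  have hMsdvd : Ms ∣ c0 + 1 := by
    have h1 : c0 + 1 ≡ Ms - 1 + 1 [MOD Ms] := Nat.ModEq.add_right 1 hc0Ms
    rw [Nat.sub_add_cancel hMspos] at h1
    exact (Nat.modEq_zero_iff_dvd).mp (h1.trans (Nat.modEq_zero_iff_dvd.mpr dvd_rfl))
  have hMj : M ∣ j + 1 := by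
    have h2 : c0 + 1 = 2 * (j + 1) := by omega
    rw [h2, hMs] at hMsdvd
    split_ifs at hMsdvd with hev
    · exact Nat.dvd_of_mul_dvd_mul_left (by norm_num) hMsdvd
    · have hodd : M.Coprime 2 := Nat.coprime_two_right.mpr (Nat.not_even_iff_odd.mp hev)
      exact hodd.dvd_of_dvd_mul_left hMsdvd
  have hjM : j.Coprime M := by
    have h1 : j.Coprime (j + 1) := by simp
    exact Nat.Coprime.coprime_dvd_right hMj h1
  -- the geometric sum
  obtain ⟨Sg, hSg⟩ : ∃ Sg : ℕ, Sg = ∑ i ∈ range j, (n + 1) ^ i := ⟨_, rfl⟩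
  have hgeom : Sg * n + 1 = (n + 1) ^ j := by rw [hSg]; exact geom_sum_mul_add n j
  have hn1M : n + 1 ≡ 1 [MOD M] := by
    have : n + 1 ≡ 0 + 1 [MOD M] := Nat.ModEq.add_right 1 (Nat.modEq_zero_iff_dvd.mpr hMn)
    simpa using this
  have hSgM : Sg.Coprime M := by
    have h1 : Sg ≡ j [MOD M] := by rw [hSg]; exact geom_sum_modEq hn1M j
    unfold Nat.Coprime at hjM ⊢
    rw [h1.gcd_eq]; exact hjM
  -- Fermat: `c0 ∣ Sg * n`
  have hqc0 : q.Coprime c0 := (Nat.coprime_primes hq hc0).mpr (by omega)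
  have hfermat : (e + 1) ^ (c0 - 1) ≡ 1 [MOD c0] := by
    have h1 : (e + 1).Coprime c0 := by rw [he0]; exact Nat.Coprime.pow_left _ hqc0
    have := Nat.ModEq.pow_totient h1
    rwa [Nat.totient_prime hc0] at this
  have hpow : (n + 1) ^ j = (e + 1) ^ (c0 - 1) := by
    rw [← hn, ← pow_mul]
    congr 1
    omega
  have hc0dvd : c0 ∣ Sg * n := by
    have h1 : Sg * n + 1 ≡ 1 [MOD c0] := by rw [hgeom, hpow]; exact hfermat
    have h2 : c0 ∣ Sg * n + 1 - 1 := (Nat.modEq_iff_dvd' (by omega)).mp h1.symm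
    rwa [Nat.add_sub_cancel] at h2
  have hc0L : c0.Coprime L := by
    rw [Nat.Prime.coprime_iff_not_dvd hc0]
    intro h
    have h1 : c0 ∣ M := hLprime c0 hc0 h
    have := Nat.le_of_dvd hM h1
    omega
  have hc0dvd' : c0 ∣ Sg * R := by
    have h1 : c0 ∣ L * (Sg * R) := by
      have : Sg * n = L * (Sg * R) := by rw [hLR]; ring
      rwa [this] at hc0dvd
    exact hc0L.dvd_of_dvd_mul_left h1
  obtain ⟨w, hw⟩ := hc0dvd'
  have hwM : w.Coprime M :=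
    Nat.Coprime.coprime_dvd_left ⟨c0, by rw [hw]; ring⟩ (Nat.Coprime.mul_left hSgM hRM)
  refine ⟨c0, L, Nat.totient M * j, w, hc0, ⟨L', hL'⟩, ?_, ?_, ?_, hwM⟩
  · -- `a0 ∣ L' * c0 - κ`
    rw [hLdiv, ← ZMod.intCast_zmod_eq_zero_iff_dvd]
    push_cast
    rw [hc0a0, mul_comm, huL]
    ring
  · -- `q ^ k ≡ 1 [MOD M]`
    rw [pow_mul, ← he0]
    simpa using he0M.pow j
  · -- `(q ^ k) ^ 2 = 1 + L * c0 * w`
    rw [pow_mul, ← he0, ← pow_mul, mul_comm j 2, pow_mul, hn, ← hgeom, hLR]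
    have : Sg * (L * R) = L * (Sg * R) := by ring
    rw [this, hw]
    ring

end Fermat.Agent.S41.CSP11
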