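/-
S41 / C4 [CSP], file F2 (helper70): step (A3) of helper11's proof, packaged for STEP A.

`numA3`: for a unimodular column `(a, c)` of level `M` over `ℤ[1/q]` there is `s ∈ ℤ[1/q]` such that,
with `c' = c + M s a`, every translate `a + t c'` (`t ∈ ℤ[1/q]`) is of the form
`e² a - M r c'` with `e = q ^ k ≡ 1 mod M` a unit of `ℤ[1/q]` and `r ∈ ℤ[1/q]`.
-/
import Fermat.Agent.S41.Ihara95.Core
import Fermat.Agent.S41.CSP11.NumA3Core

set_option autoImplicit false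

namespace Fermat.Agent.S41.CSP11.Num70

open Fermat.Agent.S41.Amalgam95 Fermat.Agent.S41.Ihara95

lemma isAway_natCast (q : ℕ) (i : ℕ) : IsAway q (i : ℚ) := by
  simpa using IsAway.of_int (q := q) (i : ℤ)

lemma isAway_q_pow (q : ℕ) (k : ℕ) : IsAway q ((q : ℚ) ^ k) := by
  simpa using IsAway.of_int (q := q) ((q : ℤ) ^ k)

/-- `x / q ^ n ∈ ℤ[1/q]` for an integer `x` -/
lemma isAway_int_div_pow (q : ℕ) (hq : q ≠ 0) (z : ℤ) (n : ℕ) :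
    IsAway q ((z : ℚ) / (q : ℚ) ^ n) := by
  have hq' : (q : ℚ) ≠ 0 := by exact_mod_cast hq
  exact ⟨n, z, by field_simp⟩

/-- binomial tail -/
lemma one_add_pow_tail {q : ℕ} {x : ℚ} (hx : IsAway q x) (i : ℕ) :
    ∃ r : ℚ, IsAway q r ∧ (1 + x) ^ i = 1 + i * x + x ^ 2 * r := by
  induction i with
  | zero => exact ⟨0, IsAway.zero, by simp⟩
  | succ i ih =>
    obtain ⟨r, hr, h⟩ := ih
    refine ⟨i + r + x * r, ((isAway_natCast q i).add hr).add (hx.mul hr), ?_⟩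
    rw [pow_succ, h]
    push_cast
    ring

/-- decomposition `α = ± q ^ v * a0` with `a0` prime to `q` -/
lemma exists_unit_decomp {q : ℕ} (hq : q.Prime) {α : ℤ} (hα : α ≠ 0) :
    ∃ (v a0 : ℕ) (ε : ℤ), (ε = 1 ∨ ε = -1) ∧ 0 < a0 ∧ q.Coprime a0 ∧
      α = ε * (q : ℤ) ^ v * (a0 : ℤ) := by
  have hne : α.natAbs ≠ 0 := Int.natAbs_ne_zero.mpr hα
  refine ⟨α.natAbs.factorization q, α.natAbs / q ^ α.natAbs.factorization q, ?_⟩
  have hdec := Nat.ordProj_mul_ordCompl_eq_self α.natAbs q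
  have hdec' : ((q : ℤ) ^ α.natAbs.factorization q) *
      ((α.natAbs / q ^ α.natAbs.factorization q : ℕ) : ℤ) = (α.natAbs : ℤ) := by
    exact_mod_cast hdec
  rcases Int.natAbs_eq α with h | h
  · exact ⟨1, Or.inl rfl, Nat.ordCompl_pos q hne, Nat.coprime_ordCompl hq hne, by
      rw [one_mul, hdec']; exact h⟩
  · exact ⟨-1, Or.inr rfl, Nat.ordCompl_pos q hne, Nat.coprime_ordCompl hq hne, by
      rw [mul_assoc, hdec']; linarith⟩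

/-- every class of `ℤ[1/q] / M` is a natural multiple of a unit `β` -/
lemma exists_nat_mul_congr {q M : ℕ} (hq : q.Prime) (hM : 0 < M) (hMq : M.Coprime q) {β : ℤ}
    (hβ : IsCoprime β (M : ℤ)) {t : ℚ} (ht : IsAway q t) :
    ∃ i : ℕ, IsCongZero q M (t - (i : ℚ) * (β : ℚ)) := by
  obtain ⟨n, m, hnm⟩ := ht
  have hqM : IsCoprime ((q : ℤ) ^ n) (M : ℤ) :=
    IsCoprime.pow_left (Nat.isCoprime_iff_coprime.mpr hMq.symm)
  obtain ⟨u, v, huv⟩ := hβ.mul_left hqM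
  have hnn : 0 ≤ (m * u) % (M : ℤ) := Int.emod_nonneg _ (by exact_mod_cast hM.ne')
  refine ⟨((m * u) % (M : ℤ)).toNat, ?_⟩
  have hi : (((m * u) % (M : ℤ)).toNat : ℤ) = (m * u) % (M : ℤ) := Int.toNat_of_nonneg hnn
  have hdvd : (M : ℤ) ∣ m - (m * u) % (M : ℤ) * (β * (q : ℤ) ^ n) := by
    rw [Int.emod_def]
    refine ⟨m * v + (m * u / (M : ℤ)) * (β * (q : ℤ) ^ n), ?_⟩
    have : m = m * (u * (β * (q : ℤ) ^ n) + v * (M : ℤ)) := by rw [huv, mul_one]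
    linear_combination this
  obtain ⟨d, hd⟩ := hdvd
  have hq' : (q : ℚ) ≠ 0 := by exact_mod_cast hq.ne_zero
  refine ⟨(d : ℚ) / (q : ℚ) ^ n, isAway_int_div_pow q hq.ne_zero d n, ?_⟩
  have hi' : ((((m * u) % (M : ℤ)).toNat : ℕ) : ℚ) = (((m * u) % (M : ℤ) : ℤ) : ℚ) := by
    exact_mod_cast hi
  have hd' : (m : ℚ) - (((m * u) % (M : ℤ) : ℤ) : ℚ) * ((β : ℚ) * (q : ℚ) ^ n) = (M : ℚ) * (d : ℚ) := by
    exact_mod_cast hd
  rw [hi']
  have ht' : t = (m : ℚ) / (q : ℚ) ^ n := by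
    rw [← hnm]; field_simp
  rw [ht']
  field_simp
  linear_combination hd'

end Fermat.Agent.S41.CSP11.Num70

namespace Fermat.Agent.S41.CSP11

open Fermat.Agent.S41.Amalgam95 Fermat.Agent.S41.Ihara95 Num70

/-- **(A3), packaged.** -/
theorem numA3 {q M : ℕ} (hq : q.Prime) (hM : 0 < M) (hMq : M.Coprime q) {a c : ℚ}
    (ha : IsAway q a) (ha1 : IsCongZero q M (a - 1)) (hc : IsCongZero q M c)
    (hcop : ∃ x y : ℚ, IsAway q x ∧ IsAway q y ∧ a * x + c * y = 1) :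
    ∃ s : ℚ, IsAway q s ∧ ∀ t : ℚ, IsAway q t →
      ∃ (k : ℕ) (r : ℚ), IsCongZero q M ((q : ℚ) ^ k - 1) ∧ IsAway q r ∧
        ((q : ℚ) ^ k) ^ 2 * a = a + t * (c + M * s * a) + M * r * (c + M * s * a) := by
  have hq' : (q : ℚ) ≠ 0 := by exact_mod_cast hq.ne_zero
  -- the trivial level
  by_cases hM1 : M = 1
  · subst hM1
    refine ⟨0, IsAway.zero, fun t ht => ⟨0, -t, ⟨0, IsAway.zero, by simp⟩, ht.neg, ?_⟩⟩
    push_cast
    ring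
  have hM2 : 2 ≤ M := by omega
  -- integer data
  obtain ⟨n1, m1, h1⟩ := ha
  obtain ⟨c1, hc1, hcc1⟩ := hc
  obtain ⟨n2, m2, h2⟩ := hc1
  obtain ⟨x, y, ⟨n3, m3, h3⟩, ⟨n4, m4, h4⟩, hxy⟩ := hcop
  obtain ⟨r1, ⟨n5, m5, h5⟩, hr1⟩ := ha1
  -- common exponent `n = n1 + n2`: `a q^n = α`, `c1 q^n = κ`
  obtain ⟨α, hα⟩ : ∃ α : ℤ, α = m1 * (q : ℤ) ^ n2 := ⟨_, rfl⟩
  obtain ⟨κ, hκ⟩ : ∃ κ : ℤ, κ = m2 * (q : ℤ) ^ n1 := ⟨_, rfl⟩
  have haα : a * (q : ℚ) ^ (n1 + n2) = (α : ℚ) := by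
    rw [hα, pow_add, ← mul_assoc, h1]; push_cast; ring
  have hcκ : c1 * (q : ℚ) ^ (n1 + n2) = (κ : ℚ) := by
    rw [hκ, pow_add, mul_comm ((q : ℚ) ^ n1), ← mul_assoc, h2]; push_cast; ring
  -- Bezout over `ℤ`: `α X + M κ Y = q ^ N`
  have hbez : α * (m3 * (q : ℤ) ^ n4) + (M : ℤ) * κ * (m4 * (q : ℤ) ^ n3) =
      (q : ℤ) ^ (n1 + n2 + n3 + n4) := by
    have : ((α * (m3 * (q : ℤ) ^ n4) + (M : ℤ) * κ * (m4 * (q : ℤ) ^ n3) : ℤ) : ℚ) =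
        (((q : ℤ) ^ (n1 + n2 + n3 + n4) : ℤ) : ℚ) := by
      push_cast
      rw [← haα, ← hcκ, ← h3, ← h4]
      have : (q : ℚ) ^ (n1 + n2 + n3 + n4) =
          (a * x + c * y) * (q : ℚ) ^ (n1 + n2 + n3 + n4) := by rw [hxy, one_mul]
      rw [this, hcc1]
      ring
    exact_mod_cast this
  -- `α ≠ 0`
  have hαne : α ≠ 0 := by
    rintro rfl
    have ha0 : a = 0 := by
      have : a * (q : ℚ) ^ (n1 + n2) = 0 := by rw [haα]; simp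
      rcases mul_eq_zero.mp this with h | h
      · exact h
      · exact absurd h (pow_ne_zero _ hq')
    -- then `-1 = M r1`, so `M ∣ q ^ n5`
    have h6 : (M : ℤ) * m5 = -(q : ℤ) ^ n5 := by
      have : (((M : ℤ) * m5 : ℤ) : ℚ) = ((-(q : ℤ) ^ n5 : ℤ) : ℚ) := by
        push_cast
        rw [← h5, ← mul_assoc, ← hr1, ha0]
        ring
      exact_mod_cast this
    have h7 : M ∣ q ^ n5 := by
      have : (M : ℤ) ∣ (q : ℤ) ^ n5 := ⟨-m5, by rw [mul_neg, h6, neg_neg]⟩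
      exact_mod_cast this
    have h8 : M ∣ 1 := by
      have hcop : M.Coprime (q ^ n5) := Nat.Coprime.pow_right _ hMq
      have := Nat.dvd_gcd dvd_rfl h7
      rwa [hcop] at this
    have := Nat.dvd_one.mp h8
    omega
  obtain ⟨v, a0, ε, hε, ha0pos, hqa0, hdec⟩ := exists_unit_decomp hq hαne
  -- `a0` is prime to `M κ`
  have hno : ∀ l : ℕ, l.Prime → l ∣ a0 → ¬ ((l : ℤ) ∣ (M : ℤ) * κ) := by
    intro l hl hla0 hlMκ
    have h1 : (l : ℤ) ∣ α := by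
      rw [hdec]; exact Dvd.dvd.mul_left (by exact_mod_cast hla0) _
    have h2 : (l : ℤ) ∣ (q : ℤ) ^ (n1 + n2 + n3 + n4) := by
      rw [← hbez]
      exact dvd_add (Dvd.dvd.mul_right h1 _) (Dvd.dvd.mul_right hlMκ _)
    have h3 : l ∣ q ^ (n1 + n2 + n3 + n4) := by exact_mod_cast h2
    have h4 : l ∣ q := hl.dvd_of_dvd_pow h3
    have h5 : l = q := (Nat.prime_dvd_prime_iff_eq hl hq).mp h4
    have h6 : q ∣ Nat.gcd q a0 := Nat.dvd_gcd dvd_rfl (h5 ▸ hla0)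
    rw [hqa0] at h6
    exact hq.one_lt.ne' (Nat.dvd_one.mp h6)
  have ha0M : a0.Coprime M := by
    refine Nat.coprime_of_dvd fun l hl h1 h2 => hno l hl h1 ?_
    exact Dvd.dvd.mul_right (by exact_mod_cast h2) _
  have hκa0 : IsCoprime κ (a0 : ℤ) := by
    rw [Int.isCoprime_iff_gcd_eq_one, Int.gcd_eq_natAbs, Int.natAbs_natCast]
    refine Nat.Coprime.symm (Nat.coprime_of_dvd fun l hl h1 h2 => hno l hl h1 ?_)
    exact Dvd.dvd.mul_left (Int.natCast_dvd.mpr h2) _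
  -- the arithmetic core
  obtain ⟨c0, L, k0, w, hc0, ⟨L', hL'⟩, ⟨z, hz⟩, hk0, hsq, hwM⟩ :=
    exists_prime_unit hq hM hMq ha0pos ha0M hκa0
  have hLdiv : L / M = L' := by rw [hL']; exact Nat.mul_div_cancel_left _ hM
  rw [hLdiv] at hz
  -- `s`
  have hεne : (ε : ℚ) ≠ 0 := by rcases hε with rfl | rfl <;> norm_num
  have hεsq : (ε : ℚ) * (ε : ℚ) = 1 := by rcases hε with rfl | rfl <;> norm_num
  have ha0ne : (a0 : ℚ) ≠ 0 := by exact_mod_cast ha0pos.ne'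
  have hαq : (α : ℚ) = (ε : ℚ) * (q : ℚ) ^ v * (a0 : ℚ) := by exact_mod_cast hdec
  have hzq : ((L' : ℚ) * (c0 : ℚ)) - (κ : ℚ) = (a0 : ℚ) * (z : ℚ) := by exact_mod_cast hz
  refine ⟨(ε : ℚ) * (z : ℚ) / (q : ℚ) ^ v, ?_, ?_⟩
  · have := isAway_int_div_pow q hq.ne_zero (ε * z) v
    simpa using this
  -- `c' q^n = L c0`
  have hsα : (ε : ℚ) * (z : ℚ) / (q : ℚ) ^ v * (α : ℚ) = (L' : ℚ) * (c0 : ℚ) - (κ : ℚ) := by
    rw [hzq, hαq]
    have hqv : (q : ℚ) ^ v ≠ 0 := pow_ne_zero _ hq'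
    calc (ε : ℚ) * (z : ℚ) / (q : ℚ) ^ v * ((ε : ℚ) * (q : ℚ) ^ v * (a0 : ℚ))
        = ((ε : ℚ) * (ε : ℚ)) * ((a0 : ℚ) * (z : ℚ)) := by field_simp
      _ = (a0 : ℚ) * (z : ℚ) := by rw [hεsq, one_mul]
  have hLq : (L : ℚ) = (M : ℚ) * (L' : ℚ) := by exact_mod_cast hL'
  have hqn : (q : ℚ) ^ (n1 + n2) ≠ 0 := pow_ne_zero _ hq'
  have ha_eq : a = (α : ℚ) / (q : ℚ) ^ (n1 + n2) := by rw [← haα]; field_simp
  have hc1_eq : c1 = (κ : ℚ) / (q : ℚ) ^ (n1 + n2) := by rw [← hcκ]; field_simp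
  -- `cm = c1 + s a = L' c0 / q^n`
  have hcm : c1 + (ε : ℚ) * (z : ℚ) / (q : ℚ) ^ v * a =
      (L' : ℚ) * (c0 : ℚ) / (q : ℚ) ^ (n1 + n2) := by
    rw [ha_eq, hc1_eq, mul_div_assoc', hsα]
    field_simp
    ring
  have hc' : c + (M : ℚ) * ((ε : ℚ) * (z : ℚ) / (q : ℚ) ^ v) * a =
      (M : ℚ) * ((L' : ℚ) * (c0 : ℚ) / (q : ℚ) ^ (n1 + n2)) := by
    rw [← hcm, hcc1]; ring
  rw [hc']
  -- `β = w α` is prime to `M`
  have hβ : IsCoprime ((w : ℤ) * α) (M : ℤ) := by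
    refine IsCoprime.mul_left (Nat.isCoprime_iff_coprime.mpr hwM) ?_
    rw [hdec]
    refine IsCoprime.mul_left (IsCoprime.mul_left ?_ ?_) (Nat.isCoprime_iff_coprime.mpr ha0M)
    · rcases hε with rfl | rfl
      · exact isCoprime_one_left
      · exact isCoprime_one_left.neg_left
    · exact IsCoprime.pow_left (Nat.isCoprime_iff_coprime.mpr hMq.symm)
  intro t ht
  obtain ⟨i, ρ, hρ, hiρ⟩ := exists_nat_mul_congr hq hM hMq hβ ht
  -- `x = c' s2 = L c0 w`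
  have hx : IsAway q (((L * c0 * w : ℕ) : ℚ)) := isAway_natCast q _
  obtain ⟨ri, hri, htail⟩ := one_add_pow_tail hx i
  have hsq' : ((q : ℚ) ^ k0) ^ 2 = 1 + ((L * c0 * w : ℕ) : ℚ) := by exact_mod_cast hsq
  refine ⟨k0 * i, -ρ + ((L' : ℚ) * (c0 : ℚ) / (q : ℚ) ^ (n1 + n2)) *
      ((w : ℚ) * (q : ℚ) ^ (n1 + n2)) ^ 2 * ri * a, ?_, ?_, ?_⟩
  · -- `q ^ (k0 i) ≡ 1 mod M`
    have h1 : q ^ (k0 * i) ≡ 1 [MOD M] := by
      rw [pow_mul]; simpa using hk0.pow i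
    have h2 : (M : ℤ) ∣ ((q : ℤ) ^ (k0 * i) - 1) := by
      have := (Nat.modEq_iff_dvd' (Nat.one_le_pow _ _ hq.pos)).mp h1.symm
      have h3 : ((M : ℕ) : ℤ) ∣ ((q ^ (k0 * i) - 1 : ℕ) : ℤ) := by exact_mod_cast this
      rwa [Nat.cast_sub (Nat.one_le_pow _ _ hq.pos)] at h3
    have := isCongZero_of_int_dvd q M _ h2
    simpa using this
  · refine hρ.neg.add ?_
    refine IsAway.mul (IsAway.mul (IsAway.mul ?_ ?_) hri) ⟨n1, m1, h1⟩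
    · have := isAway_int_div_pow q hq.ne_zero ((L' : ℤ) * (c0 : ℤ)) (n1 + n2)
      simpa using this
    · have : IsAway q ((w : ℚ) * (q : ℚ) ^ (n1 + n2)) :=
        (isAway_natCast q w).mul (isAway_q_pow q _)
      simpa [pow_two] using this.mul this
  · -- the identity
    have hpow : ((q : ℚ) ^ (k0 * i)) ^ 2 = (1 + ((L * c0 * w : ℕ) : ℚ)) ^ i := by
      rw [← hsq', ← pow_mul, ← pow_mul, ← pow_mul]; ring_nf
    rw [hpow, htail]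
    have hiβ : (i : ℚ) * ((w : ℚ) * (α : ℚ)) = t - (M : ℚ) * ρ := by
      have : (((w : ℤ) * α : ℤ) : ℚ) = (w : ℚ) * (α : ℚ) := by push_cast; ring
      rw [← this]; linarith
    have hα' : (α : ℚ) = a * (q : ℚ) ^ (n1 + n2) := haα.symm
    rw [hα'] at hiβ
    push_cast
    rw [hLq]
    field_simp
    linear_combination ((M : ℚ) * (L' : ℚ) * (c0 : ℚ)) * hiβ

end Fermat.Agent.S41.CSP11
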