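/-
S41 / C4 [CSP]: the THEOREM of helper11's elementary proof of the congruence subgroup property for
`𝔽_p`-valued parabolic characters of `Γ(m) ⊆ SL₂(ℤ[1/q])`, assembled from the landed leaves
(helper86; second implementation of the wiring next to helper30's `CSP11/Theorem.lean`):

* STEP A  `CSP11/StepA.lean` (helper11) with the number theory `CSPNum87.ntInput` (helper87),
* STEP B  `CSP11/StepB.lean` (helper15/helper24),
* STEP C  `CSP11/StepC86.lean` (`stepC_kill`).
-/
import Fermat.Agent.S41.CSP11.StepC86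
import Fermat.Agent.S41.CSP11.StepB
import Fermat.Agent.S41.CSPNum87.NTInput
import Fermat.Agent.S41.CSP95.Plug

set_option autoImplicit false

namespace Fermat.Agent.S41.CSP11

open Matrix Fermat.Agent.S41.Amalgam95 Fermat.Agent.S41.Ihara95

/-- **THEOREM.** `p` an odd prime, `q ≠ p` a prime, `m > 0` prime to `q`, `V` an abelian group killed
by `p`: every parabolic hom of level `m` on `Γ(m) ⊆ SL₂(ℤ[1/q])` with values in `V` vanishes. -/
theorem parHom_eq_zero86 {p q m : ℕ} (hp : p.Prime) (hp2 : p ≠ 2) (hq : q.Prime) (hm : 0 < m)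
    (hmq : m.Coprime q) {V : Type} [AddCommGroup V] (hV : ∀ v : V, p • v = 0) {Φ : SLQ → V}
    (h : ParHom q m Φ) : ∀ g : SLQ, g ∈ Gam q m → Φ g = 0 := by
  have hNT : ∀ M : ℕ, 0 < M → M.Coprime q → NTInput q M :=
    fun M hM hMq => CSPNum87.ntInput q M hq hM hMq
  exact stepC_kill hp hp2 hq hm hmq hV h
    (fun t ht => stepA_uQ hm.ne' (hNT m hm hmq) h ht) (stepA_wQ hm.ne' (hNT m hm hmq) h)
    (max m q) (stepB_prime hp hq hm hmq hNT hV h)

/-- the THEOREM in the literal shape consumed by `CSP95` / `Contract33.FromParHom`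
(`= Contract33.ParHomAll`). -/
theorem parHomZero_all86 : ∀ p q m : ℕ, p.Prime → p ≠ 2 → q.Prime → q ≠ p → 0 < m →
    Nat.Coprime m q → CSP95.ParHomZero p q m := by
  intro p q m hp hp2 hq _ hm hmq Φ hmul hun g hg
  have hV : ∀ v : ZMod p, p • v = 0 := by
    intro v
    rw [nsmul_eq_mul, ZMod.natCast_self, zero_mul]
  have h : ParHom q m Φ := ⟨fun g k hg hk => hmul g k hg hk, fun g hg hu => hun g hg hu⟩
  exact parHom_eq_zero86 hp hp2 hq hm hmq hV h g hg

end Fermat.Agent.S41.CSP11
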